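import Fermat.Agent.LoweringAtP.HeckeCompat.RedClassHecke

/-!
# A norm relation gives an eigenclass

If `div f = m D` and `N_α(β f) = c f ^ a h ^ m`, then `mk D` is an eigenclass of `T_ℓ` with
eigenvalue `a`; the converse is `exists_normN_eq_of_eigen`.
-/

noncomputable section

namespace Fermat.Agent.LoweringAtP.HeckeCompat

open AlgebraicCurve ModularCurve

variable {L : Type*} [Field L] [Algebra ℚ L] [CharZero L] [IsAlgClosed L]
variable {N ℓ : ℕ} [NeZero N] [NeZero ℓ]

omit [CharZero L] in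
/-- A norm relation gives an eigenclass. -/
theorem heckeOperatorAlong_eq_of_normN {m : ℕ} (hm : 0 < m)
    {D : Divisor.degZero (K := L) (F := laurentBaseChange L (modularFunctionFieldFull N))}
    {f : laurentBaseChange L (modularFunctionFieldFull N)} (hf0 : f ≠ 0)
    (hf : ∀ P : Place L (laurentBaseChange L (modularFunctionFieldFull N)),
      P.ord f = (m : ℤ) * (D : Divisor L (laurentBaseChange L (modularFunctionFieldFull N))) P)
    {a : ℤ} {c : L} {h : laurentBaseChange L (modularFunctionFieldFull N)} (hc : c ≠ 0) (hh : h ≠ 0)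
    (he : normN L N ℓ f = algebraMap L _ c * (f ^ a * h ^ m)) :
    heckeOperatorAlong L N ℓ (Pic0.mk D) = a • Pic0.mk D := by
  rw [Hecke.heckeOperatorAlong_eq_pic0, ← sub_eq_zero]
  set φ := QuotientAddGroup.mk' ((Divisor.principal (K := L)
    (F := laurentBaseChange L (modularFunctionFieldFull N))).addSubgroupOf
    (Divisor.degZero (K := L) (F := laurentBaseChange L (modularFunctionFieldFull N))))
  show φ (Pic0.degZeroCorrespondence (heckeBetaBar L N ℓ) (heckeAlphaBar L N ℓ)
      (Hecke.betaIntegral L N ℓ) (Hecke.alphaIntegral L N ℓ)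
      (Hecke.fundamentalIdentityAlong _ _) D) - a • φ D = 0
  rw [← map_zsmul, ← map_sub]
  refine (QuotientAddGroup.eq_zero_iff _).mpr (AddSubgroup.mem_addSubgroupOf.mpr
    ⟨h, hh, fun P => mul_left_cancel₀ (show (m : ℤ) ≠ 0 by omega) ?_⟩)
  rw [AddSubgroupClass.coe_sub, AddSubgroupClass.coe_zsmul, Finsupp.sub_apply, Finsupp.smul_apply,
    smul_eq_mul, Pic0.coe_degZeroCorrespondence, mul_sub]
  have h1 := heckeDivBar_smul (ℓ := ℓ) hf0 hf P
  rw [heckeDivBar] at h1
  rw [h1, he, P.ord_mul (by simpa using hc) (mul_ne_zero (zpow_ne_zero _ hf0) (pow_ne_zero _ hh)),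
    P.ord_mul (zpow_ne_zero _ hf0) (pow_ne_zero _ hh), Place.ord_zpow, FF.ord_pow,
    FF.ord_algebraMap, hf]
  ring

end Fermat.Agent.LoweringAtP.HeckeCompat
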