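import Mathlib.FieldTheory.SeparableDegree
import Fermat.Agent.EichlerShimura.Congruence
import Fermat.Agent.FF.Modular
import Fermat.Agent.Hecke.Curves
import Fermat.Agent.Red.Modular
import Fermat.Agent.TwoComponent.AtkinLehner

/-!
# `T_ℓ` on `X₀(M)` in characteristic prime to `M ℓ`

The Hecke correspondence on `X₀(M)` over an algebraically closed field in which `M ℓ` is
invertible, with the expansion of the norm along the first degeneracy map.
-/

noncomputable section

namespace Fermat.Agent.LoweringAtP.HeckeCompat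

open AlgebraicCurve ModularCurve IntermediateField
open Fermat.Agent.Igusa (jv)

/-- A multiplicative map of fields respects integral powers of nonzero elements. -/
theorem monoidHom_zpow {G H : Type*} [Field G] [Field H] (f : G →* H) {g : G} (hg : g ≠ 0)
    (n : ℤ) : f (g ^ n) = f g ^ n := by
  obtain ⟨u, rfl⟩ : ∃ u : Gˣ, (u : G) = g := ⟨Units.mk0 g hg, rfl⟩
  rw [← Units.val_zpow_eq_zpow_val, ← Units.coe_map, map_zpow, Units.val_zpow_eq_zpow_val,
    Units.coe_map]

variable {k : Type*} [Field k] {M ℓ : ℕ} [NeZero M] [NeZero ℓ]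

variable (k M ℓ) in
/-- The inclusion of the field of level `M` into that of level `M ℓ`. -/
def alphaC : modularFunctionFieldFullC k M →ₐ[k] modularFunctionFieldFullC k (M * ℓ) :=
  IntermediateField.inclusion (full_degeneracyC_le k (dvd_mul_right M ℓ))

variable (k M ℓ) in
/-- The map `f(q) ↦ f(q^ℓ)` from level `M` to level `M ℓ`. -/
def betaC : modularFunctionFieldFullC k M →ₐ[k] modularFunctionFieldFullC k (M * ℓ) :=
  ((qExpandAlgHomC k ℓ).comp (modularFunctionFieldFullC k M).val).codRestrict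
    (modularFunctionFieldFullC k (M * ℓ)).toSubalgebra
    fun x => full_degeneracyC_map_le k (N := M) ℓ ⟨x, x.2, rfl⟩

@[simp]
theorem coe_alphaC (x : modularFunctionFieldFullC k M) :
    (alphaC k M ℓ x : LaurentSeries k) = (x : LaurentSeries k) :=
  IntermediateField.coe_inclusion _ x

omit [NeZero M] in
@[simp]
theorem coe_betaC (x : modularFunctionFieldFullC k M) :
    (betaC k M ℓ x : LaurentSeries k) = qExpand k ℓ (x : LaurentSeries k) :=
  rfl

/-- The function `j` of level `M`. -/
def jC (k : Type*) [Field k] (M : ℕ) : modularFunctionFieldFullC k M :=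
  ⟨jqModC k, jqModC_mem_full k M⟩

variable [IsAlgClosed k] [hℓ : Fact ℓ.Prime]

/-- An automorphism of level `M ℓ` exchanging `α` and `β`. -/
theorem exists_swapC (hℓM : ¬ ℓ ∣ M) (hK : ((M * ℓ : ℕ) : k) ≠ 0) :
    ∃ w : modularFunctionFieldFullC k (M * ℓ) ≃ₐ[k] modularFunctionFieldFullC k (M * ℓ),
      (∀ x, w (alphaC k M ℓ x) = betaC k M ℓ x) ∧ ∀ x, w (betaC k M ℓ x) = alphaC k M ℓ x := by
  obtain ⟨w, hinv, hup, -⟩ := TwoComponent.exists_atkinLehner (K := k) hℓM hK
  have h : w.toAlgHom.comp (alphaC k M ℓ) = betaC k M ℓ := by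
    refine IntermediateField.adjoin_algHom_ext k fun y hy => ?_
    obtain ⟨d, hd, hdM, rfl⟩ := hy
    have := hd
    refine Subtype.ext ?_
    have he : alphaC k M ℓ ⟨qExpand k d (jqModC k),
        IntermediateField.subset_adjoin k _ ⟨d, hd, hdM, rfl⟩⟩ =
        ⟨jv (1 : kˣ) d, TwoComponent.jv_dvd_mem hd.out hdM⟩ :=
      Subtype.ext (Igusa.jv_one_eq_qExpand (R := k) d).symm
    show (w (alphaC k M ℓ _) : LaurentSeries k) = qExpand k ℓ (qExpand k d (jqModC k))
    refine (congrArg (fun z => ((w z : modularFunctionFieldFullC k (M * ℓ)) : LaurentSeries k))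
      he).trans ?_
    rw [hup d hd.out hdM, qExpand_qExpand]
    have : NeZero (d * ℓ) := ⟨mul_ne_zero hd.out (NeZero.ne ℓ)⟩
    rw [Igusa.jv_one_eq_qExpand]
    simp only [mul_comm d ℓ]
  have h' : ∀ x, w (alphaC k M ℓ x) = betaC k M ℓ x := fun x => DFunLike.congr_fun h x
  exact ⟨w, h', fun x => by rw [← h', hinv]⟩

theorem finrankAlong_alphaC (hℓM : ¬ ℓ ∣ M) (hK : ((M * ℓ : ℕ) : k) ≠ 0) :
    finrankAlong k (alphaC k M ℓ) = ℓ + 1 := by
  have hMK : (M : k) ≠ 0 := Igusa.natCast_ne_zero_of_dvd hK (dvd_mul_right M ℓ)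
  have hdeg : ∀ (n : ℕ), (n : k) ≠ 0 →
      Module.finrank k⟮jC k n⟯ (modularFunctionFieldFullC k n) = Igusa.psi n := fun n hn => by
    rw [Red.finrank_adjoin_eq_relfinrank, ← Igusa.relfinrank_full n hn,
      show ((jC k n : modularFunctionFieldFullC k n) : LaurentSeries k) = jv (1 : kˣ) 1 from ?_]
    rw [Igusa.jv_one_eq_qExpand, qExpand_one_apply]; rfl
  have h := Hecke.finrank_adjoin_apply (alphaC k M ℓ) (jC k M)
  rw [show alphaC k M ℓ (jC k M) = jC k (M * ℓ) from Subtype.ext rfl, hdeg _ hK, hdeg _ hMK,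
    Igusa.psi_mul_prime (NeZero.ne M) hℓ.out, if_neg hℓM] at h
  exact (Nat.eq_of_mul_eq_mul_left (Igusa.psi_pos M) h).symm

/-- A full set of conjugates of level `M ℓ` over `α`, in `k((t))` with `q = t ^ ℓ`. -/
theorem exists_conjugatesC (hℓM : ¬ ℓ ∣ M) (hK : ((M * ℓ : ℕ) : k) ≠ 0) {ζ : kˣ}
    (hζ : IsPrimitiveRoot ζ ℓ) :
    ∃ φ : Option (Fin ℓ) → (modularFunctionFieldFullC k (M * ℓ) →+* LaurentSeries k),
      Function.Injective φ ∧
      (∀ i x, φ i (alphaC k M ℓ x) = qExpand k ℓ (x : LaurentSeries k)) ∧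
      (∀ x, φ none (betaC k M ℓ x) = qExpand k ℓ (qExpand k ℓ (x : LaurentSeries k))) ∧
      ∀ (b : Fin ℓ) x, φ (some b) (betaC k M ℓ x) =
        EichlerShimura.twist (ζ ^ (b : ℕ)) (x : LaurentSeries k) := by
  obtain ⟨w, hwα, hwβ⟩ := exists_swapC (k := k) hℓM hK
  let incl : modularFunctionFieldFullC k (M * ℓ) →+* LaurentSeries k :=
    algebraMap (modularFunctionFieldFullC k (M * ℓ)) (LaurentSeries k)
  let φ : Option (Fin ℓ) → (modularFunctionFieldFullC k (M * ℓ) →+* LaurentSeries k) := fun i =>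
    i.elim ((qExpand k ℓ).comp incl) fun b =>
      ((EichlerShimura.twist (ζ ^ (b : ℕ))).comp incl).comp w.toAlgHom.toRingHom
  have hb : ∀ (b : Fin ℓ) (x : modularFunctionFieldFullC k M), φ (some b) (betaC k M ℓ x) =
      EichlerShimura.twist (ζ ^ (b : ℕ)) (x : LaurentSeries k) := fun b x => by
    show EichlerShimura.twist _ ((w (betaC k M ℓ x) : modularFunctionFieldFullC k (M * ℓ)) :
      LaurentSeries k) = _
    rw [hwβ, coe_alphaC]
  have hn : ∀ x : modularFunctionFieldFullC k M, φ none (betaC k M ℓ x) =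
      qExpand k ℓ (qExpand k ℓ (x : LaurentSeries k)) := fun x => rfl
  refine ⟨φ, fun i i' hii => ?_, fun i x => ?_, hn, hb⟩
  · have hval : ∀ b : Fin ℓ, (φ (some b) (betaC k M ℓ (jC k M))).coeff (-1) =
        (((ζ ^ (b : ℕ))⁻¹ : kˣ) : k) := fun b => by
      rw [hb, EichlerShimura.twist_coeff,
        show ((jC k M : modularFunctionFieldFullC k M) : LaurentSeries k) =
        jqModC k from rfl, coeff_jqModC_neg_one, mul_one, zpow_neg_one]
    have hnone : (φ none (betaC k M ℓ (jC k M))).coeff (-1) = 0 := by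
      rw [hn, qExpand_coeff_of_not_dvd]
      rw [dvd_neg]
      intro h
      exact hℓ.out.not_dvd_one (by exact_mod_cast h)
    have he := congrArg (fun f : modularFunctionFieldFullC k (M * ℓ) →+* LaurentSeries k =>
      (f (betaC k M ℓ (jC k M))).coeff (-1)) hii
    rcases i with _ | a <;> rcases i' with _ | b
    · rfl
    · exact absurd (hnone.symm.trans (he.trans (hval b))).symm (Units.ne_zero _)
    · exact absurd ((hval a).symm.trans (he.trans hnone)) (Units.ne_zero _)
    · have h := inv_injective (Units.ext ((hval a).symm.trans (he.trans (hval b))))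
      exact congrArg some (Fin.ext (hζ.pow_inj a.2 b.2 h))
  · rcases i with _ | b
    · rfl
    · show EichlerShimura.twist _ ((w (alphaC k M ℓ x) : modularFunctionFieldFullC k (M * ℓ)) :
        LaurentSeries k) = _
      rw [hwα, coe_betaC, EichlerShimura.twist_qExpand_of_pow_eq_one]
      rw [← pow_mul, mul_comm, pow_mul, hζ.pow_eq_one, one_pow]

theorem separableAlong_alphaC (hℓM : ¬ ℓ ∣ M) (hK : ((M * ℓ : ℕ) : k) ≠ 0) :
    SeparableAlong k (alphaC k M ℓ) := by
  have : NeZero ((ℓ : k)) := ⟨Igusa.natCast_ne_zero_of_dvd hK (dvd_mul_left ℓ M)⟩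
  obtain ⟨z, hz⟩ := HasEnoughRootsOfUnity.exists_primitiveRoot k ℓ
  obtain ⟨φ, hinj, hα, -, -⟩ := exists_conjugatesC hℓM hK
    ((hz.isUnit_unit hℓ.out.ne_zero) : IsPrimitiveRoot _ ℓ)
  let := algebraAlong (alphaC k M ℓ)
  have : FiniteDimensional (modularFunctionFieldFullC k M)
      (modularFunctionFieldFullC k (M * ℓ)) := Hecke.finiteAlong (alphaC k M ℓ)
  let ι : modularFunctionFieldFullC k M →+* AlgebraicClosure (LaurentSeries k) :=
    (algebraMap (LaurentSeries k) _).comp
      ((qExpand k ℓ).comp (algebraMap (modularFunctionFieldFullC k M) (LaurentSeries k)))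
  let := ι.toAlgebra
  let Φ : Option (Fin ℓ) → (modularFunctionFieldFullC k (M * ℓ) →ₐ[modularFunctionFieldFullC k M]
      AlgebraicClosure (LaurentSeries k)) := fun i =>
    { (algebraMap (LaurentSeries k) (AlgebraicClosure (LaurentSeries k))).comp (φ i) with
      commutes' := fun x => congrArg (algebraMap (LaurentSeries k) _) (hα i x) }
  have hΦ : Function.Injective Φ := fun i j h => hinj <| RingHom.ext fun x =>
    (algebraMap (LaurentSeries k) (AlgebraicClosure (LaurentSeries k))).injective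
      (DFunLike.congr_fun h x)
  show Algebra.IsSeparable (modularFunctionFieldFullC k M) (modularFunctionFieldFullC k (M * ℓ))
  rw [← Field.finSepDegree_eq_finrank_iff]
  refine le_antisymm (Field.finSepDegree_le_finrank _ _) ?_
  rw [Field.finSepDegree_eq_of_isAlgClosed (modularFunctionFieldFullC k M)
    (modularFunctionFieldFullC k (M * ℓ)) (AlgebraicClosure (LaurentSeries k))]
  refine le_trans (le_of_eq (finrankAlong_alphaC (k := k) hℓM hK))
    (le_trans (le_of_eq ?_) (Nat.card_le_card_of_injective Φ hΦ))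
  simp [Nat.card_eq_fintype_card]

variable (k M ℓ) in
/-- `g ↦ N_α(β g)`. -/
def normC : modularFunctionFieldFullC k M →* modularFunctionFieldFullC k M :=
  letI := algebraAlong (alphaC k M ℓ)
  (Algebra.norm (modularFunctionFieldFullC k M)).comp
    (betaC k M ℓ : modularFunctionFieldFullC k M →* modularFunctionFieldFullC k (M * ℓ))

/-- The expansion of `N_α(β g)`. -/
theorem qExpand_normC (hℓM : ¬ ℓ ∣ M) (hK : ((M * ℓ : ℕ) : k) ≠ 0) {ζ : kˣ}
    (hζ : IsPrimitiveRoot ζ ℓ) (g : modularFunctionFieldFullC k M) :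
    qExpand k ℓ ((normC k M ℓ g : modularFunctionFieldFullC k M) : LaurentSeries k) =
      qExpand k ℓ (qExpand k ℓ (g : LaurentSeries k)) *
        ∏ b : Fin ℓ, EichlerShimura.twist (ζ ^ (b : ℕ)) (g : LaurentSeries k) := by
  obtain ⟨φ, hinj, hα, hβ, hβb⟩ := exists_conjugatesC hℓM hK hζ
  let := algebraAlong (alphaC k M ℓ)
  have : FiniteDimensional (modularFunctionFieldFullC k M)
      (modularFunctionFieldFullC k (M * ℓ)) := Hecke.finiteAlong (alphaC k M ℓ)
  have : Algebra.IsSeparable (modularFunctionFieldFullC k M)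
      (modularFunctionFieldFullC k (M * ℓ)) := separableAlong_alphaC hℓM hK
  have hd : Module.finrank (modularFunctionFieldFullC k M)
      (modularFunctionFieldFullC k (M * ℓ)) = ℓ + 1 := finrankAlong_alphaC hℓM hK
  have h := EichlerShimura.norm_eq_prod_of_injective
    ((qExpand k ℓ).comp (algebraMap (modularFunctionFieldFullC k M) (LaurentSeries k))) φ hα hinj
    (by rw [hd, Fintype.card_option, Fintype.card_fin]) (betaC k M ℓ g)
  rw [Fintype.prod_option, hβ] at h
  exact h.trans (congrArg _ (Finset.prod_congr rfl fun b _ => hβb b g))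

variable (k M ℓ) in
/-- `T_ℓ` on divisors. -/
def heckeDivC : Divisor k (modularFunctionFieldFullC k M) →+
    Divisor k (modularFunctionFieldFullC k M) :=
  Divisor.correspondence (betaC k M ℓ) (alphaC k M ℓ) (Hecke.isIntegralAlong _)
    (Hecke.isIntegralAlong _)

variable (k M ℓ) in
/-- `T_ℓ` on divisor classes. -/
def heckeC : JZeroC k M →+ JZeroC k M :=
  Pic0.correspondence (betaC k M ℓ) (alphaC k M ℓ) (Hecke.isIntegralAlong _)
    (Hecke.isIntegralAlong _) (Hecke.fundamentalIdentityAlong _ _) (Hecke.finiteAlong _)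
    (Hecke.normFormulaAlong _ _)

omit hℓ in
theorem coe_heckeC_mk (D : Divisor.degZero (K := k) (F := modularFunctionFieldFullC k M)) :
    ∃ D' : Divisor.degZero (K := k) (F := modularFunctionFieldFullC k M),
      (D' : Divisor k (modularFunctionFieldFullC k M)) = heckeDivC k M ℓ D ∧
      heckeC k M ℓ (Pic0.mk D) = Pic0.mk D' :=
  ⟨_, rfl, rfl⟩

omit [IsAlgClosed k] hℓ in
theorem normC_ne_zero {g : modularFunctionFieldFullC k M} (hg : g ≠ 0) : normC k M ℓ g ≠ 0 := by
  let := algebraAlong (alphaC k M ℓ)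
  have : FiniteDimensional (modularFunctionFieldFullC k M)
      (modularFunctionFieldFullC k (M * ℓ)) := Hecke.finiteAlong (alphaC k M ℓ)
  exact Algebra.norm_ne_zero_iff.mpr fun h =>
    hg ((betaC k M ℓ).toRingHom.injective (h.trans (map_zero _).symm))

omit hℓ in
/-- `T_ℓ (div g) = div N_α(β g)`. -/
theorem heckeDivC_div {g : modularFunctionFieldFullC k M} (hg : g ≠ 0)
    {D : Divisor k (modularFunctionFieldFullC k M)} (hD : ∀ Q, D Q = Q.ord g)
    (Q : Place k (modularFunctionFieldFullC k M)) :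
    heckeDivC k M ℓ D Q = Q.ord (normC k M ℓ g) := by
  let := algebraAlong (alphaC k M ℓ)
  have : Module.Finite (modularFunctionFieldFullC k M)
      (modularFunctionFieldFullC k (M * ℓ)) := Hecke.finiteAlong (alphaC k M ℓ)
  rw [heckeDivC, Divisor.correspondence_apply]
  refine Hecke.normFormulaAlong (alphaC k M ℓ) (Hecke.finiteAlong _) (betaC k M ℓ g)
    (fun h => hg ((betaC k M ℓ).toRingHom.injective (h.trans (map_zero _).symm))) _
    (fun w => ?_) Q
  rw [Divisor.pullbackAlong_apply, hD, ← Place.ord_restrictAlong]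

end Fermat.Agent.LoweringAtP.HeckeCompat
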