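import Fermat.Prelude.Def_ModularCurve_ModularUnit
import Fermat.Agent.Igusa.LevelOne
import Fermat.Agent.LoweringAtP.HeckeCompat.HeckeModL

/-!
# `Δ` under the norm of `T_ℓ`

The product of the conjugates of `Δ` under `T_ℓ` is `Δ ^ (ℓ + 1)` up to a constant, as `q`-series
over any field with a primitive `ℓ`-th root of unity; hence the same holds for the reduction of the
unit `Δ(τ)/Δ(pτ)`. This computes the Hecke action on the nodes in Mazur's principle at `p`.
-/

noncomputable section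

namespace Fermat.Agent.LoweringAtP.HeckeCompat

open ModularCurve Filter Topology
open scoped PowerSeries.WithPiTopology

section Truncation

variable (R : Type*) [CommRing R]

/-- The ideal of series divisible by `X ^ N`. -/
def truncIdeal (N : ℕ) : Ideal (PowerSeries R) := Ideal.span {PowerSeries.X ^ N}

variable {R}

theorem mk_eq_mk_iff {N : ℕ} {x y : PowerSeries R} :
    Ideal.Quotient.mk (truncIdeal R N) x = Ideal.Quotient.mk (truncIdeal R N) y ↔
      ∀ n < N, PowerSeries.coeff n x = PowerSeries.coeff n y := by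
  rw [Ideal.Quotient.eq, truncIdeal, Ideal.mem_span_singleton, PowerSeries.X_pow_dvd_iff]
  simp [sub_eq_zero]

theorem mk_one_sub_X_pow {N e : ℕ} (h : N ≤ e) :
    Ideal.Quotient.mk (truncIdeal R N) (1 - PowerSeries.X ^ e) = 1 := by
  rw [← map_one (Ideal.Quotient.mk (truncIdeal R N)), Ideal.Quotient.eq, truncIdeal,
    Ideal.mem_span_singleton, sub_sub_cancel_left, dvd_neg]
  exact pow_dvd_pow _ h

theorem mk_prod_subset {N : ℕ} {s t : Finset ℕ} (hst : s ⊆ t)
    (h : ∀ m ∈ t, m ∉ s → N ≤ m) :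
    Ideal.Quotient.mk (truncIdeal R N) (∏ m ∈ s, (1 - PowerSeries.X ^ m)) =
      Ideal.Quotient.mk (truncIdeal R N) (∏ m ∈ t, (1 - PowerSeries.X ^ m)) := by
  rw [map_prod, map_prod]
  exact Finset.prod_subset hst fun m hm hms => mk_one_sub_X_pow (h m hm hms)

theorem mk_etaProd (N : ℕ) {t : Finset ℕ} (ht : 0 ∉ t) (h : ∀ m, 0 < m → m < N → m ∈ t) :
    Ideal.Quotient.mk (truncIdeal ℤ N) etaProd =
      Ideal.Quotient.mk (truncIdeal ℤ N) (∏ m ∈ t, (1 - PowerSeries.X ^ m)) := by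
  classical
  rw [mk_eq_mk_iff]
  intro n hn
  have hprod : Tendsto (fun s : Finset ℕ => ∏ i ∈ s, (1 - PowerSeries.X ^ (i + 1) : PowerSeries ℤ))
      atTop (𝓝 etaProd) := (PowerSeries.WithPiTopology.multipliable_one_sub_X_pow ℤ).hasProd
  have h1 := ((PowerSeries.WithPiTopology.continuous_coeff ℤ n).tendsto _).comp hprod
  refine tendsto_nhds_unique h1 (tendsto_const_nhds.congr' ?_)
  filter_upwards [Filter.eventually_ge_atTop (t.image (· - 1))] with s hs
  have key : Ideal.Quotient.mk (truncIdeal ℤ N) (∏ m ∈ t, (1 - PowerSeries.X ^ m)) =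
      Ideal.Quotient.mk (truncIdeal ℤ N) (∏ i ∈ s, (1 - PowerSeries.X ^ (i + 1))) := by
    rw [← Finset.prod_image (f := fun m => (1 - PowerSeries.X ^ m : PowerSeries ℤ))
      (g := fun i : ℕ => i + 1) (fun a _ b _ hab => Nat.succ_injective hab)]
    refine mk_prod_subset (fun m hm => Finset.mem_image.mpr
      ⟨m - 1, hs (Finset.mem_image.mpr ⟨m, hm, rfl⟩), ?_⟩) fun m hm hmt => ?_
    · have : m ≠ 0 := fun h0 => ht (h0 ▸ hm)
      omega
    · obtain ⟨i, -, rfl⟩ := Finset.mem_image.mp hm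
      by_contra hlt
      exact hmt (h _ (Nat.succ_pos i) (not_le.mp hlt))
  exact mk_eq_mk_iff.mp key n hn

theorem mk_map {S : Type*} [CommRing S] (f : R →+* S) {N : ℕ} {x y : PowerSeries R}
    (h : Ideal.Quotient.mk (truncIdeal R N) x = Ideal.Quotient.mk (truncIdeal R N) y) :
    Ideal.Quotient.mk (truncIdeal S N) (x.map f) =
      Ideal.Quotient.mk (truncIdeal S N) (y.map f) := by
  rw [mk_eq_mk_iff] at h ⊢
  intro n hn
  simp [h n hn]

theorem mk_expand {ℓ : ℕ} (hℓ : ℓ ≠ 0) {N : ℕ} {x y : PowerSeries R}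
    (h : Ideal.Quotient.mk (truncIdeal R N) x = Ideal.Quotient.mk (truncIdeal R N) y) :
    Ideal.Quotient.mk (truncIdeal R N) (PowerSeries.expand ℓ hℓ x) =
      Ideal.Quotient.mk (truncIdeal R N) (PowerSeries.expand ℓ hℓ y) := by
  rw [mk_eq_mk_iff] at h ⊢
  intro n hn
  by_cases hd : ℓ ∣ n
  · obtain ⟨j, rfl⟩ := hd
    rw [PowerSeries.coeff_expand_mul, PowerSeries.coeff_expand_mul]
    exact h j (lt_of_le_of_lt (Nat.le_mul_of_pos_left j (Nat.pos_of_ne_zero hℓ)) hn)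
  · rw [PowerSeries.coeff_expand_of_not_dvd _ _ _ hd, PowerSeries.coeff_expand_of_not_dvd _ _ _ hd]

theorem mk_rescale (c : R) {N : ℕ} {x y : PowerSeries R}
    (h : Ideal.Quotient.mk (truncIdeal R N) x = Ideal.Quotient.mk (truncIdeal R N) y) :
    Ideal.Quotient.mk (truncIdeal R N) (PowerSeries.rescale c x) =
      Ideal.Quotient.mk (truncIdeal R N) (PowerSeries.rescale c y) := by
  rw [mk_eq_mk_iff] at h ⊢
  intro n hn
  simp [PowerSeries.coeff_rescale, h n hn]

end Truncation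

section Product

variable {k : Type*} [Field k] {ℓ : ℕ} [hℓ : Fact ℓ.Prime] {ζ : k}

theorem prod_one_sub_root_mul (hζ : IsPrimitiveRoot ζ ℓ) (y : PowerSeries k) :
    ∏ b : Fin ℓ, (1 - PowerSeries.C (ζ ^ (b : ℕ)) * y) = 1 - y ^ ℓ := by
  classical
  have hC : IsPrimitiveRoot (PowerSeries.C ζ) ℓ :=
    hζ.map_of_injective (f := PowerSeries.C) PowerSeries.C_injective
  have : NeZero ℓ := ⟨hℓ.out.ne_zero⟩
  have h := hC.pow_sub_pow_eq_prod_sub_mul (1 : PowerSeries k) y hℓ.out.pos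
  rw [one_pow] at h
  rw [h]
  refine Finset.prod_nbij (fun b : Fin ℓ => PowerSeries.C ζ ^ (b : ℕ)) (fun b _ => ?_)
    (fun a _ b _ hab => Fin.ext (hC.pow_inj a.2 b.2 hab)) (fun z hz => ?_) fun b _ => ?_
  · rw [Finset.mem_coe.symm, Finset.mem_coe, Polynomial.mem_nthRootsFinset hℓ.out.pos, ← pow_mul,
      mul_comm, pow_mul, hC.pow_eq_one, one_pow]
  · obtain ⟨i, hi, rfl⟩ := hC.eq_pow_of_pow_eq_one
      ((Polynomial.mem_nthRootsFinset hℓ.out.pos 1).mp (Finset.mem_coe.mp hz))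
    exact ⟨⟨i, hi⟩, Finset.mem_coe.mpr (Finset.mem_univ _), rfl⟩
  · rw [map_pow]

/-- The truncated product identity. -/
theorem prod_twists_finite (hζ : IsPrimitiveRoot ζ ℓ) {N : ℕ} :
    Ideal.Quotient.mk (truncIdeal k N)
      (PowerSeries.expand (ℓ * ℓ) (mul_ne_zero hℓ.out.ne_zero hℓ.out.ne_zero)
          (∏ m ∈ Finset.Icc 1 N, (1 - PowerSeries.X ^ m)) *
        ∏ b : Fin ℓ, PowerSeries.rescale (ζ ^ (b : ℕ))
          (∏ m ∈ Finset.Icc 1 N, (1 - PowerSeries.X ^ m))) =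
      Ideal.Quotient.mk (truncIdeal k N)
        (PowerSeries.expand ℓ hℓ.out.ne_zero (∏ m ∈ Finset.Icc 1 N, (1 - PowerSeries.X ^ m)) ^
          (ℓ + 1)) := by
  classical
  set q := Ideal.Quotient.mk (truncIdeal k N) with hq
  set I := Finset.Icc 1 N
  have hfac : ∀ m : ℕ, ∏ b : Fin ℓ, PowerSeries.rescale (ζ ^ (b : ℕ))
      (1 - PowerSeries.X ^ m : PowerSeries k) =
        if ℓ ∣ m then (1 - PowerSeries.X ^ m) ^ ℓ else 1 - PowerSeries.X ^ (ℓ * m) := by
    intro m
    have hr : ∀ b : Fin ℓ, PowerSeries.rescale (ζ ^ (b : ℕ)) (1 - PowerSeries.X ^ m) =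
        1 - PowerSeries.C ((ζ ^ m) ^ (b : ℕ)) * PowerSeries.X ^ m := fun b => by
      rw [map_sub, map_one, map_pow, PowerSeries.rescale_X, mul_pow, ← map_pow, ← pow_mul,
        ← pow_mul, mul_comm m]
    rw [Finset.prod_congr rfl fun b _ => hr b]
    split_ifs with hd
    · rw [(hζ.pow_eq_one_iff_dvd m).mpr hd]
      simp
    · rw [prod_one_sub_root_mul (hζ.pow_of_coprime m
        ((Nat.Prime.coprime_iff_not_dvd hℓ.out).mpr hd).symm), ← pow_mul, mul_comm m]
  have hexp : ∀ (e : ℕ) (he : e ≠ 0) (s : Finset ℕ),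
      PowerSeries.expand e he (∏ m ∈ s, (1 - PowerSeries.X ^ m : PowerSeries k)) =
        ∏ m ∈ s.image (e * ·), (1 - PowerSeries.X ^ m) := by
    intro e he s
    rw [map_prod, Finset.prod_image fun a _ b _ h =>
      Nat.eq_of_mul_eq_mul_left (Nat.pos_of_ne_zero he) h]
    exact Finset.prod_congr rfl fun m _ => by
      rw [map_sub, map_one, map_pow, PowerSeries.expand_X, ← pow_mul]
  rw [Finset.prod_congr rfl fun (b : Fin ℓ) (_ : b ∈ Finset.univ) =>
    map_prod (PowerSeries.rescale (ζ ^ (b : ℕ))) _ I, Finset.prod_comm,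
    Finset.prod_congr rfl fun m _ => hfac m, Finset.prod_ite, Finset.prod_pow,
    hexp, hexp, pow_succ', map_mul, map_mul, map_mul, map_pow, map_pow]
  have hℓ1 := hℓ.out.pos
  -- the multiples of `ℓ`
  have e1 : q (∏ m ∈ I.filter (ℓ ∣ ·), (1 - PowerSeries.X ^ m)) =
      q (∏ m ∈ I.image (ℓ * ·), (1 - PowerSeries.X ^ m)) := by
    refine mk_prod_subset (fun m hm => ?_) fun m hm hms => ?_
    · obtain ⟨hmI, j, rfl⟩ := Finset.mem_filter.mp hm
      refine Finset.mem_image.mpr ⟨j, Finset.mem_Icc.mpr ?_, rfl⟩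
      have := Finset.mem_Icc.mp hmI
      exact ⟨Nat.pos_of_mul_pos_left this.1, le_trans (Nat.le_mul_of_pos_left j hℓ1) this.2⟩
    · obtain ⟨j, hj, rfl⟩ := Finset.mem_image.mp hm
      by_contra hlt
      refine hms (Finset.mem_filter.mpr ⟨Finset.mem_Icc.mpr ⟨?_, by omega⟩, dvd_mul_right _ _⟩)
      exact Nat.mul_pos hℓ1 (Finset.mem_Icc.mp hj).1
  -- the other factors
  have e2 : q (∏ m ∈ I.image (ℓ * ℓ * ·), (1 - PowerSeries.X ^ m)) *
      q (∏ m ∈ I.filter (fun m => ¬ ℓ ∣ m), (1 - PowerSeries.X ^ (ℓ * m))) =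
        q (∏ m ∈ I.image (ℓ * ·), (1 - PowerSeries.X ^ m)) := by
    have hinj : ∀ s : Finset ℕ, Set.InjOn (fun m => ℓ * m) s := fun s a _ b _ h =>
      Nat.eq_of_mul_eq_mul_left hℓ1 h
    rw [← Finset.prod_image (f := fun m => (1 - PowerSeries.X ^ m : PowerSeries k))
      (g := fun m => ℓ * m) (hinj _), ← map_mul, ← Finset.prod_union]
    · refine (mk_prod_subset (fun m hm => ?_) fun m hm hms => ?_).symm
      · obtain ⟨j, hj, rfl⟩ := Finset.mem_image.mp hm
        by_cases hd : ℓ ∣ j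
        · obtain ⟨i, rfl⟩ := hd
          refine Finset.mem_union_left _ (Finset.mem_image.mpr ⟨i, ?_, mul_assoc _ _ _⟩)
          have := Finset.mem_Icc.mp hj
          exact Finset.mem_Icc.mpr
            ⟨Nat.pos_of_mul_pos_left this.1, le_trans (Nat.le_mul_of_pos_left i hℓ1) this.2⟩
        · exact Finset.mem_union_right _
            (Finset.mem_image.mpr ⟨j, Finset.mem_filter.mpr ⟨hj, hd⟩, rfl⟩)
      · rcases Finset.mem_union.mp hm with h | h
        · obtain ⟨i, hi, rfl⟩ := Finset.mem_image.mp h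
          by_contra hlt
          refine hms (Finset.mem_image.mpr ⟨ℓ * i, Finset.mem_Icc.mpr
            ⟨Nat.mul_pos hℓ1 (Finset.mem_Icc.mp hi).1, ?_⟩, (mul_assoc _ _ _).symm⟩)
          have : ℓ * i ≤ ℓ * ℓ * i := Nat.mul_le_mul_right i (Nat.le_mul_of_pos_left ℓ hℓ1)
          omega
        · obtain ⟨i, hi, rfl⟩ := Finset.mem_image.mp h
          exact absurd (Finset.mem_image.mpr ⟨i, (Finset.mem_filter.mp hi).1, rfl⟩) hms
    · rw [Finset.disjoint_left]
      intro m hm hm'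
      obtain ⟨i, -, rfl⟩ := Finset.mem_image.mp hm
      obtain ⟨j, hj, he⟩ := Finset.mem_image.mp hm'
      refine (Finset.mem_filter.mp hj).2 ⟨i, Nat.eq_of_mul_eq_mul_left hℓ1 ?_⟩
      rw [he, mul_assoc]
  rw [e1, ← e2]
  ring

/-- `∏ (1 - q ^ n)` over `k`. -/
def etaK (k : Type*) [Field k] : PowerSeries k := etaProd.map (Int.castRingHom k)

/-- The product of the conjugates of `∏ (1 - q ^ n)`. -/
theorem prod_twists_eta (hζ : IsPrimitiveRoot ζ ℓ) :
    PowerSeries.expand (ℓ * ℓ) (mul_ne_zero hℓ.out.ne_zero hℓ.out.ne_zero) (etaK k) *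
        ∏ b : Fin ℓ, PowerSeries.rescale (ζ ^ (b : ℕ)) (etaK k) =
      PowerSeries.expand ℓ hℓ.out.ne_zero (etaK k) ^ (ℓ + 1) := by
  ext n
  have hE : Ideal.Quotient.mk (truncIdeal k (n + 1)) (etaK k) = Ideal.Quotient.mk
      (truncIdeal k (n + 1)) (∏ m ∈ Finset.Icc 1 (n + 1), (1 - PowerSeries.X ^ m)) := by
    refine (mk_map (Int.castRingHom k) (mk_etaProd (n + 1) (t := Finset.Icc 1 (n + 1)) (by simp)
      fun m h1 h2 => Finset.mem_Icc.mpr ⟨h1, by omega⟩)).trans ?_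
    rw [map_prod]
    simp
  refine (mk_eq_mk_iff (N := n + 1)).mp ?_ n n.lt_succ_self
  rw [map_mul, map_pow, mk_expand _ hE, mk_expand _ hE, map_prod (Ideal.Quotient.mk _),
    Finset.prod_congr rfl fun (b : Fin ℓ) _ => mk_rescale (ζ ^ (b : ℕ)) hE,
    ← map_prod, ← map_mul, prod_twists_finite hζ, map_pow]

end Product

section Series

variable {k : Type*} [Field k] {ℓ : ℕ} [NeZero ℓ]

/-- `x` is fixed by the multiplicative `T_ℓ`, of degree `ℓ + 1`, up to a constant. -/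
def NormFixed (ζ : kˣ) (x : LaurentSeries k) : Prop :=
  ∃ c : k, c ≠ 0 ∧ qExpand k ℓ (qExpand k ℓ x) * ∏ b : Fin ℓ, EichlerShimura.twist (ζ ^ (b : ℕ)) x =
    HahnSeries.C c * qExpand k ℓ x ^ (ℓ + 1)

theorem twist_ofPowerSeries (c : kˣ) (u : PowerSeries k) :
    EichlerShimura.twist c (HahnSeries.ofPowerSeries ℤ k u) =
      HahnSeries.ofPowerSeries ℤ k (PowerSeries.rescale (c : k) u) := by
  ext n
  rcases le_or_gt 0 n with hn | hn
  · lift n to ℕ using hn
    rw [EichlerShimura.twist_coeff, HahnSeries.ofPowerSeries_apply_coeff,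
      HahnSeries.ofPowerSeries_apply_coeff,
      PowerSeries.coeff_rescale, zpow_natCast, Units.val_pow_eq_pow_val]
  · rw [EichlerShimura.twist_coeff, ofPowerSeries_coeff_of_neg _ hn, ofPowerSeries_coeff_of_neg _
      hn, mul_zero]

theorem twist_single (c : kˣ) (m : ℤ) (r : k) :
    EichlerShimura.twist c (HahnSeries.single m r) = HahnSeries.single m
      (((c ^ m : kˣ) : k) * r) := by
  ext n
  rcases eq_or_ne n m with rfl | h
  · rw [EichlerShimura.twist_coeff, HahnSeries.coeff_single_same, HahnSeries.coeff_single_same]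
  · rw [EichlerShimura.twist_coeff, HahnSeries.coeff_single_of_ne h, HahnSeries.coeff_single_of_ne
      h, mul_zero]

theorem twist_qExpand (c : kˣ) (p : ℕ) [NeZero p] (x : LaurentSeries k) :
    EichlerShimura.twist c (qExpand k p x) = qExpand k p (EichlerShimura.twist (c ^ p) x) := by
  ext n
  by_cases hn : (p : ℤ) ∣ n
  · obtain ⟨d, rfl⟩ := hn
    rw [EichlerShimura.twist_coeff, qExpand_coeff_mul, qExpand_coeff_mul,
      EichlerShimura.twist_coeff, zpow_mul,
      zpow_natCast]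
  · rw [EichlerShimura.twist_coeff, qExpand_coeff_of_not_dvd p _ hn, qExpand_coeff_of_not_dvd p _
      hn, mul_zero]

theorem normFixed_deltaSer [Fact ℓ.Prime] {ζ : kˣ} (hζ : IsPrimitiveRoot ζ ℓ) :
    NormFixed (ℓ := ℓ) ζ (Igusa.deltaSer k) := by
  have hℓ : ℓ.Prime := Fact.out
  have hu : dedekindEtaUnit.map (Int.castRingHom k) = etaK k ^ 24 := by
    rw [etaK, dedekindEtaUnit, map_pow]
  set c : k := ∏ b : Fin ℓ, ((ζ : k) ^ (b : ℕ)) with hc
  refine ⟨c, Finset.prod_ne_zero_iff.mpr fun b _ => pow_ne_zero _ ζ.ne_zero, ?_⟩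
  have hsingle : ∀ (s : Finset (Fin ℓ)),
      ∏ b ∈ s, HahnSeries.single (1 : ℤ) ((ζ : k) ^ (b : ℕ)) =
        HahnSeries.single (s.card : ℤ) (∏ b ∈ s, (ζ : k) ^ (b : ℕ)) := by
    intro s
    induction s using Finset.induction with
    | empty => simp
    | insert a t ha ih =>
      rw [Finset.prod_insert ha, Finset.prod_insert ha, ih, HahnSeries.single_mul_single,
        Finset.card_insert_of_notMem ha]
      congr 1
      push_cast
      ring_nf
  have hee : PowerSeries.expand ℓ hℓ.ne_zero (PowerSeries.expand ℓ hℓ.ne_zero (etaK k ^ 24)) =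
      PowerSeries.expand (ℓ * ℓ) (mul_ne_zero hℓ.ne_zero hℓ.ne_zero) (etaK k ^ 24) :=
    (PowerSeries.expand_mul ..).symm
  rw [Igusa.deltaSer, hu, map_mul, map_mul, qExpand_single, qExpand_single]
  simp only [map_mul (EichlerShimura.twist _), twist_single, twist_ofPowerSeries, zpow_one, mul_one,
    Units.val_pow_eq_pow_val]
  rw [Finset.prod_mul_distrib, hsingle, ← map_prod (HahnSeries.ofPowerSeries ℤ k),
    ← EichlerShimura.ofPowerSeries_expand, ← EichlerShimura.ofPowerSeries_expand, mul_mul_mul_comm,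
    HahnSeries.single_mul_single, ← map_mul, hee, mul_pow (HahnSeries.single (ℓ : ℤ) (1 : k)),
    HahnSeries.single_pow, ← map_pow (HahnSeries.ofPowerSeries ℤ k), ← mul_assoc,
    HahnSeries.C_apply,
    HahnSeries.single_mul_single]
  congr 1
  · simp [hc]
    ring_nf
  · simp only [map_pow]
    rw [Finset.prod_pow, ← mul_pow, ← pow_mul, mul_comm 24, pow_mul]
    have := prod_twists_eta (k := k) (ℓ := ℓ) (IsPrimitiveRoot.coe_units_iff.mpr hζ)
    rw [this]
    simp only [map_pow]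

/-- Being fixed by the norm is stable under products. -/
theorem NormFixed.mul {ζ : kˣ} {x y : LaurentSeries k} (hx : NormFixed (ℓ := ℓ) ζ x)
    (hy : NormFixed (ℓ := ℓ) ζ y) : NormFixed (ℓ := ℓ) ζ (x * y) := by
  obtain ⟨c, hc, hx⟩ := hx
  obtain ⟨d, hd, hy⟩ := hy
  refine ⟨c * d, mul_ne_zero hc hd, ?_⟩
  simp only [map_mul, Finset.prod_mul_distrib, mul_pow]
  linear_combination (qExpand k ℓ (qExpand k ℓ y) * ∏ b : Fin ℓ, EichlerShimura.twist
    (ζ ^ (b : ℕ)) y) * hx +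
    (HahnSeries.C c * qExpand k ℓ x ^ (ℓ + 1)) * hy

theorem NormFixed.inv {ζ : kˣ} {x : LaurentSeries k} (hx : NormFixed (ℓ := ℓ) ζ x) :
    NormFixed (ℓ := ℓ) ζ x⁻¹ := by
  obtain ⟨c, hc, hx⟩ := hx
  refine ⟨c⁻¹, inv_ne_zero hc, ?_⟩
  simp only [map_inv₀, Finset.prod_inv_distrib, inv_pow]
  rw [← mul_inv, hx, mul_inv]

/-- Substituting `q ↦ q ^ p` preserves the property, `p` prime to `ℓ`. -/
theorem normFixed_qExpand [Fact ℓ.Prime] {ζ : kˣ} (hζ : IsPrimitiveRoot ζ ℓ) {p : ℕ} [NeZero p]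
    (hp : ¬ ℓ ∣ p) {x : LaurentSeries k}
    (hx : ∀ η : kˣ, IsPrimitiveRoot η ℓ → NormFixed (ℓ := ℓ) η x) :
    NormFixed (ℓ := ℓ) ζ (qExpand k p x) := by
  have hℓ : ℓ.Prime := Fact.out
  obtain ⟨c, hc, h⟩ := hx (ζ ^ p) (hζ.pow_of_coprime p ((hℓ.coprime_iff_not_dvd).mpr hp).symm)
  refine ⟨c, hc, ?_⟩
  have hcomm : ∀ y : LaurentSeries k, qExpand k ℓ (qExpand k p y) = qExpand k p (qExpand k ℓ y) :=
    fun y => by rw [qExpand_qExpand, qExpand_qExpand]; exact qExpand_congr (mul_comm _ _) _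
  simp only [twist_qExpand, hcomm, ← pow_mul, mul_comm _ p]
  simp only [pow_mul]
  rw [← map_prod, ← map_mul, h, map_mul, map_pow, HahnSeries.C_apply, qExpand_single, mul_zero]

/-- The series of the reduction of `Δ(τ)/Δ(pτ)`. -/
def unitSer (R : Type*) [CommRing R] (p : ℕ) [NeZero p] : LaurentSeries R :=
  Igusa.deltaSer R * qExpand R p (Igusa.deltaSerInv R)

theorem coeffMap_unitSer {R S : Type*} [CommRing R] [CommRing S] (φ : R →+* S) (p : ℕ) [NeZero p] :
    coeffMap φ (unitSer R p) = unitSer S p := by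
  rw [unitSer, unitSer, map_mul, Igusa.coeffMap_deltaSer, coeffMap_qExpand,
    Igusa.coeffMap_deltaSerInv]

theorem unitSer_rat (p : ℕ) [NeZero p] : unitSer ℚ p = modularUnitSeries p := by
  rw [unitSer, modularUnitSeries, deltaSeriesN,
    show deltaSeries = Igusa.deltaSer ℚ from rfl, ← map_inv₀ (qExpand ℚ p),
    inv_eq_of_mul_eq_one_right (Igusa.deltaSer_mul_inv (R := ℚ))]

/-- The modular unit series has the expansion `unitSer`. -/
theorem coeffEmb_modularUnit (L : Type*) [Field L] [Algebra ℚ L] (p : ℕ) [NeZero p] :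
    coeffEmb L (modularUnitSeries p) = unitSer L p := by
  rw [← unitSer_rat, coeffEmb, coeffMap_unitSer]

/-- The unit series at `p` is fixed by the norm at `ℓ ∤ p`. -/
theorem normFixed_unitSer [Fact ℓ.Prime] {ζ : kˣ} (hζ : IsPrimitiveRoot ζ ℓ) {p : ℕ} [NeZero p]
    (hp : ¬ ℓ ∣ p) : NormFixed (ℓ := ℓ) ζ (unitSer k p) := by
  rw [unitSer, ← inv_eq_of_mul_eq_one_right (Igusa.deltaSer_mul_inv (R := k)), map_inv₀]
  exact (normFixed_deltaSer hζ).mul (normFixed_qExpand hζ hp fun η hη => normFixed_deltaSer hη).inv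

theorem unitSer_ne_zero (p : ℕ) [NeZero p] : unitSer k p ≠ 0 :=
  mul_ne_zero (left_ne_zero_of_mul_eq_one Igusa.deltaSer_mul_inv)
    ((map_ne_zero _).mpr (right_ne_zero_of_mul_eq_one Igusa.deltaSer_mul_inv))

end Series

end Fermat.Agent.LoweringAtP.HeckeCompat
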