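import Fermat.Agent.Igusa.SmoothRed
import Fermat.Agent.LoweringAtP.HeckeCompat.DeltaNorm
import Fermat.Agent.Red.ChartFinite

/-!
# The slope is killed by `a_ℓ - (ℓ + 1)`

For a function over the residue field which is an eigenvector of the norm of `T_ℓ` modulo `p`-th
powers and whose divisor is congruent to `λ` times the nodes away from the poles of `j̄`, `p`
divides `(a_ℓ - (ℓ + 1)) λ`.
-/

noncomputable section

namespace Fermat.Agent.LoweringAtP.HeckeCompat

open AlgebraicCurve ModularCurve IntermediateField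
open Fermat.Agent.Igusa (jv)

variable {k : Type*} [Field k] {L ℓ : ℕ} [NeZero L] [NeZero ℓ]

theorem isIntegral_jv_series (k : Type*) [Field k] {d : ℕ} (hd : d ≠ 0) :
    IsIntegral (Algebra.adjoin ℤ ({jqModC k} : Set (LaurentSeries k))) (jv (1 : kˣ) d) := by
  have hZ : IsIntegral (Algebra.adjoin ℤ ({jv (1 : ℤˣ) 1} : Set (LaurentSeries ℤ)))
      (jv (1 : ℤˣ) d) := by
    let φ : LaurentSeries ℤ →ₐ[ℤ] LaurentSeries ℚ :=
      Igusa.intAlgHom (coeffMap (Int.castRingHom ℚ))
    have h : ∀ e, e ≠ 0 → φ (jv (1 : ℤˣ) e) = jv (1 : ℚˣ) e := fun e he => by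
      rw [Igusa.intAlgHom_apply, Igusa.coeffMap_jv _ _ he, map_one]
    refine Igusa.isIntegral_subalgebra_of_map φ
      (EichlerShimura.coeffMap_injective (f := Int.castRingHom ℚ) Int.cast_injective) _ ?_
    rw [AlgHom.map_adjoin_singleton, h _ one_ne_zero, h _ hd]
    exact Igusa.isIntegral_jv hd
  let ψ : LaurentSeries ℤ →ₐ[ℤ] LaurentSeries k := Igusa.intAlgHom (coeffMap (Int.castRingHom k))
  have h : ∀ e, e ≠ 0 → ψ (jv (1 : ℤˣ) e) = jv (1 : kˣ) e := fun e he => by
    rw [Igusa.intAlgHom_apply, Igusa.coeffMap_jv _ _ he, map_one]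
  have hj : ψ (jv (1 : ℤˣ) 1) = jqModC k := by rw [h _ one_ne_zero, Igusa.jv_one_one]
  have hmem : ∀ z ∈ Algebra.adjoin ℤ ({jv (1 : ℤˣ) 1} : Set (LaurentSeries ℤ)),
      ψ z ∈ Algebra.adjoin ℤ ({jqModC k} : Set (LaurentSeries k)) := fun z hz => by
    rw [← hj, ← AlgHom.map_adjoin_singleton]
    exact ⟨z, hz, rfl⟩
  have := hZ.map_of_comp_eq
    ((ψ.toRingHom.comp
      (Algebra.adjoin ℤ ({jv (1 : ℤˣ) 1} : Set (LaurentSeries ℤ))).val.toRingHom).codRestrict
      (Algebra.adjoin ℤ ({jqModC k} : Set (LaurentSeries k))).toSubring fun z => hmem z z.2)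
    ψ.toRingHom (by ext; rfl)
  rw [← h d hd]
  exact this

omit [NeZero L] in
/-- At a place of level `L ℓ` with `j` finite, `j(ℓτ)` is finite. -/
theorem betaC_jC_mem (w : Place k (modularFunctionFieldFullC k (L * ℓ)))
    (hw : jC k (L * ℓ) ∈ w.toValuationSubring) :
    betaC k L ℓ (jC k L) ∈ w.toValuationSubring := by
  let φ : modularFunctionFieldFullC k (L * ℓ) →ₐ[ℤ] LaurentSeries k :=
    Igusa.intAlgHom (modularFunctionFieldFullC k (L * ℓ)).val.toRingHom
  have h : IsIntegral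
      (Algebra.adjoin ℤ ({jC k (L * ℓ)} : Set (modularFunctionFieldFullC k (L * ℓ))))
      (betaC k L ℓ (jC k L)) := by
    refine Igusa.isIntegral_subalgebra_of_map φ Subtype.val_injective _ ?_
    rw [AlgHom.map_adjoin_singleton]
    have e : φ (betaC k L ℓ (jC k L)) = jv (1 : kˣ) ℓ := by
      rw [Igusa.jv_one_eq_qExpand]; rfl
    rw [e, show φ (jC k (L * ℓ)) = jqModC k from rfl]
    exact isIntegral_jv_series k (NeZero.ne ℓ)
  refine Red.mem_place_of_isIntegral w (RingHom.id _) (fun r => ?_) h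
  obtain ⟨r, hr⟩ := r
  show r ∈ w.toValuationSubring
  induction hr using Algebra.adjoin_induction with
  | mem y hy => rw [Set.mem_singleton_iff.mp hy]; exact hw
  | algebraMap n => simp only [eq_intCast]; exact intCast_mem _ n
  | add a b _ _ ha hb => exact add_mem ha hb
  | mul a b _ _ ha hb => exact mul_mem ha hb

variable [IsAlgClosed k] [Fact ℓ.Prime]

theorem mem_restrictAlong {K F F' : Type*} [Field K] [Field F] [Field F'] [Algebra K F]
    [Algebra K F'] (φ : F →ₐ[K] F') (hφ : φ.toRingHom.IsIntegral) (w : Place K F') (f : F) :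
    f ∈ (w.restrictAlong φ hφ).toValuationSubring ↔ φ f ∈ w.toValuationSubring :=
  Iff.rfl

omit [Fact (Nat.Prime ℓ)] in
/-- `T_ℓ` respects congruences on the places with `j` finite. -/
theorem dvd_heckeDivC {m : ℤ} {D : Divisor k (modularFunctionFieldFullC k L)}
    (hD : ∀ P : Place k (modularFunctionFieldFullC k L), 0 ≤ P.ord (jC k L) → m ∣ D P)
    {Q : Place k (modularFunctionFieldFullC k L)} (hQ : 0 ≤ Q.ord (jC k L)) :
    m ∣ heckeDivC k L ℓ D Q := by
  classical
  have hα := Hecke.isIntegralAlong (alphaC k L ℓ)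
  have hβ := Hecke.isIntegralAlong (betaC k L ℓ)
  rw [heckeDivC, Divisor.correspondence_apply]
  let := algebraAlong (alphaC k L ℓ)
  have := isScalarTower_along (alphaC k L ℓ)
  have := isIntegral_along (alphaC k L ℓ) hα
  rw [show Divisor.pushforwardAlong (alphaC k L ℓ) hα
      (Divisor.pullbackAlong (betaC k L ℓ) hβ D) =
    Divisor.pushforward (modularFunctionFieldFullC k L)
      (Divisor.pullbackAlong (betaC k L ℓ) hβ D) from rfl, Divisor.pushforward_apply]
  refine Finset.dvd_sum fun w _ => ?_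
  split_ifs with hw
  · refine Dvd.dvd.mul_right ?_ _
    rw [Divisor.pullbackAlong_apply]
    refine Dvd.dvd.mul_left (hD _ ?_) _
    have hw' : alphaC k L ℓ (jC k L) ∈ w.toValuationSubring := by
      have hQ' : jC k L ∈ (w.restrict (modularFunctionFieldFullC k L)).toValuationSubring := by
        rw [hw]; exact (FF.mem_iff_ord_nonneg Q).mpr hQ
      exact (w.mem_restrict_iff (F := modularFunctionFieldFullC k L)).mp hQ'
    have := betaC_jC_mem w (L := L) (ℓ := ℓ) (by
      rwa [show jC k (L * ℓ) = alphaC k L ℓ (jC k L) from Subtype.ext rfl])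
    refine (FF.mem_iff_ord_nonneg _).mp ?_
    exact (mem_restrictAlong (betaC k L ℓ) hβ w _).mpr this
  · exact dvd_zero m

omit [IsAlgClosed k] [Fact (Nat.Prime ℓ)] in
theorem normC_zpow {g : modularFunctionFieldFullC k L} (hg : g ≠ 0) (n : ℤ) :
    normC k L ℓ (g ^ n) = normC k L ℓ g ^ n :=
  monoidHom_zpow _ hg n

/-- The reduced unit is fixed by the norm of `T_ℓ`. -/
theorem normC_unit {p : ℕ} [NeZero p] (hℓL : ¬ ℓ ∣ L) (hℓp : ¬ ℓ ∣ p)
    (hK : ((L * ℓ : ℕ) : k) ≠ 0) {ubar : modularFunctionFieldFullC k L}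
    (hu : (ubar : LaurentSeries k) = unitSer k p) :
    ∃ c : k, c ≠ 0 ∧ normC k L ℓ ubar = algebraMap k _ c * ubar ^ (ℓ + 1) := by
  have : NeZero (ℓ : k) := ⟨Igusa.natCast_ne_zero_of_dvd hK (dvd_mul_left ℓ L)⟩
  obtain ⟨z, hz⟩ := HasEnoughRootsOfUnity.exists_primitiveRoot k ℓ
  obtain ⟨ζ, rfl⟩ := hz.isUnit (NeZero.ne ℓ)
  have hζ : IsPrimitiveRoot ζ ℓ := IsPrimitiveRoot.coe_units_iff.mp hz
  obtain ⟨c, hc, h⟩ := normFixed_unitSer (k := k) hζ hℓp
  refine ⟨c, hc, Subtype.ext (qExpand_injective ℓ ?_)⟩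
  rw [qExpand_normC hℓL hK hζ, hu, h, IntermediateField.coe_mul,
    IntermediateField.coe_algebraMap_apply, IntermediateField.coe_pow, hu,
    algebraMap_laurentSeries_eq_single, map_mul, qExpand_single, mul_zero, HahnSeries.C_apply,
    map_pow]

/-- If `g` is an eigenvector of the norm of `T_ℓ` up to `p`-th powers and its orders at the
places with `j` finite are congruent modulo `p` to `lam` times those of a divisor a multiple of
which is the divisor of the reduced unit, then `lam` is killed by `a - (ℓ + 1)`. -/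
theorem lambda_mul_eq_zero {p : ℕ} [Fact p.Prime] (hℓL : ¬ ℓ ∣ L) (hℓp : ℓ ≠ p)
    (hK : ((L * ℓ : ℕ) : k) ≠ 0) {ubar : modularFunctionFieldFullC k L}
    (hu : (ubar : LaurentSeries k) = unitSer k p)
    {g : modularFunctionFieldFullC k L} (hg : g ≠ 0) {a : ℤ} {c : k} (hc : c ≠ 0)
    {h : modularFunctionFieldFullC k L} (hh : h ≠ 0)
    (hrel : normC k L ℓ g = algebraMap k _ c * g ^ a * h ^ p)
    {κ lam : ℤ} (hκ : κ ≠ 0) (e : Place k (modularFunctionFieldFullC k L) → ℤ)
    (he : ∀ Q : Place k (modularFunctionFieldFullC k L), 0 ≤ Q.ord (jC k L) →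
      Q.ord ubar = κ * e Q)
    (hcong : ∀ Q : Place k (modularFunctionFieldFullC k L), 0 ≤ Q.ord (jC k L) →
      (p : ℤ) ∣ Q.ord g - lam * e Q)
    (hQ : ∃ Q : Place k (modularFunctionFieldFullC k L), 0 ≤ Q.ord (jC k L) ∧ e Q = 1) :
    (p : ℤ) ∣ (a - (ℓ + 1)) * lam := by
  have hp : p.Prime := Fact.out
  have hℓ : ℓ.Prime := Fact.out
  have hu0 : ubar ≠ 0 := fun h0 => unitSer_ne_zero (k := k) p (by rw [← hu, h0]; rfl)
  obtain ⟨d, hd, hud⟩ := normC_unit hℓL
    (fun h => hℓp ((Nat.prime_dvd_prime_iff_eq hℓ hp).mp h)) hK hu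
  obtain ⟨Q, hQj, hQu⟩ := hQ
  set E := (FF.divOf (K := k) ubar).mapRange (· / κ) (Int.zero_ediv _) with hEdef
  have hE : ∀ P : Place k (modularFunctionFieldFullC k L), 0 ≤ P.ord (jC k L) → E P = e P :=
    fun P hP => by
      rw [hEdef, Finsupp.mapRange_apply, FF.divOf_apply, he P hP,
        Int.mul_ediv_cancel_left _ hκ]
  have hconst : ∀ e : k, e ≠ 0 → Q.ord (algebraMap k (modularFunctionFieldFullC k L) e) = 0 :=
    fun e _ => FF.ord_algebraMap Q e
  -- the divisor `E` is an eigenvector with eigenvalue `ℓ + 1` at the places with `j` finite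
  have hTE : heckeDivC k L ℓ E Q = (ℓ : ℤ) + 1 := by
    have h0 : (0 : ℤ) ∣ heckeDivC k L ℓ (κ • E - FF.divOf (K := k) ubar) Q :=
      dvd_heckeDivC (fun P hP => by
        rw [Finsupp.sub_apply, Finsupp.smul_apply, smul_eq_mul, hE P hP, FF.divOf_apply, he P hP,
          sub_self]) hQj
    rw [zero_dvd_iff, map_sub, map_zsmul, Finsupp.sub_apply, Finsupp.smul_apply, smul_eq_mul,
      heckeDivC_div hu0 (D := FF.divOf ubar) (fun P => FF.divOf_apply _ P), hud,
      Q.ord_mul (by simpa using hd) (pow_ne_zero _ hu0), hconst d hd, FF.ord_pow, he Q hQj, hQu,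
      mul_one, zero_add] at h0
    push_cast at h0
    exact mul_left_cancel₀ hκ (by linarith)
  have h1 : (p : ℤ) ∣ heckeDivC k L ℓ (FF.divOf (K := k) g - lam • E) Q :=
    dvd_heckeDivC (fun P hP => by
      rw [Finsupp.sub_apply, Finsupp.smul_apply, smul_eq_mul, hE P hP, FF.divOf_apply]
      exact hcong P hP) hQj
  rw [map_sub, map_zsmul, Finsupp.sub_apply, Finsupp.smul_apply, smul_eq_mul, hTE,
    heckeDivC_div hg (D := FF.divOf g) (fun P => FF.divOf_apply _ P), hrel,
    Q.ord_mul (mul_ne_zero (by simpa using hc) (zpow_ne_zero _ hg)) (pow_ne_zero _ hh),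
    Q.ord_mul (by simpa using hc) (zpow_ne_zero _ hg), hconst c hc, Place.ord_zpow,
    FF.ord_pow] at h1
  have h2 := (hcong Q hQj).mul_left a
  rw [hQu] at h2
  have h4 := dvd_sub (dvd_sub h1 h2) (Dvd.intro (Q.ord h) rfl)
  refine (congrArg (fun z : ℤ => (p : ℤ) ∣ z) ?_).mp h4
  ring

end Fermat.Agent.LoweringAtP.HeckeCompat
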