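import Mathlib.LinearAlgebra.Dimension.Constructions
import Mathlib.LinearAlgebra.FiniteDimensional.Basic
import Fermat.Agent.LevelLowering.Structure

/-!
# Embedding an irreducible representation of dimension two

An odd irreducible two-dimensional representation embeds equivariantly into every non-zero module
with the same quadratic relation.
-/

namespace Fermat.Agent.LoweringAtP.HeckeCompat

open Fermat.Agent.LevelLowering

variable {G : Type*} [Group G] {k : Type*} [Field k] {V H : Type*} [AddCommGroup V] [Module k V]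
  [AddCommGroup H] [Module k H] {η : k} {ρ : G →* Module.End k V} {τ : G →* Module.End k H}
  {χ : G →* k} {t : G → k} {c : G}

/-- An irreducible plane embeds in a nonzero space with the same odd quadratic relations. -/
theorem exists_injective_intertwiner (hV : OddQuad η ρ χ t c) (hH : OddQuad η τ χ t c)
    (hc1 : ρ c ≠ 1) (hc2 : ρ c ≠ -1)
    (hirr : ∀ W : Submodule k V, (∀ g, ∀ x ∈ W, ρ g x ∈ W) → W = ⊥ ∨ W = ⊤)
    (hdim : Module.finrank k V = 2) [Nontrivial H] :
    ∃ f : V →ₗ[k] H, Function.Injective f ∧ ∀ g v, f (ρ g v) = τ g (f v) := by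
  obtain ⟨g₀, h₀, hu, hv⟩ := exists_cross_ne_zero hV hc1 hc2 hirr
  set PV := LinearMap.range (OddQuad.projP η ρ c)
  set PH := LinearMap.range (OddQuad.projP η τ c)
  obtain ⟨φ, hφ⟩ := hV.exists_linearEquiv (isUnit_iff_ne_zero.2 hu) (isUnit_iff_ne_zero.2 hv)
  obtain ⟨ψ, hψ⟩ := hH.exists_linearEquiv (isUnit_iff_ne_zero.2 hu) (isUnit_iff_ne_zero.2 hv)
  have : Module.Finite k V := Module.finite_of_finrank_pos (hdim ▸ two_pos)
  have h1 : Module.finrank k PV = 1 := by
    have : Module.finrank k V = 2 * Module.finrank k PV := by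
      rw [φ.finrank_eq, Module.finrank_pi_fintype, Finset.sum_const, Finset.card_univ,
        Fintype.card_fin, smul_eq_mul]
    omega
  obtain ⟨b, hb⟩ : ∃ b : PH, b ≠ 0 := by
    by_contra! h
    obtain ⟨x, hx⟩ := exists_ne (0 : H)
    exact hx (ψ.injective (funext fun i => by rw [map_zero, Pi.zero_apply]; exact h _))
  let e : PV ≃ₗ[k] k := (LinearEquiv.ofFinrankEq k PV (by rw [h1, Module.finrank_self])).symm
  let f₀ : PV →ₗ[k] PH := (LinearMap.toSpanSingleton k PH b).comp e.toLinearMap
  have hf₀ : Function.Injective f₀ := (smul_left_injective k hb).comp e.injective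
  let F : (Fin 2 → PV) →ₗ[k] (Fin 2 → PH) := f₀.compLeft (Fin 2)
  refine ⟨ψ.symm.toLinearMap.comp (F.comp φ.toLinearMap), ?_, fun g v => ?_⟩
  · refine ψ.symm.injective.comp ((?_ : Function.Injective F).comp φ.injective)
    exact fun a b h => funext fun i => hf₀ (congrFun h i)
  · apply ψ.injective
    simp only [LinearMap.comp_apply, LinearEquiv.coe_coe]
    rw [LinearEquiv.apply_symm_apply, hψ, hφ, LinearEquiv.apply_symm_apply]
    funext i
    simp [F, matAct_apply, map_add, map_smul]

end Fermat.Agent.LoweringAtP.HeckeCompat
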