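import Mathlib.Algebra.Module.ZMod
import Fermat.Agent.Attach.Eigvec
import Fermat.Agent.Attach.PowTrace
import Fermat.Agent.Attach.Trace
import Fermat.Agent.EC.FrobTrace
import Fermat.Agent.EC.TorsionGalois
import Fermat.Agent.Ihara.IrrCurve
import Fermat.Agent.LoweringAtP.HeckeCompat.Frame

/-!
# `E[p]` inside `J₀(N)[p]`

An irreducible `E[p]` whose traces of Frobenius occur in `J₀(N)[p]` embeds into it, compatibly with
the Galois action, onto eigenvectors of the good Hecke operators.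
-/

noncomputable section

namespace Fermat.Agent.LoweringAtP.HeckeCompat

open WeierstrassCurve WeierstrassCurve.Affine.Point ModularCurve
open Fermat.Agent.Attach Fermat.Agent.LevelLowering
open scoped WeierstrassCurve.Affine

local notation "Qbar" => AlgebraicClosure ℚ
local notation "GQ" => AlgebraicClosure ℚ ≃ₐ[ℚ] AlgebraicClosure ℚ

/-- The product of two representations which factor through finite levels factors through one. -/
theorem galoisFactorsThroughFiniteLevel_prod {G₁ G₂ : Type} [Monoid G₁] [Monoid G₂] {f₁ : GQ →* G₁}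
    {f₂ : GQ →* G₂}
    (h₁ : GaloisFactorsThroughFiniteLevel f₁) (h₂ : GaloisFactorsThroughFiniteLevel f₂) :
    GaloisFactorsThroughFiniteLevel (f₁.prod f₂) := by
  obtain ⟨L, hL, h⟩ := h₁
  obtain ⟨L', hL', h'⟩ := h₂
  exact ⟨L ⊔ L', inferInstance, fun g hg => Prod.ext
    (h g fun a ha => hg a ((le_sup_left : L ≤ L ⊔ L') ha))
    (h' g fun a ha => hg a ((le_sup_right : L' ≤ L ⊔ L') ha))⟩

variable {N : ℕ} [NeZero N] {p : ℕ} [Fact p.Prime]

omit [NeZero N] in
theorem smul_nsmul_jZero (g : GQ) (n : ℕ) (x : JZero N) : g • (n • x) = n • (g • x) :=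
  map_nsmul (DistribSMul.toAddMonoidHom (JZero N) g) n x

omit [NeZero N] in
theorem galois_smul_zero (g : GQ) : g • (0 : JZero N) = 0 :=
  _root_.map_zero (DistribSMul.toAddMonoidHom (JZero N) g)

/-- The `p`-torsion with the given eigenvalues. -/
def eigenTorsion (N p : ℕ) [NeZero N] (S : Finset ℕ) (a : ℕ → ℤ) : AddSubgroup (JZero N) where
  carrier := {x | p • x = 0 ∧
    ∀ ℓ : Nat.Primes, (ℓ : ℕ) ∉ S → heckeOperatorBar N ℓ x = a ℓ • x}
  zero_mem' := ⟨nsmul_zero p, fun ℓ _ => (_root_.map_zero _).trans (zsmul_zero (a ℓ)).symm⟩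
  add_mem' := fun {x y} hx hy => ⟨by rw [nsmul_add, hx.1, hy.1, add_zero],
    fun ℓ hℓ => (_root_.map_add _ x y).trans
      ((congrArg₂ (· + ·) (hx.2 ℓ hℓ) (hy.2 ℓ hℓ)).trans (zsmul_add x y (a ℓ)).symm)⟩
  neg_mem' := fun {x} hx => ⟨by rw [neg_nsmul, hx.1, _root_.neg_zero],
    fun ℓ hℓ => (_root_.map_neg _ x).trans ((congrArg Neg.neg (hx.2 ℓ hℓ)).trans
      (zsmul_neg x (a ℓ)).symm)⟩

instance (S : Finset ℕ) (a : ℕ → ℤ) : Module (ZMod p) (eigenTorsion N p S a) :=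
  AddCommGroup.zmodModule fun x => Subtype.ext x.2.1

theorem finite_ptorsion (M : TorsionModel N p) : {x : JZero N | p • x = 0}.Finite := by
  refine (Set.finite_range fun w : Fin M.rk → ZMod (p ^ 1) =>
    M.pt 1 fun i => ((w i).val : ℤ)).subset fun x hx => ?_
  obtain ⟨v, rfl⟩ := M.exists_pt_eq 1 x (by rw [pow_one]; exact hx)
  refine ⟨M.redVec 1 v, (M.pt_eq_iff 1 _ _).2 (funext fun i => ?_)⟩
  have : NeZero (p ^ 1) := ⟨pow_ne_zero _ (Fact.out : p.Prime).ne_zero⟩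
  simp [TorsionModel.redVec]

/-- An eigensystem of the Hecke algebra modulo `p` occurs in the `p`-torsion of `J₀(N)`. -/
theorem exists_mem_eigenTorsion (M : TorsionModel N p) {S : Finset ℕ}
    (hNS : ∀ q, q.Prime → q ∣ N → q ∈ (↑S : Set ℕ)) (a : ℕ → ℤ)
    (θ : CuspForm.heckeAlgebra N 2 (↑S : Set ℕ) →+* ZMod p)
    (hθ : ∀ (ℓ : ℕ) (hℓ : ℓ.Prime) (hℓN : ¬ ℓ ∣ N) (hℓS : ℓ ∉ (↑S : Set ℕ)),
      θ (CuspForm.heckeAlgebra.T hℓ hℓN hℓS) = (a ℓ : ZMod p)) :
    ∃ x ∈ eigenTorsion N p S a, x ≠ 0 := by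
  obtain ⟨w, hw0, hw⟩ := exists_eigvec (M.mat.comp (toAnemic hNS))
    (M.mat_injective.comp (toAnemic_injective hNS)) θ
  let v : Fin M.rk → ℤ := fun i => ((w i).val : ℤ)
  have : NeZero p := ⟨(Fact.out : p.Prime).ne_zero⟩
  have hv : ∀ i, (v i : ZMod p) = w i := fun i => by simp [v]
  refine ⟨M.pt 1 v, ⟨by simpa using M.pt_torsion 1 v, fun ℓ hℓ => ?_⟩,
    fun h => hw0 (funext fun i => ?_)⟩
  · have hℓN : ¬ (ℓ : ℕ) ∣ N := fun h => hℓ (Finset.mem_coe.1 (hNS _ ℓ.2 h))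
    rw [M.pt_hecke ℓ hℓN, ← map_zsmul, M.pt_eq_iff]
    funext i
    let π : ZMod (p ^ 1) ≃+* ZMod p := ZMod.ringEquivCongr (pow_one p)
    apply π.injective
    simp only [TorsionModel.redVec]
    rw [map_intCast π, map_intCast π]
    have h := congrFun (hw (CuspForm.heckeAlgebra.T ℓ.2 hℓN (by simpa using hℓ))) i
    rw [hθ, Pi.smul_apply] at h
    have hm : (Int.cast ((M.mat (CuspForm.heckeAlgebra.T ℓ.2 hℓN hℓN)).mulVec v i) : ZMod p) =
        ((M.mat (CuspForm.heckeAlgebra.T ℓ.2 hℓN hℓN)).map (Int.castRingHom (ZMod p))).mulVec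
          w i := by
      rw [show w = fun i => Int.castRingHom (ZMod p) (v i) from funext fun i => (hv i).symm]
      exact RingHom.map_mulVec (Int.castRingHom (ZMod p)) _ v i
    rw [hm]
    refine Eq.trans h ?_
    rw [smul_eq_mul, ← hv i, Pi.smul_apply, smul_eq_mul, Int.cast_mul]
  · have := (M.pt_eq_zero_iff 1 v).1 h i
    rw [pow_one, ← ZMod.intCast_zmod_eq_zero_iff_dvd, hv] at this
    exact this

/-- The Galois action on the `p`-torsion with given eigenvalues at good primes. -/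
def eigenAction (hG : TorsionGalois N p) {S : Finset ℕ}
    (hN : ∀ ℓ : Nat.Primes, (ℓ : ℕ) ∉ S → ¬ (ℓ : ℕ) ∣ N) (a : ℕ → ℤ) :
    GQ →* Module.End (ZMod p) (eigenTorsion N p S a) where
  toFun g := AddMonoidHom.toZModLinearMap p
    { toFun := fun x => ⟨g • (x : JZero N), by rw [← smul_nsmul_jZero, x.2.1, galois_smul_zero],
        fun ℓ hℓ => by
          rw [← hG.galois_hecke ℓ (hN ℓ hℓ), x.2.2 ℓ hℓ]
          exact map_zsmul (DistribSMul.toAddMonoidHom (JZero N) g) _ _⟩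
      map_zero' := Subtype.ext (smul_zero g)
      map_add' := fun x y => Subtype.ext (smul_add g _ _) }
  map_one' := LinearMap.ext fun x => Subtype.ext (one_smul _ _)
  map_mul' g h := LinearMap.ext fun x => Subtype.ext (mul_smul g h _)

theorem coe_eigenAction (hG : TorsionGalois N p) {S : Finset ℕ}
    (hN : ∀ ℓ : Nat.Primes, (ℓ : ℕ) ∉ S → ¬ (ℓ : ℕ) ∣ N) (a : ℕ → ℤ) (g : GQ)
    (x : eigenTorsion N p S a) : (eigenAction hG hN a g x : JZero N) = g • (x : JZero N) :=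
  rfl

/-- The Eichler–Shimura relation on the eigen-torsion, at a Frobenius. -/
theorem eigenAction_frobenius (hG : TorsionGalois N p) {S : Finset ℕ}
    (hN : ∀ ℓ : Nat.Primes, (ℓ : ℕ) ∉ S → ¬ (ℓ : ℕ) ∣ N) (hpS : p ∈ S) (a : ℕ → ℤ) {ℓ : ℕ}
    (hℓ : ℓ.Prime) (hℓS : ℓ ∉ S) {A : ValuationSubring (AlgebraicClosure ℚ)}
    (hA : A.LiesOverPrime ℓ) {σ : GQ} (hσ : A.IsFrobeniusAt σ ℓ) :
    eigenAction hG hN a σ + (ℓ : ZMod p) • eigenAction hG hN a σ⁻¹ = (a ℓ : ZMod p) • 1 := by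
  have hℓp : ℓ ≠ p := fun h => hℓS (h ▸ hpS)
  have hℓNp : ¬ ℓ ∣ N * p := fun h => (hℓ.dvd_mul.mp h).elim (hN ⟨ℓ, hℓ⟩ hℓS)
    fun h => hℓp ((Nat.prime_dvd_prime_iff_eq hℓ Fact.out).mp h)
  refine LinearMap.ext fun x => ?_
  set y := eigenAction hG hN a σ⁻¹ x with hy
  have e : σ • (y : JZero N) = (x : JZero N) := by
    rw [hy, coe_eigenAction]; exact smul_inv_smul σ (x : JZero N)
  have hq := hG.frobenius ⟨ℓ, hℓ⟩ hℓNp A hA σ hσ (y : JZero N)
    ⟨1, by rw [pow_one]; exact y.2.1⟩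
  rw [e, x.2.2 ⟨ℓ, hℓ⟩ hℓS] at hq
  have hs : eigenAction hG hN a σ x + ℓ • y = a ℓ • x := Subtype.ext (by
    rw [AddSubgroup.coe_add, AddSubgroup.coe_nsmul, AddSubgroup.coe_zsmul, coe_eigenAction,
      ← sub_eq_zero, ← hq]
    abel)
  rw [← Nat.cast_smul_eq_nsmul (ZMod p), ← Int.cast_smul_eq_zsmul (ZMod p)] at hs
  simp only [LinearMap.add_apply, LinearMap.smul_apply, Module.End.one_apply]
  exact hs

variable (W : WeierstrassCurve ℤ) [(W.map (Int.castRingHom ℚ)).IsElliptic]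

set_option quotPrecheck false in
local notation "Tors" =>
  Submodule.torsionBy ℤ ((WeierstrassCurve.map W (Int.castRingHom ℚ))⁄Qbar).Point ((p : ℕ) : ℤ)
set_option quotPrecheck false in
local notation "rep" =>
  galoisRepModuleEnd (K := Qbar) ℚ (WeierstrassCurve.map W (Int.castRingHom ℚ)) p

/-- The action on the eigen-torsion and on `E[p]` factors through a finite level. -/
theorem eigenAction_finite_level (M : TorsionModel N p) (hG : TorsionGalois N p) {S : Finset ℕ}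
    (hN : ∀ ℓ : Nat.Primes, (ℓ : ℕ) ∉ S → ¬ (ℓ : ℕ) ∣ N) (a : ℕ → ℤ) :
    GaloisFactorsThroughFiniteLevel ((eigenAction hG hN a).prod rep) := by
  have : Finite (eigenTorsion N p S a) :=
    ((finite_ptorsion M).subset fun x hx => hx.1).to_subtype
  choose L hL hfix using fun x : eigenTorsion N p S a =>
    hG.finite_level 1 (x : JZero N) (by rw [pow_one]; exact x.2.1)
  exact galoisFactorsThroughFiniteLevel_prod
    ⟨⨆ x, L x, inferInstance, fun g hg => LinearMap.ext fun x => Subtype.ext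
      (hfix x g fun a ha => hg a (le_iSup L x ha))⟩
    (EC.galoisFactorsThroughFiniteLevel (W.map (Int.castRingHom ℚ)) p
      (Fact.out : p.Prime).ne_zero)

/-- `E[p]` satisfies `ρ g + det ρ g • ρ g⁻¹ = tr ρ g`. -/
theorem rep_quadratic (g : GQ) :
    rep g + LinearMap.det (rep g) • rep g⁻¹ =
      LinearMap.trace (ZMod p) Tors (rep g) • 1 := by
  have hV := EC.finrank_torsionBy (K := Qbar) (W.map (Int.castRingHom ℚ)) p
    (Nat.cast_ne_zero.2 (Fact.out : p.Prime).ne_zero)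
  have : Module.Finite (ZMod p) Tors := Module.finite_of_finrank_pos (hV ▸ two_pos)
  have hch := Gal.cayleyHamilton_two hV (rep g)
  have huv : rep g * rep g⁻¹ = 1 := by rw [← map_mul, mul_inv_cancel, map_one]
  have h := congrArg (· * rep g⁻¹) hch
  simp only [sub_mul, smul_mul_assoc, one_mul, mul_assoc, huv, mul_one] at h
  exact eq_sub_iff_add_eq.1 h

/-- The quadratic relation of `E[p]` holds for `f` at `g` if it holds at a Frobenius `σ` a power
of which represents `g` in both representations. -/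
theorem quadratic_of_frobenius {X : Type} [Ring X] [Algebra (ZMod p) X] (f : GQ →* X) {ℓ : ℕ}
    (hℓ : ℓ.Prime) (hℓp : ℓ ≠ p) (hgood : W.IsGoodPrimeFor ℓ)
    {A : ValuationSubring (AlgebraicClosure ℚ)} (hA : A.LiesOverPrime ℓ) {σ g : GQ}
    (hσ : A.IsFrobeniusAt σ ℓ) {k : ℕ} (hρ : rep g = rep σ ^ k) (hf : f g = f σ ^ k)
    (hfσ : f σ + (ℓ : ZMod p) • f σ⁻¹ = (W.apOfModel ℓ : ZMod p) • 1) :
    f g + LinearMap.det (rep g) • f g⁻¹ =
      LinearMap.trace (ZMod p) Tors (rep g) • 1 := by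
  have hp : p.Prime := Fact.out
  have hV := EC.finrank_torsionBy (K := Qbar) (W.map (Int.castRingHom ℚ)) p
    (Nat.cast_ne_zero.2 hp.ne_zero)
  have hdet : LinearMap.det (rep σ) = (ℓ : ZMod p) :=
    EC.det_frobenius p ℓ (W.map (Int.castRingHom ℚ)) hℓ hℓp hA hσ
  have hχ : LinearMap.det (rep g) = (ℓ : ZMod p) ^ k := by rw [hρ, map_pow, hdet]
  set d : ZMod p := (ℓ : ZMod p)
  set a : ZMod p := (W.apOfModel ℓ : ZMod p)
  have key : ∀ {Y : Type} [Ring Y] [Algebra (ZMod p) Y] (f : GQ →* Y),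
      f g = f σ ^ k → f σ + d • f σ⁻¹ = a • 1 →
      f g + LinearMap.det (rep g) • f g⁻¹ = powTrace a d k • 1 := by
    intro Y _ _ f hf hσ'
    rw [Algebra.smul_def, ← Algebra.algebraMap_eq_smul_one] at hσ'
    have h := pow_add_pow_eq_powTrace (f σ) (f σ⁻¹) (algebraMap (ZMod p) Y a)
      (algebraMap (ZMod p) Y d) (by rw [← map_mul, mul_inv_cancel, map_one])
      (by rw [← map_mul, inv_mul_cancel, map_one]) (Algebra.commutes _ _) (Algebra.commutes _ _)
      hσ' k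
    rw [← map_powTrace, ← map_pow (algebraMap (ZMod p) Y) d k, ← Algebra.smul_def,
      Algebra.algebraMap_eq_smul_one] at h
    have hinv : f g⁻¹ = f σ⁻¹ ^ k := by
      have h1 : f g * f σ⁻¹ ^ k = 1 := by
        rw [hf, ← map_pow, ← map_pow, ← map_mul, inv_pow, mul_inv_cancel, map_one]
      exact left_inv_eq_right_inv (by rw [← map_mul, inv_mul_cancel, map_one]) h1
    rwa [hf, hinv, hχ]
  have hρσ : rep σ + d • rep σ⁻¹ = a • 1 := by
    have h := rep_quadratic (p := p) W σ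
    rwa [hdet, show LinearMap.trace (ZMod p) Tors (rep σ) = a from
      EC.galoisTrace_frobenius W p ℓ hℓ hℓp hgood hA hσ] at h
  have ht := (rep_quadratic (p := p) W g).symm.trans (key rep hρ hρσ)
  have : Nontrivial Tors := Module.nontrivial_of_finrank_pos (R := ZMod p) (hV ▸ two_pos)
  rw [smul_left_injective (ZMod p) one_ne_zero ht]
  exact key f hf hfσ

/-- An irreducible `E[p]`, `p` odd, embeds into any nonzero module with its quadratic relation. -/
theorem exists_intertwiner_of_quadratic (hp2 : p ≠ 2)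
    (hirr : GaloisRepIsIrreducible (K := Qbar) ℚ (W.map (Int.castRingHom ℚ)) p)
    {H : Type*} [AddCommGroup H] [Module (ZMod p) H] [Nontrivial H]
    (τ : GQ →* Module.End (ZMod p) H)
    (hτ : ∀ g, τ g + LinearMap.det (rep g) • τ g⁻¹ =
      LinearMap.trace (ZMod p) Tors (rep g) • 1) :
    ∃ f : Tors →ₗ[ZMod p] H, Function.Injective f ∧ ∀ g x, f (rep g x) = τ g (f x) := by
  have hp : p.Prime := Fact.out
  have : NeZero p := ⟨hp.ne_zero⟩
  have hV := EC.finrank_torsionBy (K := Qbar) (W.map (Int.castRingHom ℚ)) p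
    (Nat.cast_ne_zero.2 hp.ne_zero)
  set χ : GQ →* ZMod p := (LinearMap.det).comp rep with hχdef
  have h2 : (2 : ZMod p) ≠ 0 := fun h => hp2 <|
    (Nat.prime_dvd_prime_iff_eq hp Nat.prime_two).mp ((ZMod.natCast_eq_zero_iff 2 p).mp
      (by simpa using h))
  have hn := Ihara.card_rootsOfUnity_Qbar p
  have hc : χ complexConjugation = -1 := by
    show LinearMap.det (rep complexConjugation) = -1
    rw [Ihara.det_galoisRepModuleEnd _ hn, Ihara.cyclotomicCharacter_complexConjugation hn]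
  have hne : ∀ e : ZMod p, e ^ 2 = 1 → rep complexConjugation ≠ e • 1 := fun e he h => by
    have h' : χ complexConjugation = LinearMap.det (rep complexConjugation) := rfl
    rw [hc, h, LinearMap.det_smul, map_one, mul_one, hV, he] at h'
    exact h2 (by linear_combination -h')
  exact exists_injective_intertwiner (η := (2 : ZMod p)⁻¹) (χ := χ)
    (t := fun g => LinearMap.trace (ZMod p) _ (rep g)) (c := complexConjugation) (ρ := rep)
    (τ := τ) ⟨mul_inv_cancel₀ h2, complexConjugation_mul_self, hc, rep_quadratic W⟩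
    ⟨mul_inv_cancel₀ h2, complexConjugation_mul_self, hc, hτ⟩
    (fun h => hne 1 (one_pow 2) (by rw [h, one_smul]))
    (fun h => hne (-1) (by ring) (by rw [h, neg_one_smul]))
    (fun W' hW' => hirr.2 W' fun g x hx => hW' g x hx) hV

/-- The Galois map `E[p] → J₀(N)[p]`. -/
theorem exists_galois_map (hp2 : p ≠ 2)
    (hirr : GaloisRepIsIrreducible (K := Qbar) ℚ (W.map (Int.castRingHom ℚ)) p)
    (M : TorsionModel N p) (hG : TorsionGalois N p) {S : Finset ℕ} (hpS : p ∈ S)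
    (hNS : ∀ q, q.Prime → q ∣ N → q ∈ (↑S : Set ℕ))
    (hΔS : ∀ q : ℕ, q.Prime → (q : ℤ) ∣ W.Δ → q ∈ S)
    (θ : CuspForm.heckeAlgebra N 2 (↑S : Set ℕ) →+* ZMod p)
    (hθ : ∀ (ℓ : ℕ) (hℓ : ℓ.Prime) (hℓN : ¬ ℓ ∣ N) (hℓS : ℓ ∉ (↑S : Set ℕ)),
      θ (CuspForm.heckeAlgebra.T hℓ hℓN hℓS) = (W.apOfModel ℓ : ZMod p)) :
    ∃ ι : Submodule.torsionBy ℤ ((W.map (Int.castRingHom ℚ))⁄Qbar).Point (p : ℤ) →+ JZero N,
      Function.Injective ι ∧ (∀ (g : GQ) x, ι (g • x) = g • ι x) ∧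
      (∀ x, p • ι x = 0) ∧
      ∀ ℓ : Nat.Primes, (ℓ : ℕ) ∉ S → ∀ x, heckeOperatorBar N ℓ (ι x) = W.apOfModel ℓ • ι x := by
  classical
  obtain ⟨x₀, hx₀, hx₀0⟩ := exists_mem_eigenTorsion M hNS W.apOfModel θ hθ
  have : Nontrivial (eigenTorsion N p S W.apOfModel) :=
    ⟨⟨x₀, hx₀⟩, 0, fun h => hx₀0 (congrArg Subtype.val h)⟩
  have hN : ∀ ℓ : Nat.Primes, (ℓ : ℕ) ∉ S → ¬ (ℓ : ℕ) ∣ N := fun ℓ hℓ h =>
    hℓ (Finset.mem_coe.1 (hNS _ ℓ.2 h))
  obtain ⟨f, hf, hfg⟩ := exists_intertwiner_of_quadratic W hp2 hirr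
    (eigenAction hG hN W.apOfModel) fun g => by
      obtain ⟨ℓ, hℓ, hℓS, A, hA, σ, hσ, k, -, hg, -⟩ :=
        Gal.exists_frobenius_map_generates _ (eigenAction_finite_level W M hG hN W.apOfModel) g S
      exact quadratic_of_frobenius W _ hℓ (fun h => hℓS (h ▸ hpS))
        (fun h => hℓS (hΔS ℓ hℓ h)) hA hσ (congrArg Prod.snd hg) (congrArg Prod.fst hg)
        (eigenAction_frobenius hG hN hpS _ hℓ hℓS hA hσ)
  exact ⟨(eigenTorsion N p S W.apOfModel).subtype.comp f.toAddMonoidHom,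
    Subtype.val_injective.comp hf, fun g x => congrArg Subtype.val (hfg g x),
    fun x => (f x).2.1, fun ℓ hℓ x => (f x).2.2 ℓ hℓ⟩

end Fermat.Agent.LoweringAtP.HeckeCompat
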