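import Mathlib.Algebra.Module.ZMod
import Fermat.Prelude.Def_FLTPrelim_ModularRep
import Fermat.Agent.Attach.EigenChar
import Fermat.Agent.Attach.Trace

/-!
# Characters `T_S → ZMod p`

They come from a congruence of an eigenform, and from an eigenvector in `J₀(N)[p]`; they are used
to pass between residual modularity and torsion of the Jacobian.
-/

noncomputable section

namespace Fermat.Agent.LoweringAtP.HeckeCompat

open ModularCurve ModularFormClass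
open Fermat.Agent.Attach

variable {N : ℕ} [NeZero N] {p : ℕ} [Fact p.Prime]

/-- An eigenform congruent to an integral system gives `θ : T_S → ZMod p`. -/
theorem exists_theta_of_congr {g : CuspForm (CongruenceSubgroup.Gamma0 N) 2}
    (hg : g.IsNormalizedEigenform) {S : Set ℕ} (hNS : ∀ q, q.Prime → q ∣ N → q ∈ S)
    (M : TorsionModel N p) {𝔪 : Ideal (integralClosure ℤ ℂ)} (h𝔪 : 𝔪.IsMaximal)
    (hp𝔪 : (p : integralClosure ℤ ℂ) ∈ 𝔪) (a : ℕ → ℤ)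
    (ha : ∀ ℓ : ℕ, ℓ.Prime → ¬ ℓ ∣ N → ℓ ∉ S → ∃ b : integralClosure ℤ ℂ,
      (b : ℂ) = qCoeff g ℓ ∧ b - (a ℓ : integralClosure ℤ ℂ) ∈ 𝔪) :
    ∃ θ : CuspForm.heckeAlgebra N 2 S →+* ZMod p,
      ∀ (ℓ : ℕ) (hℓ : ℓ.Prime) (hℓN : ¬ ℓ ∣ N) (hℓS : ℓ ∉ S),
        θ (CuspForm.heckeAlgebra.T hℓ hℓN hℓS) = (a ℓ : ZMod p) := by
  obtain ⟨χ, hχ⟩ := exists_eigenChar hg hNS
  have hint : ∀ t : CuspForm.heckeAlgebra N 2 S, IsIntegral ℤ t :=
    isIntegral_of_faithful (M.hecke.comp (toAnemic hNS))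
      (M.hecke_injective.comp (toAnemic_injective hNS))
  let χ' : CuspForm.heckeAlgebra N 2 S →+* integralClosure ℤ ℂ :=
    χ.codRestrict (integralClosure ℤ ℂ).toSubring fun t => (hint t).map χ.toIntAlgHom
  let k := integralClosure ℤ ℂ ⧸ 𝔪
  let : Field k := Ideal.Quotient.field 𝔪
  have hk : ((p : ℕ) : k) = 0 := by
    rw [← map_natCast (Ideal.Quotient.mk 𝔪), Ideal.Quotient.eq_zero_iff_mem]
    exact hp𝔪
  have : CharP k p := (CharP.charP_iff_prime_eq_zero (Fact.out : p.Prime)).mpr hk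
  let ι : ZMod p →+* k := ZMod.castHom dvd_rfl k
  have hmem : ∀ t, Ideal.Quotient.mk 𝔪 (χ' t) ∈ ι.range := by
    refine forall_mem_of_T_mem (fun q hq hq' => hNS q hq' hq) ((Ideal.Quotient.mk 𝔪).comp χ')
      ι.range fun ℓ hℓ hℓN hℓS => ⟨(a ℓ : ZMod p), ?_⟩
    obtain ⟨b, hb, hbm⟩ := ha ℓ hℓ hℓN hℓS
    have he : χ' (CuspForm.heckeAlgebra.T hℓ hℓN hℓS) = b :=
      Subtype.ext ((hχ ℓ hℓ hℓN hℓS).trans hb.symm)
    rw [map_intCast, RingHom.comp_apply, he]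
    exact (map_intCast (Ideal.Quotient.mk 𝔪) (a ℓ)).symm.trans
      ((Ideal.Quotient.mk_eq_mk_iff_sub_mem _ _).2 hbm).symm
  let e : ZMod p ≃+* ι.range :=
    RingEquiv.ofBijective ι.rangeRestrict
      ⟨fun x y h => ι.injective (congrArg Subtype.val h), ι.rangeRestrict_surjective⟩
  let θ : CuspForm.heckeAlgebra N 2 S →+* ZMod p :=
    e.symm.toRingHom.comp (((Ideal.Quotient.mk 𝔪).comp χ').codRestrict ι.range hmem)
  refine ⟨θ, fun ℓ hℓ hℓN hℓS => ι.injective ?_⟩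
  obtain ⟨b, hb, hbm⟩ := ha ℓ hℓ hℓN hℓS
  have he : χ' (CuspForm.heckeAlgebra.T hℓ hℓN hℓS) = b :=
    Subtype.ext ((hχ ℓ hℓ hℓN hℓS).trans hb.symm)
  have h2 : ι (θ (CuspForm.heckeAlgebra.T hℓ hℓN hℓS)) =
      Ideal.Quotient.mk 𝔪 (χ' (CuspForm.heckeAlgebra.T hℓ hℓN hℓS)) := by
    have := congrArg Subtype.val (e.apply_symm_apply
      (((Ideal.Quotient.mk 𝔪).comp χ').codRestrict ι.range hmem
        (CuspForm.heckeAlgebra.T hℓ hℓN hℓS)))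
    exact this
  rw [h2, map_intCast, he, ← map_intCast (Ideal.Quotient.mk 𝔪)]
  exact (Ideal.Quotient.mk_eq_mk_iff_sub_mem _ _).2 hbm

/-- An eigenvector in `J₀(N)[p]` gives `θ : T_S → ZMod p`. -/
theorem exists_theta_of_eigen (M : TorsionModel N p) {S : Set ℕ}
    (hNS : ∀ q, q.Prime → q ∣ N → q ∈ S) (a : ℕ → ℤ) {x : JZero N} (hx0 : x ≠ 0)
    (hx : p • x = 0)
    (heig : ∀ ℓ : Nat.Primes, (ℓ : ℕ) ∉ S → heckeOperatorBar N ℓ x = a ℓ • x) :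
    ∃ θ : CuspForm.heckeAlgebra N 2 S →+* ZMod p,
      ∀ (ℓ : ℕ) (hℓ : ℓ.Prime) (hℓN : ¬ ℓ ∣ N) (hℓS : ℓ ∉ S),
        θ (CuspForm.heckeAlgebra.T hℓ hℓN hℓS) = (a ℓ : ZMod p) := by
  have : NeZero p := ⟨(Fact.out : p.Prime).ne_zero⟩
  obtain ⟨v, hv⟩ := M.exists_pt_eq 1 x (by rwa [pow_one])
  let w : Fin M.rk → ZMod p := fun i => (v i : ZMod p)
  have hzero : ∀ u : Fin M.rk → ℤ, M.pt 1 u = 0 ↔ ∀ i, (u i : ZMod p) = 0 := fun u => by
    rw [M.pt_eq_zero_iff, pow_one]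
    exact forall_congr' fun i => (ZMod.intCast_zmod_eq_zero_iff_dvd _ _).symm
  have hw0 : w ≠ 0 := fun h => hx0 (hv ▸ (hzero v).2 fun i => congrFun h i)
  let ρ : CuspForm.heckeAlgebra N 2 S →+* Matrix (Fin M.rk) (Fin M.rk) (ZMod p) :=
    ((Int.castRingHom (ZMod p)).mapMatrix.comp M.mat).comp (toAnemic hNS)
  let C : Subring (Matrix (Fin M.rk) (Fin M.rk) (ZMod p)) :=
    { carrier := {A | ∃ c : ZMod p, A.mulVec w = c • w}
      mul_mem' := by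
        rintro A B ⟨c, hc⟩ ⟨d, hd⟩
        exact ⟨d * c, by rw [← Matrix.mulVec_mulVec, hd, Matrix.mulVec_smul, hc, smul_smul]⟩
      one_mem' := ⟨1, by simp⟩
      add_mem' := by
        rintro A B ⟨c, hc⟩ ⟨d, hd⟩
        exact ⟨c + d, by rw [Matrix.add_mulVec, hc, hd, add_smul]⟩
      zero_mem' := ⟨0, by simp⟩
      neg_mem' := by
        rintro A ⟨c, hc⟩
        exact ⟨-c, by rw [Matrix.neg_mulVec, hc, neg_smul]⟩ }
  have hT : ∀ (ℓ : ℕ) (hℓ : ℓ.Prime) (hℓN : ¬ ℓ ∣ N) (hℓS : ℓ ∉ S),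
      (ρ (CuspForm.heckeAlgebra.T hℓ hℓN hℓS)).mulVec w = (a ℓ : ZMod p) • w := by
    intro ℓ hℓ hℓN hℓS
    have h := heig ⟨ℓ, hℓ⟩ hℓS
    rw [← hv, M.pt_hecke ⟨ℓ, hℓ⟩ hℓN, ← map_zsmul, ← sub_eq_zero, ← map_sub, hzero] at h
    funext i
    have h' := h i
    rw [Pi.sub_apply, Int.cast_sub, sub_eq_zero, Pi.smul_apply, smul_eq_mul, Int.cast_mul] at h'
    rw [Pi.smul_apply, smul_eq_mul]
    refine Eq.trans ?_ h'
    exact (RingHom.map_mulVec (Int.castRingHom (ZMod p)) _ v i).symm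
  have hall : ∀ t, ρ t ∈ C := forall_mem_of_T_mem (fun q hq hq' => hNS q hq' hq) ρ C
    fun ℓ hℓ hℓN hℓS => ⟨(a ℓ : ZMod p), hT ℓ hℓ hℓN hℓS⟩
  choose c hc using hall
  have inj : ∀ {r s : ZMod p}, r • w = s • w → r = s := fun h => smul_left_injective _ hw0 h
  refine ⟨{ toFun := c, map_one' := ?_, map_mul' := ?_, map_zero' := ?_, map_add' := ?_ },
    fun ℓ hℓ hℓN hℓS => inj ((hc _).symm.trans (hT ℓ hℓ hℓN hℓS))⟩
  · exact inj (by rw [← hc, map_one, Matrix.one_mulVec, one_smul])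
  · intro r s
    exact inj (by rw [← hc, map_mul, ← Matrix.mulVec_mulVec, hc s, Matrix.mulVec_smul, hc r,
      smul_smul, mul_comm])
  · exact inj (by rw [← hc, map_zero, Matrix.zero_mulVec, zero_smul])
  · intro r s
    exact inj (by rw [← hc, map_add, Matrix.add_mulVec, hc r, hc s, add_smul])

end Fermat.Agent.LoweringAtP.HeckeCompat
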