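import Fermat.Agent.Attach.Residual
import Fermat.Agent.Eis.CongruentClass
import Fermat.Agent.Eis.EigenLift
import Fermat.Agent.Frey.FreyModel
import Fermat.Agent.LoweringAtP.HeckeCompat.GaloisMap
import Fermat.Agent.LoweringAtP.HeckeCompat.Theta
import Fermat.Agent.MF.IntegralBasis

/-!
# Residual modularity and eigenvectors in `J₀(N)[p]`

Residual modularity of level `N` gives a Galois map `E[p] → J₀(N)[p]`, and conversely an
eigenvector in `J₀(M)[p]` gives residual modularity of level `M`.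
-/

noncomputable section

namespace Fermat.Agent.LoweringAtP.HeckeCompat

open WeierstrassCurve WeierstrassCurve.Affine.Point ModularCurve ModularFormClass Polynomial
open Fermat.Agent.Attach
open scoped WeierstrassCurve.Affine

local notation "Qbar" => AlgebraicClosure ℚ
local notation "GQ" => AlgebraicClosure ℚ ≃ₐ[ℚ] AlgebraicClosure ℚ

/-- The bad set: the primes of `N p Δ`. -/
def badSet (N p : ℕ) (W : WeierstrassCurve ℤ) : Finset ℕ :=
  insert p (N.primeFactors ∪ W.Δ.natAbs.primeFactors)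

theorem mem_badSet_self (N p : ℕ) (W : WeierstrassCurve ℤ) : p ∈ badSet N p W :=
  Finset.mem_insert_self _ _

theorem mem_badSet_of_dvd {N p : ℕ} [NeZero N] {W : WeierstrassCurve ℤ} {q : ℕ} (hq : q.Prime)
    (h : q ∣ N) : q ∈ badSet N p W :=
  Finset.mem_insert_of_mem (Finset.mem_union_left _ (Nat.mem_primeFactors.2 ⟨hq, h, NeZero.ne N⟩))

theorem mem_badSet_of_bad {N p : ℕ} {W : WeierstrassCurve ℤ} {q : ℕ} (hΔ : W.Δ ≠ 0) (hq : q.Prime)
    (h : (q : ℤ) ∣ W.Δ) : q ∈ badSet N p W :=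
  Finset.mem_insert_of_mem (Finset.mem_union_right _
    (Nat.mem_primeFactors.2 ⟨hq, Int.natCast_dvd.1 h, Int.natAbs_ne_zero.2 hΔ⟩))

theorem good_of_not_mem_badSet {N p : ℕ} [NeZero N] {W : WeierstrassCurve ℤ} (hΔ : W.Δ ≠ 0) {q : ℕ}
    (hq : q.Prime) (h : q ∉ badSet N p W) : W.IsGoodPrimeFor q ∧ ¬ q ∣ N ∧ q ≠ p :=
  ⟨fun hd => h (mem_badSet_of_bad hΔ hq hd), fun hd => h (mem_badSet_of_dvd hq hd),
    fun e => h (e ▸ mem_badSet_self N p W)⟩

theorem model_elliptic {P : FreyPackage} {W : WeierstrassCurve ℤ}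
    (hW : W.IsIntegralModelOf P.freyCurve) : (W.map (Int.castRingHom ℚ)).IsElliptic := by
  obtain ⟨C, hC⟩ := hW
  have := Frey.isElliptic_freyCurve P
  exact hC ▸ inferInstanceAs (C • P.freyCurve).IsElliptic

theorem model_Δ_ne_zero {W : WeierstrassCurve ℤ} (h : (W.map (Int.castRingHom ℚ)).IsElliptic) :
    W.Δ ≠ 0 := fun h0 =>
  (W.map (Int.castRingHom ℚ)).isUnit_Δ.ne_zero
    (by rw [WeierstrassCurve.map_Δ, h0, _root_.map_zero])

/-- A residually modular integral model of the Frey curve gives `ModularRepOfLevel`. -/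
theorem modularRepOfLevel_of_residuallyModular {P : FreyPackage} {M : ℕ} {W : WeierstrassCurve ℤ}
    (hW : W.IsIntegralModelOf P.freyCurve) (h : W.IsResiduallyModularOfLevel P.p M) :
    P.ModularRepOfLevel M := by
  obtain ⟨g, 𝔪, hg, h𝔪, hp𝔪, hcong⟩ := h
  exact ⟨g, W, 𝔪, hg, hW, h𝔪, hp𝔪, hcong⟩

/-- The Galois map `E[p] → J₀(N)[p]` of a residually modular curve. -/
theorem exists_galois_map_of_residuallyModular {p N : ℕ} [Fact p.Prime] [NeZero N] (hp2 : p ≠ 2)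
    {W : WeierstrassCurve ℤ} (hΔ : W.Δ ≠ 0) (Ins : JacobianInputs N p)
    (hirr : W.ModRepIsIrreducible p) (hmod : W.IsResiduallyModularOfLevel p N) :
    ∃ ι : Submodule.torsionBy ℤ ((W.map (Int.castRingHom ℚ))⁄Qbar).Point (p : ℤ) →+ JZero N,
      Function.Injective ι ∧ (∀ (g : GQ) x, ι (g • x) = g • ι x) ∧ (∀ x, p • ι x = 0) ∧
      ∀ ℓ : Nat.Primes, (ℓ : ℕ) ∉ badSet N p W → ∀ x,
        heckeOperatorBar N ℓ (ι x) = W.apOfModel ℓ • ι x := by
  obtain ⟨f, 𝔪, hf, h𝔪, hp𝔪, hcong⟩ := hmod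
  have := Frey.isElliptic_mapRat hΔ
  have hNS : ∀ q, q.Prime → q ∣ N → q ∈ (↑(badSet N p W) : Set ℕ) := fun q hq h =>
    mem_badSet_of_dvd hq h
  obtain ⟨θ, hθ⟩ := exists_theta_of_congr hf hNS Ins.model h𝔪 hp𝔪 W.apOfModel
    fun ℓ hℓ _ hℓS => by
      obtain ⟨h1, h2, h3⟩ := good_of_not_mem_badSet hΔ hℓ hℓS
      exact hcong ℓ hℓ h1 h2 h3
  exact exists_galois_map W hp2 hirr Ins.model Ins.galois (mem_badSet_self N p W) hNS
    (fun q hq h => mem_badSet_of_bad hΔ hq h) θ hθ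

/-- In dimension `2` the trace of `σ ^ n` is the power trace of the trace and determinant of `σ`. -/
theorem trace_eq_powTrace {k V : Type} [Field k] [AddCommGroup V] [Module k V] [Module.Free k V]
    [Module.Finite k V]
    (hV : Module.finrank k V = 2) (ρ : GQ →* Module.End k V) {g σ : GQ} {n : ℕ}
    (hg : ρ g = ρ σ ^ n) {a d : k}
    (hch : LinearMap.charpoly (ρ σ) = X ^ 2 - C a * X + C d) :
    LinearMap.trace k V (ρ g) = powTrace a d n := by
  have h : LinearMap.trace k V (ρ σ) = a ∧ LinearMap.det (ρ σ) = d := by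
    rw [Gal.charpoly_fin_two' hV] at hch
    have h1 := congrArg (fun q : k[X] => q.coeff 1) hch
    have h0 := congrArg (fun q : k[X] => q.coeff 0) hch
    simp [coeff_X_pow, coeff_C] at h1 h0
    exact ⟨h1, h0⟩
  let b := Gal.basisTwo hV
  rw [hg, LinearMap.trace_eq_matrix_trace k b, ← LinearMap.toMatrix_pow,
    trace_pow_eq_powTrace _ ?_ n, ← LinearMap.trace_eq_matrix_trace, LinearMap.det_toMatrix, h.1,
    h.2]
  rw [LinearMap.det_toMatrix]
  exact ((Group.isUnit σ).map ρ).map LinearMap.det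

/-- A character of the Hecke algebra of level `M` with the eigenvalues of `W` modulo `p` gives
residual modularity of level `M`. -/
theorem residuallyModular_of_theta {p M : ℕ} [NeZero M] [Fact p.Prime]
    (Ins : JacobianInputs M p) {W : WeierstrassCurve ℤ} (hΔ : W.Δ ≠ 0)
    {S : Finset ℕ} (θ : CuspForm.heckeAlgebra M 2 (↑S : Set ℕ) →+* ZMod p)
    (hθ : ∀ (ℓ : ℕ) (hℓ : ℓ.Prime) (hℓM : ¬ ℓ ∣ M) (hℓS : ℓ ∉ (↑S : Set ℕ)),
      θ (CuspForm.heckeAlgebra.T hℓ hℓM hℓS) = (W.apOfModel ℓ : ZMod p)) :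
    W.IsResiduallyModularOfLevel p M := by
  classical
  have hp : p.Prime := Fact.out
  have hell := Frey.isElliptic_mapRat hΔ
  have := Eis.moduleFinite_heckeAlgebra (N := M) (MF.hasIntegralStructure M 2)
  let i : CuspForm.heckeAlgebra M 2 (↑S : Set ℕ) →+* CuspForm.heckeAlgebra M 2 (∅ : Set ℕ) :=
    (Subalgebra.inclusion (CuspForm.heckeAlgebra_mono (Set.empty_subset _))).toRingHom
  have hker : (RingHom.ker θ).IsMaximal :=
    RingHom.ker_isMaximal_of_surjective θ (ZMod.ringHom_surjective θ)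
  let : Algebra (CuspForm.heckeAlgebra M 2 (↑S : Set ℕ)) (CuspForm.heckeAlgebra M 2 (∅ : Set ℕ)) :=
    i.toAlgebra
  have : IsScalarTower ℤ (CuspForm.heckeAlgebra M 2 (↑S : Set ℕ))
      (CuspForm.heckeAlgebra M 2 (∅ : Set ℕ)) :=
    IsScalarTower.of_algebraMap_eq' (RingHom.ext_int _ _)
  have : Algebra.IsIntegral (CuspForm.heckeAlgebra M 2 (↑S : Set ℕ))
      (CuspForm.heckeAlgebra M 2 (∅ : Set ℕ)) :=
    ⟨fun x => (Algebra.IsIntegral.isIntegral (R := ℤ) x).tower_top⟩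
  obtain ⟨m, hm, hmc⟩ := Ideal.exists_ideal_over_maximal_of_isIntegral
    (S := CuspForm.heckeAlgebra M 2 (∅ : Set ℕ)) (RingHom.ker θ) (fun t ht => by
      have : t = 0 := (injective_iff_map_eq_zero i).1 (Subalgebra.inclusion_injective _) t
        (RingHom.mem_ker.1 ht)
      rw [this]; exact zero_mem _)
  obtain ⟨g, hg, χ, 𝔐, h𝔐, hχm, hχ⟩ := Eis.exists_eigenform_of_maximalIdeal m
  have hmem : ∀ t, θ t = 0 → χ (i t) ∈ 𝔐 := fun t ht => by
    have h1 : t ∈ m.comap i := by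
      rw [show m.comap i = RingHom.ker θ from hmc]
      exact RingHom.mem_ker.2 ht
    rw [← hχm] at h1
    exact h1
  have hp𝔐 : (p : integralClosure ℤ ℂ) ∈ 𝔐 := by
    have := hmem (p : CuspForm.heckeAlgebra M 2 (↑S : Set ℕ))
      (by rw [map_natCast, ZMod.natCast_self])
    rwa [map_natCast, map_natCast] at this
  have hcongS : ∀ ℓ : ℕ, ℓ.Prime → ¬ ℓ ∣ M → ℓ ∉ S → ∀ b : integralClosure ℤ ℂ,
      (b : ℂ) = qCoeff g ℓ → b - (W.apOfModel ℓ : integralClosure ℤ ℂ) ∈ 𝔐 := by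
    intro ℓ hℓ hℓM hℓS b hb
    have hℓS' : ℓ ∉ (↑S : Set ℕ) := fun h => hℓS (Finset.mem_coe.1 h)
    have h := hmem (CuspForm.heckeAlgebra.T hℓ hℓM hℓS' -
      (W.apOfModel ℓ : CuspForm.heckeAlgebra M 2 (↑S : Set ℕ)))
      (by rw [map_sub, map_intCast, hθ, sub_self])
    rw [map_sub, map_intCast, map_sub, map_intCast] at h
    have hgen : i (CuspForm.heckeAlgebra.T hℓ hℓM hℓS') = CuspForm.heckeFormsGen M 2 ⟨ℓ, hℓ⟩ := by
      rw [CuspForm.heckeFormsGen_of_not_dvd (ℓ := ⟨ℓ, hℓ⟩) hℓM]; rfl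
    have hval : b = χ (i (CuspForm.heckeAlgebra.T hℓ hℓM hℓS')) :=
      Subtype.ext (by rw [hb, hgen, hχ ℓ hℓ])
    rwa [← hval] at h
  refine ⟨g, 𝔐, hg, h𝔐, hp𝔐, fun ℓ hℓ hgood hℓM hℓp => ?_⟩
  let K := integralClosure ℤ ℂ ⧸ 𝔐
  let : Field K := Ideal.Quotient.field 𝔐
  set φ : integralClosure ℤ ℂ →+* K := Ideal.Quotient.mk 𝔐
  have hK0 : ((p : ℕ) : K) = 0 := by
    rw [← map_natCast φ]; exact Ideal.Quotient.eq_zero_iff_mem.2 hp𝔐
  have : CharP K p := (CharP.charP_iff_prime_eq_zero hp).mpr hK0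
  have hne : ∀ q : ℕ, q.Prime → q ≠ p → (q : K) ≠ 0 := fun q hq hqp h =>
    hqp ((Nat.prime_dvd_prime_iff_eq hp hq).mp ((CharP.cast_eq_zero_iff K p q).mp h)).symm
  obtain ⟨ρ, hρ, -⟩ := exists_residualGaloisRep_isAttachedTo_of_inputs hg Ins φ
  set E := W.map (Int.castRingHom ℚ)
  set ρE := galoisRepModuleEnd (K := Qbar) ℚ E p
  have hVE := EC.finrank_torsionBy (K := Qbar) E p (Nat.cast_ne_zero.2 hp.ne_zero)
  have : Module.Free (ZMod p) (Submodule.torsionBy ℤ (E⁄Qbar).Point (p : ℤ)) :=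
    Module.Free.of_divisionRing _ _
  have : Module.Finite (ZMod p) (Submodule.torsionBy ℤ (E⁄Qbar).Point (p : ℤ)) :=
    Module.finite_of_finrank_pos (hVE ▸ two_pos)
  obtain ⟨A, σ, hA, hσ⟩ := Gal.exists_liesOverPrime_isFrobeniusAt hℓ
  obtain ⟨b, hb, hchg⟩ := hρ ℓ hℓ hℓM (hne ℓ hℓ hℓp) A hA σ hσ
  refine ⟨b, hb, ?_⟩
  obtain ⟨ℓ', hℓ', hℓ'S, A', hA', σ', hσ', n, -, hgen, -⟩ :=
    Gal.exists_frobenius_map_generates (ρ.ρ.prod ρE)
      (galoisFactorsThroughFiniteLevel_prod ρ.factorsThroughFiniteLevel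
        (EC.galoisFactorsThroughFiniteLevel E p hp.ne_zero)) σ (S ∪ badSet M p W)
  rw [Finset.mem_union, not_or] at hℓ'S
  obtain ⟨hgood', hℓ'M, hℓ'p⟩ := good_of_not_mem_badSet hΔ hℓ' hℓ'S.2
  obtain ⟨b', hb', hchg'⟩ := hρ ℓ' hℓ' hℓ'M (hne ℓ' hℓ' hℓ'p) A' hA' σ' hσ'
  have hb'φ : φ b' = (W.apOfModel ℓ' : K) := by
    rw [← map_intCast φ]
    exact (Ideal.Quotient.mk_eq_mk_iff_sub_mem _ _).2 (hcongS ℓ' hℓ' hℓ'M hℓ'S.1 b' hb')
  have t1 : φ b = powTrace (φ b') (ℓ' : K) n := by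
    rw [← trace_eq_powTrace ρ.finrank_eq ρ.ρ (g := σ) (σ := σ') (congrArg Prod.fst hgen) hchg']
    exact (trace_eq_powTrace ρ.finrank_eq ρ.ρ (g := σ) (σ := σ) (n := 1) (pow_one _).symm hchg).symm
  have t2 : (W.apOfModel ℓ : ZMod p) = powTrace (W.apOfModel ℓ' : ZMod p) (ℓ' : ZMod p) n := by
    rw [← trace_eq_powTrace hVE ρE (g := σ) (σ := σ') (congrArg Prod.snd hgen)
      (EC.charpoly_frobenius W p ℓ' hℓ' hℓ'p hgood' hA' hσ')]
    exact (EC.galoisTrace_frobenius W p ℓ hℓ hℓp hgood hA hσ).symm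
  have t3 : φ b = φ (W.apOfModel ℓ : integralClosure ℤ ℂ) := by
    have h := congrArg (ZMod.castHom dvd_rfl K) t2
    rw [map_powTrace, map_intCast, map_intCast, map_natCast] at h
    rw [t1, hb'φ, ← h, map_intCast]
  exact (Ideal.Quotient.mk_eq_mk_iff_sub_mem _ _).1 t3

/-- An eigenvector at level `M` gives residual modularity of level `M`. -/
theorem residuallyModular_of_eigen {p M : ℕ} [NeZero M] [Fact p.Prime]
    (Ins : JacobianInputs M p) {W : WeierstrassCurve ℤ} (hΔ : W.Δ ≠ 0)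
    {S : Finset ℕ} {x : JZero M} (hx0 : x ≠ 0) (hx : p • x = 0)
    (heig : ∀ ℓ : Nat.Primes, (ℓ : ℕ) ∉ S → heckeOperatorBar M ℓ x = W.apOfModel ℓ • x) :
    W.IsResiduallyModularOfLevel p M := by
  classical
  have hMS : ∀ q, q.Prime → q ∣ M → q ∈ (↑(S ∪ M.primeFactors) : Set ℕ) := fun q hq h =>
    Finset.mem_union_right _ (Nat.mem_primeFactors.2 ⟨hq, h, NeZero.ne M⟩)
  obtain ⟨θ, hθ⟩ := exists_theta_of_eigen Ins.model hMS W.apOfModel hx0 hx
    fun ℓ hℓ => heig ℓ fun h => hℓ (Finset.mem_union_left _ h)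
  exact residuallyModular_of_theta Ins hΔ θ hθ

end Fermat.Agent.LoweringAtP.HeckeCompat
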