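import Fermat.Agent.Ihara.TraceMain
import Fermat.Agent.LoweringAtP.HeckeCompat.Lambda
import Fermat.Agent.LoweringAtP.HeckeCompat.Modular

/-!
# Irreducibility kills the slope

An irreducible representation has good primes with `a_ℓ ≢ ℓ + 1 (mod p)`; so the slope of an
eigenfunction at the nodes vanishes modulo `p`.
-/

noncomputable section

namespace Fermat.Agent.LoweringAtP.HeckeCompat

open AlgebraicCurve ModularCurve WeierstrassCurve.Affine.Point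

local notation "Qbar" => AlgebraicClosure ℚ

/-- Outside any finite set there is a prime with `a_ℓ ≢ ℓ + 1 (mod p)`. -/
theorem exists_prime_not_eisenstein {p : ℕ} [Fact p.Prime] (hp2 : p ≠ 2) {W : WeierstrassCurve ℤ}
    (hΔ : W.Δ ≠ 0) (hirr : W.ModRepIsIrreducible p) (S : Finset ℕ) :
    ∃ ℓ : ℕ, ℓ.Prime ∧ ℓ ∉ S ∧ ℓ ≠ p ∧
      ¬ (p : ℤ) ∣ W.apOfModel ℓ - ((ℓ : ℤ) + 1) := by
  have := Frey.isElliptic_mapRat hΔ
  obtain ⟨ℓ, hℓ, hB, hℓp, -, h, -⟩ := Ihara.exists_prime_trace_ne (W.map (Int.castRingHom ℚ))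
    ⟨1, one_smul _ _⟩ Fact.out hp2 hirr (S.sup id)
  exact ⟨ℓ, hℓ, fun hS => absurd (Finset.le_sup (f := id) hS) (not_le.mpr hB), hℓp, h⟩

/-- The slope is zero modulo `p`. -/
theorem p_dvd_lambda {p : ℕ} [Fact p.Prime] (hp2 : p ≠ 2) {W : WeierstrassCurve ℤ}
    (hΔ : W.Δ ≠ 0) (hirr : W.ModRepIsIrreducible p)
    {k : Type*} [Field k] [IsAlgClosed k] [CharP k p] {L : ℕ} [NeZero L] (hLk : (L : k) ≠ 0)
    {S : Finset ℕ} {ubar : modularFunctionFieldFullC k L}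
    (hu : (ubar : LaurentSeries k) = unitSer k p)
    {g : modularFunctionFieldFullC k L} (hg : g ≠ 0)
    (hrel : ∀ (ℓ : ℕ) [NeZero ℓ] [Fact ℓ.Prime], ℓ ∉ S → ∃ c : k, c ≠ 0 ∧
      ∃ h : modularFunctionFieldFullC k L, h ≠ 0 ∧
        normC k L ℓ g = algebraMap k _ c * g ^ W.apOfModel ℓ * h ^ p)
    {κ lam : ℤ} (hκ : κ ≠ 0) (e : Place k (modularFunctionFieldFullC k L) → ℤ)
    (he : ∀ Q : Place k (modularFunctionFieldFullC k L), 0 ≤ Q.ord (jC k L) →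
      Q.ord ubar = κ * e Q)
    (hcong : ∀ Q : Place k (modularFunctionFieldFullC k L), 0 ≤ Q.ord (jC k L) →
      (p : ℤ) ∣ Q.ord g - lam * e Q)
    (hQ : ∃ Q : Place k (modularFunctionFieldFullC k L), 0 ≤ Q.ord (jC k L) ∧ e Q = 1) :
    (p : ℤ) ∣ lam := by
  classical
  obtain ⟨ℓ, hℓ, hℓS, hℓp, hne⟩ :=
    exists_prime_not_eisenstein hp2 hΔ hirr (S ∪ L.primeFactors)
  have : Fact ℓ.Prime := ⟨hℓ⟩
  have : NeZero ℓ := ⟨hℓ.ne_zero⟩
  rw [Finset.mem_union, not_or] at hℓS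
  have hℓL : ¬ ℓ ∣ L := fun h => hℓS.2 (Nat.mem_primeFactors.mpr ⟨hℓ, h, NeZero.ne L⟩)
  have hℓk : (ℓ : k) ≠ 0 := fun h => hℓp
    ((Nat.prime_dvd_prime_iff_eq Fact.out hℓ).mp ((CharP.cast_eq_zero_iff k p ℓ).mp h)).symm
  obtain ⟨c, hc, h, hh, hr⟩ := hrel ℓ hℓS.1
  exact ((Nat.prime_iff_prime_int.mp Fact.out).dvd_or_dvd
    (lambda_mul_eq_zero hℓL hℓp (by rw [Nat.cast_mul]; exact mul_ne_zero hLk hℓk) hu hg hc hh hr hκ
      e he hcong hQ)).resolve_left hne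

end Fermat.Agent.LoweringAtP.HeckeCompat
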