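import Fermat.Agent.LoweringAtP.HeckeCompat.RedClassHecke

/-!
# The Atkin–Lehner involution commutes with `T_ℓ`

The Atkin–Lehner involution at `q` extends along both degeneracy maps of `T_ℓ`, so it commutes with
the norms of `T_ℓ`; this moves statements from one component to the other.
-/

noncomputable section

namespace Fermat.Agent.LoweringAtP.HeckeCompat

open AlgebraicCurve ModularCurve

local notation "Qbar" => AlgebraicClosure ℚ

variable {M ℓ q : ℕ} [NeZero M] [NeZero ℓ] [hq : Fact q.Prime]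

/-- Transfer of an automorphism along an equality of intermediate fields. -/
theorem exists_transfer {K E : Type*} [Field K] [Field E] [Algebra K E]
    {F F' : IntermediateField K E}
    (h : F = F') (w : F ≃ₐ[K] F) :
    ∃ τ : F' ≃ₐ[K] F', ∀ (z' : F') (z : F), (z' : E) = z → (τ z' : E) = w z := by
  subst h
  exact ⟨w, fun z' z hz => by rw [Subtype.ext hz]⟩

/-- The Atkin–Lehner involution of level `M ℓ q`, at the level written `M q ℓ`. -/
theorem exists_wAL_cast (hqMℓ : ¬ q ∣ M * ℓ) :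
    ∃ τ : laurentBaseChange Qbar (modularFunctionFieldFull (M * q * ℓ)) ≃ₐ[Qbar]
        laurentBaseChange Qbar (modularFunctionFieldFull (M * q * ℓ)),
      ∀ (z' : laurentBaseChange Qbar (modularFunctionFieldFull (M * q * ℓ)))
        (z : TwoComponent.FN (M * ℓ) q), (z' : LaurentSeries Qbar) = z →
        (τ z' : LaurentSeries Qbar) = TwoComponent.wAL (M * ℓ) q hqMℓ z := by
  exact exists_transfer (congrArg
    (fun n => laurentBaseChange Qbar (modularFunctionFieldFull n)) (mul_right_comm M ℓ q))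
    (TwoComponent.wAL (M * ℓ) q hqMℓ)

theorem qExpand_jv {d : ℕ} (hd : d ≠ 0) :
    qExpand Qbar ℓ (Igusa.jv 1 d) = Igusa.jv (1 : Qbarˣ) (d * ℓ) := by
  rw [← Igusa.sub_one_eq, Igusa.sub_jv 1 1 (NeZero.ne ℓ) hd, one_pow, one_mul, mul_comm]

/-- The Atkin–Lehner involution at `q` extends along both degeneracy maps of `T_ℓ`. -/
theorem exists_wAL_intertwine [Fact ℓ.Prime] (hqM : ¬ q ∣ M) (hℓq : ℓ ≠ q) :
    ∃ τ : laurentBaseChange Qbar (modularFunctionFieldFull (M * q * ℓ)) ≃ₐ[Qbar]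
        laurentBaseChange Qbar (modularFunctionFieldFull (M * q * ℓ)),
      (∀ x, τ (heckeAlphaBar Qbar (M * q) ℓ x) =
        heckeAlphaBar Qbar (M * q) ℓ (TwoComponent.wAL M q hqM x)) ∧
      ∀ x, τ (heckeBetaBar Qbar (M * q) ℓ x) =
        heckeBetaBar Qbar (M * q) ℓ (TwoComponent.wAL M q hqM x) := by
  have hqMℓ : ¬ q ∣ M * ℓ := fun h => (hq.out.dvd_mul.mp h).elim hqM fun h' =>
    hℓq ((Nat.prime_dvd_prime_iff_eq hq.out Fact.out).mp h').symm
  obtain ⟨τ, hτ⟩ := exists_wAL_cast (M := M) (ℓ := ℓ) hqMℓ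
  have hmem : ∀ (e : ℕ) (he0 : e ≠ 0), e ∣ M * ℓ * q →
      Igusa.jv (1 : Qbarˣ) e ∈ TwoComponent.FN (M * ℓ) q := fun e he0 he => by
    rw [TwoComponent.FN_eq]; exact Igusa.jv_mem_full he0 he
  have hgen : ∀ (d : ℕ) [NeZero d] (hd : d ∣ M * q),
      τ (heckeAlphaBar Qbar (M * q) ℓ (EichlerShimura.jElem Qbar (M * q) d hd)) =
        heckeAlphaBar Qbar (M * q) ℓ (TwoComponent.wAL M q hqM (EichlerShimura.jElem Qbar
          (M * q) d hd)) ∧
      τ (heckeBetaBar Qbar (M * q) ℓ (EichlerShimura.jElem Qbar (M * q) d hd)) =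
        heckeBetaBar Qbar (M * q) ℓ (TwoComponent.wAL M q hqM (EichlerShimura.jElem Qbar
          (M * q) d hd)) := by
    intro d hdne hd
    have hd0 := hdne.out
    rcases EichlerShimura.exists_right_of_dvd (N := M) hq.out hd with hd' | ⟨d', rfl, hd'⟩
    · constructor <;> refine Subtype.ext ?_
      · rw [coe_heckeAlphaBar, TwoComponent.coe_wAL_jv M q hqM hd0 hd' _ rfl]
        refine (hτ _ ⟨_, hmem d hd0 ((hd'.mul_right ℓ).mul_right q)⟩ rfl).trans ?_
        exact TwoComponent.coe_wAL_jv (M * ℓ) q hqMℓ hd0 (hd'.mul_right ℓ) _ rfl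
      · rw [coe_heckeBetaBar, TwoComponent.coe_wAL_jv M q hqM hd0 hd' _ rfl,
          qExpand_jv (mul_ne_zero hd0 hq.out.ne_zero), mul_right_comm d q ℓ]
        refine (hτ _ ⟨_, hmem (d * ℓ) (mul_ne_zero hd0 (NeZero.ne ℓ))
          ((Nat.mul_dvd_mul_right hd' ℓ).mul_right q)⟩ (qExpand_jv hd0)).trans ?_
        exact TwoComponent.coe_wAL_jv (M * ℓ) q hqMℓ (mul_ne_zero hd0 (NeZero.ne ℓ))
          (Nat.mul_dvd_mul_right hd' ℓ) _ rfl
    · have hd'0 : d' ≠ 0 := left_ne_zero_of_mul hd0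
      constructor <;> refine Subtype.ext ?_
      · rw [coe_heckeAlphaBar, TwoComponent.coe_wAL_jv_mul M q hqM hd'0 hd' _ rfl]
        refine (hτ _ ⟨_, hmem (d' * q) hd0 (Nat.mul_dvd_mul_right (hd'.mul_right ℓ) q)⟩
          rfl).trans ?_
        exact TwoComponent.coe_wAL_jv_mul (M * ℓ) q hqMℓ hd'0 (hd'.mul_right ℓ) _ rfl
      · rw [coe_heckeBetaBar, TwoComponent.coe_wAL_jv_mul M q hqM hd'0 hd' _ rfl, qExpand_jv hd'0]
        refine (hτ _ ⟨_, hmem (d' * ℓ * q)
          (mul_ne_zero (mul_ne_zero hd'0 (NeZero.ne ℓ)) hq.out.ne_zero)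
          (Nat.mul_dvd_mul_right (Nat.mul_dvd_mul_right hd' ℓ) q)⟩
          ((qExpand_jv hd0).trans (by rw [mul_right_comm d' q ℓ]))).trans ?_
        exact TwoComponent.coe_wAL_jv_mul (M * ℓ) q hqMℓ (mul_ne_zero hd'0 (NeZero.ne ℓ))
          (Nat.mul_dvd_mul_right hd' ℓ) _ rfl
  have hα : ∀ x, τ (heckeAlphaBar Qbar (M * q) ℓ x) =
      heckeAlphaBar Qbar (M * q) ℓ (TwoComponent.wAL M q hqM x) := fun x => by
    have h := EichlerShimura.hom_ext_of_generators
      (f := τ.toAlgHom.toRingHom.comp (heckeAlphaBar Qbar (M * q) ℓ).toRingHom)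
      (g := (heckeAlphaBar Qbar (M * q) ℓ).toRingHom.comp
        (TwoComponent.wAL M q hqM).toAlgHom.toRingHom)
      (fun a => by simp) (fun d _ hd => (hgen d hd).1)
    exact RingHom.congr_fun h x
  have hβ : ∀ x, τ (heckeBetaBar Qbar (M * q) ℓ x) =
      heckeBetaBar Qbar (M * q) ℓ (TwoComponent.wAL M q hqM x) := fun x => by
    have h := EichlerShimura.hom_ext_of_generators
      (f := τ.toAlgHom.toRingHom.comp (heckeBetaBar Qbar (M * q) ℓ).toRingHom)
      (g := (heckeBetaBar Qbar (M * q) ℓ).toRingHom.comp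
        (TwoComponent.wAL M q hqM).toAlgHom.toRingHom)
      (fun a => by simp) (fun d _ hd => (hgen d hd).2)
    exact RingHom.congr_fun h x
  exact ⟨τ, hα, hβ⟩

/-- The Atkin–Lehner involution at `q` commutes with the norms of `T_ℓ`. -/
theorem normN_wAL [Fact ℓ.Prime] (hqM : ¬ q ∣ M) (hℓq : ℓ ≠ q) (f : TwoComponent.FN M q) :
    TwoComponent.wAL M q hqM (normN Qbar (M * q) ℓ f) =
      normN Qbar (M * q) ℓ (TwoComponent.wAL M q hqM f) := by
  obtain ⟨τ, hα, hβ⟩ := exists_wAL_intertwine (ℓ := ℓ) hqM hℓq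
  exact normN_commute (TwoComponent.wAL M q hqM) τ hα hβ f

end Fermat.Agent.LoweringAtP.HeckeCompat
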