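import Fermat.Agent.EichlerShimura.EmbeddingsMain
import Fermat.Agent.EichlerShimura.HeckeRelation
import Fermat.Agent.EichlerShimura.Riemann
import Fermat.Agent.Hecke.Inputs
import Fermat.Agent.LoweringAtP.HeckeCompat.HeckeModL

/-!
# Reduction of `J₀(M)` commutes with `T_ℓ`

Reduction of `q`-expansions commutes with the norms `N_α β`, so the reduction map `J₀(M) → J₀(M)_k`
commutes with `T_ℓ`; it is surjective.
-/

noncomputable section

namespace Fermat.Agent.LoweringAtP.HeckeCompat

open AlgebraicCurve ModularCurve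

variable {L : Type*} [Field L] [Algebra ℚ L] [CharZero L] [IsAlgClosed L]
variable {A : ValuationSubring L} {k : Type*} [Field k] [IsAlgClosed k] {π : A →+* k}

omit [Algebra ℚ L] [CharZero L] [IsAlgClosed k] in
/-- A primitive `ℓ`-th root of unity in `A` whose reduction is primitive. -/
theorem exists_primitiveRoot_unit (A : ValuationSubring L) {ℓ : ℕ} (hℓ : ℓ.Prime) [NeZero (ℓ : L)]
    (π : A →+* k) (hℓk : (ℓ : k) ≠ 0) :
    ∃ ζ : Aˣ, ζ ^ ℓ = 1 ∧ IsPrimitiveRoot (Units.map A.subtype.toMonoidHom ζ : Lˣ) ℓ ∧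
      IsPrimitiveRoot (Units.map (π : A →* k) ζ : kˣ) ℓ := by
  have : NeZero ℓ := ⟨hℓ.ne_zero⟩
  obtain ⟨z, hz⟩ := HasEnoughRootsOfUnity.exists_primitiveRoot L ℓ
  obtain ⟨m, hm⟩ := Nat.exists_eq_add_of_le hℓ.one_lt.le
  have h1 : z * z ^ m = 1 := by rw [← pow_succ', add_comm, ← hm, hz.pow_eq_one]
  have hmem : z ∈ A := by
    rcases A.mem_or_inv_mem z with h | h
    · exact h
    · have : z = (z⁻¹) ^ m := by
        rw [inv_pow]; exact eq_inv_of_mul_eq_one_left h1
      rw [this]; exact pow_mem h m
  let u : Aˣ := ⟨⟨z, hmem⟩, ⟨z ^ m, pow_mem hmem m⟩, Subtype.ext h1,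
    Subtype.ext ((mul_comm _ _).trans h1)⟩
  have hu : u ^ ℓ = 1 := Units.ext (Subtype.ext (by simp [u, hz.pow_eq_one]))
  refine ⟨u, hu, IsPrimitiveRoot.coe_units_iff.mp hz, ?_⟩
  refine IsPrimitiveRoot.iff_orderOf.mpr ((Nat.dvd_prime hℓ).mp
    (orderOf_dvd_of_pow_eq_one (by rw [← map_pow, hu, map_one])) |>.resolve_left fun h => ?_)
  rw [orderOf_eq_one_iff, Units.ext_iff, Units.coe_map, Units.val_one] at h
  have hsum : ∑ i ∈ Finset.range ℓ, (u : A) ^ i = 0 := Subtype.ext (by
    rw [AddSubmonoidClass.coe_finsetSum]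
    simpa [u] using hz.geom_sum_eq_zero hℓ.one_lt)
  have := congrArg π hsum
  rw [map_sum, map_zero] at this
  simp only [map_pow] at this
  rw [show π (u : A) = 1 from h] at this
  simp at this
  exact hℓk this

/-- The norm `N_α(β f)` of a function with integral expansion reduces to `normC` of the reduction.
No relation between the two levels is needed. -/
theorem exists_norm_lift {N M ℓ : ℕ} [NeZero N] [NeZero M] [NeZero ℓ] [Fact ℓ.Prime]
    (hℓN : ¬ ℓ ∣ N) (hℓM : ¬ ℓ ∣ M) (hK : ((M * ℓ : ℕ) : k) ≠ 0)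
    (y : LaurentSeries A)
    (hy : coeffMap A.subtype y ∈ laurentBaseChange L (modularFunctionFieldFull N))
    (hyk : coeffMap π y ∈ modularFunctionFieldFullC k M) :
    letI := algebraAlong (heckeAlphaBar L N ℓ)
    ∃ w : LaurentSeries A,
      coeffMap A.subtype w = (Algebra.norm (laurentBaseChange L (modularFunctionFieldFull N))
        (heckeBetaBar L N ℓ ⟨coeffMap A.subtype y, hy⟩) :
          laurentBaseChange L (modularFunctionFieldFull N)) ∧
      coeffMap π w = (normC k M ℓ ⟨coeffMap π y, hyk⟩ : modularFunctionFieldFullC k M) := by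
  have hℓ : ℓ.Prime := Fact.out
  have : NeZero (ℓ : L) := ⟨Nat.cast_ne_zero.mpr hℓ.ne_zero⟩
  obtain ⟨ζ, -, hζL, hζk⟩ :=
    exists_primitiveRoot_unit A hℓ π (Igusa.natCast_ne_zero_of_dvd hK (dvd_mul_left ℓ M))
  set Y : LaurentSeries A := qExpand A ℓ (qExpand A ℓ y) *
    ∏ b : Fin ℓ, EichlerShimura.twist (ζ ^ (b : ℕ)) y with hY
  have hY' := EichlerShimura.qExpand_normAlong_beta
    (EichlerShimura.heckeEmbeddings_of_prime hℓN _ hζL) (Hecke.finiteAlong_alpha L N ℓ)
    ⟨coeffMap A.subtype y, hy⟩
  obtain ⟨w, hw, hwY⟩ := EichlerShimura.exists_qExpand_eq (f := A.subtype) A.subtype_injective ℓ Y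
    (h := by
      rw [hY']
      simp only [hY, map_mul, map_prod, coeffMap_qExpand, EichlerShimura.coeffMap_twist, map_pow])
  refine ⟨w, hw, qExpand_injective ℓ ?_⟩
  rw [← coeffMap_qExpand, hwY, qExpand_normC hℓM hK hζk, hY]
  simp only [map_mul, map_prod, coeffMap_qExpand, EichlerShimura.coeffMap_twist, map_pow]
  rfl

variable {M : ℕ} [NeZero M]

/-- Specialisation commutes with `T_ℓ` on divisors of degree zero. -/
theorem mapDomain_heckeDivBar {ℓ : ℕ} [NeZero ℓ] [Fact ℓ.Prime] (hℓM : ¬ ℓ ∣ M)
    (hK : ((M * ℓ : ℕ) : k) ≠ 0)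
    {r : Place L (laurentBaseChange L (modularFunctionFieldFull M)) →
      Place k (modularFunctionFieldFullC k M)}
    (hr : IsPlaceReductionAlong A π M r) (hgen : PrincipalGeneratedByIntegral A π M)
    {D : Divisor L (laurentBaseChange L (modularFunctionFieldFull M))}
    (hD : D ∈ Divisor.degZero (K := L) (F := laurentBaseChange L (modularFunctionFieldFull M))) :
    Finsupp.mapDomain r
        (heckeDivBar (Hecke.alphaIntegral L M ℓ) (Hecke.betaIntegral L M ℓ) D) =
      heckeDivC k M ℓ (Finsupp.mapDomain r D) := by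
  set T := heckeDivBar (Hecke.alphaIntegral L M ℓ) (Hecke.betaIntegral L M ℓ) with hT
  set ψ : Divisor L (laurentBaseChange L (modularFunctionFieldFull M)) →+
      Divisor k (modularFunctionFieldFullC k M) :=
    (Finsupp.mapDomain.addMonoidHom r).comp T -
      (heckeDivC k M ℓ).comp (Finsupp.mapDomain.addMonoidHom r) with hψ
  have happ : ∀ E, ψ E = Finsupp.mapDomain r (T E) - heckeDivC k M ℓ (Finsupp.mapDomain r E) :=
    fun E => rfl
  suffices hz : ψ D = 0 by
    rw [happ, sub_eq_zero] at hz
    exact hz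
  refine EichlerShimura.eq_zero_on_degZero_of_closure
    (EichlerShimura.boundedClasses_of_isFunctionField _ _) ψ
    (finrankAlong L (heckeBetaBar L M ℓ) + finrankAlong k (betaC k M ℓ)) (fun P i => ?_) _
    hgen ?_ hD
  · rw [happ, Finsupp.sub_apply, Finsupp.mapDomain_single]
    refine le_trans (Int.natAbs_sub_le _ _) (add_le_add ?_ ?_)
    · refine le_trans (EichlerShimura.natAbs_mapDomain_le r _ i) (le_of_eq ?_)
      exact EichlerShimura.absSum_correspondence_single (heckeBetaBar L M ℓ)
        (heckeAlphaBar L M ℓ) _ _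
        (Hecke.fundamentalIdentityAlong _ _) (fun P => FF.place_deg_eq_one P) P
    · refine le_trans (EichlerShimura.natAbs_le_absSum _ i) (le_of_eq ?_)
      exact EichlerShimura.absSum_correspondence_single (betaC k M ℓ) (alphaC k M ℓ) _ _
        (Hecke.fundamentalIdentityAlong _ _) (fun P => FF.place_deg_eq_one P) (r P)
  rintro E ⟨y, hy, hyk, hne, hE⟩
  rw [happ, sub_eq_zero]
  obtain ⟨w, hw, hwπ⟩ := exists_norm_lift hℓM hℓM hK y hy hyk
  set f : laurentBaseChange L (modularFunctionFieldFull M) := ⟨coeffMap A.subtype y, hy⟩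
  set fk : modularFunctionFieldFullC k M := ⟨coeffMap π y, hyk⟩
  have hf : f ≠ 0 := fun h0 => hne (by
    have h' : coeffMap A.subtype y = 0 := congrArg Subtype.val h0
    rw [show y = 0 from EichlerShimura.coeffMap_injective (f := A.subtype) A.subtype_injective
      (by rw [h', map_zero]), map_zero])
  have hfk : fk ≠ 0 := fun h0 => hne (congrArg Subtype.val h0)
  let := algebraAlong (heckeAlphaBar L M ℓ)
  have hwy : coeffMap A.subtype w ∈ laurentBaseChange L (modularFunctionFieldFull M) := by
    rw [hw]; exact SetLike.coe_mem _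
  have hwk : coeffMap π w ∈ modularFunctionFieldFullC k M := by
    rw [hwπ]; exact SetLike.coe_mem _
  have hwne : coeffMap π w ≠ 0 := by
    rw [hwπ]
    exact fun h0 => normC_ne_zero (ℓ := ℓ) hfk (Subtype.ext h0)
  refine Finsupp.ext fun Q => ?_
  rw [hr.2 w hwy hwk hwne (T E) (fun P => ?_) Q,
    heckeDivC_div hfk (hr.2 y hy hyk hne E hE) Q]
  · exact congrArg Q.ord (Subtype.ext hwπ)
  · rw [hT, EichlerShimura.heckeDivBar_div (Hecke.alphaIntegral L M ℓ)
      (Hecke.betaIntegral L M ℓ)
      (Hecke.finiteAlong_alpha L M ℓ) (Hecke.normFormulaAlong _ _) hf hE P]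
    exact congrArg P.ord (Subtype.ext hw.symm)

/-- The reduction map commutes with `T_ℓ`. -/
theorem reductionAlong_hecke {ℓ : ℕ} [NeZero ℓ] [Fact ℓ.Prime] (hℓM : ¬ ℓ ∣ M)
    (hK : ((M * ℓ : ℕ) : k) ≠ 0) (h : ReductionInputsAlong A π M)
    (x : Pic0 L (laurentBaseChange L (modularFunctionFieldFull M))) :
    reductionAlong A π M (heckeOperatorAlong L M ℓ x) =
      heckeC k M ℓ (reductionAlong A π M x) := by
  obtain ⟨D, rfl⟩ := Pic0.mk_surjective x
  rw [Hecke.heckeOperatorAlong_eq_pic0]
  show reductionAlong A π M (Pic0.mk (Pic0.degZeroCorrespondence (heckeBetaBar L M ℓ)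
    (heckeAlphaBar L M ℓ) (Hecke.betaIntegral L M ℓ) (Hecke.alphaIntegral L M ℓ)
    (Hecke.fundamentalIdentityAlong _ _) D)) = _
  rw [reductionAlong_mk h, reductionAlong_mk h]
  show Pic0.mk _ = Pic0.mk _
  refine congrArg Pic0.mk (Subtype.ext ?_)
  simp only [coe_reductionDegZeroAlong, Pic0.coe_degZeroCorrespondence]
  exact mapDomain_heckeDivBar hℓM hK h.choose_spec.1 h.choose_spec.2 D.2

variable (A π M) in
/-- The functions of level `M` over `k` which are quotients of reductions. -/
def reducedQuotients : Subfield (modularFunctionFieldFullC k M) :=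
  Subfield.closure (Set.range (Red.integralReduction A π M))

omit [CharZero L] [IsAlgClosed L] [IsAlgClosed k] [NeZero M] in
/-- Every function of level `M` over `k` is a quotient of reductions. -/
theorem mem_reducedQuotients (hπ : Function.Surjective π) (g : modularFunctionFieldFullC k M) :
    g ∈ reducedQuotients A π M := by
  have hle : Subfield.closure
      (Set.range (algebraMap k (LaurentSeries k)) ∪ divisorExpansionsC k M) ≤
      (reducedQuotients A π M).map
        (algebraMap (modularFunctionFieldFullC k M) (LaurentSeries k)) := by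
    refine Subfield.closure_le.mpr ?_
    rintro y (⟨c, rfl⟩ | ⟨d, hd, hdM, rfl⟩)
    · obtain ⟨a, rfl⟩ := hπ c
      refine ⟨_, Subfield.subset_closure ⟨⟨_, Red.algebraMap_mem_integralFunctions a⟩, rfl⟩, ?_⟩
      rw [Red.integralReduction_algebraMap]
      rfl
    · exact ⟨_, Subfield.subset_closure ⟨Red.jIntegral A π M d hdM, rfl⟩,
        Red.coe_integralReduction_jIntegral A π M d hdM⟩
  obtain ⟨z, hz, hzg⟩ := Subfield.mem_map.mp (hle g.2)
  exact (show z = g from Subtype.ext hzg) ▸ hz

omit [CharZero L] [IsAlgClosed k] in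
/-- Every place of level `M` over `k` is a reduction. -/
theorem placeReduction_surjective (hπ : Function.Surjective π)
    {r : Place L (laurentBaseChange L (modularFunctionFieldFull M)) →
      Place k (modularFunctionFieldFullC k M)} (hr : IsPlaceReductionAlong A π M r) :
    Function.Surjective r := by
  intro Q
  by_contra hQ
  have hzero : ∀ g : modularFunctionFieldFullC k M, g ≠ 0 → Q.ord g = 0 := by
    intro g hg
    obtain ⟨a, ha, b, hb, hab⟩ := Subfield.mem_closure_iff.mp (mem_reducedQuotients hπ g)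
    rw [← RingHom.coe_range, Subring.closure_eq] at ha hb
    obtain ⟨u, rfl⟩ := ha
    obtain ⟨v, rfl⟩ := hb
    have key : ∀ y : Red.integralFunctions A π M, Red.integralReduction A π M y ≠ 0 →
        Q.ord (Red.integralReduction A π M y) = 0 := by
      intro y hy
      obtain ⟨ys, hys, hysk⟩ := y.2
      have hval := Red.coe_integralReduction A π M (f := y) hys
      have hne : coeffMap π ys ≠ 0 := by
        rw [← hval]; exact fun h0 => hy (Subtype.ext h0)
      have hmem : coeffMap A.subtype ys ∈ laurentBaseChange L (modularFunctionFieldFull M) :=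
        hys.symm ▸ y.1.2
      have e2 : Red.integralReduction A π M y = ⟨coeffMap π ys, hysk⟩ := Subtype.ext hval
      rw [e2, ← hr.2 ys hmem hysk hne (FF.divOf (⟨coeffMap A.subtype ys, hmem⟩ :
        laurentBaseChange L (modularFunctionFieldFull M))) (fun P => FF.divOf_apply _ P) Q]
      exact Finsupp.mapDomain_of_notMem_range _ _ fun ⟨P, hP⟩ => hQ ⟨P, hP⟩
    have hu : Red.integralReduction A π M u ≠ 0 := fun h0 => hg (by rw [← hab, h0, zero_div])
    have hv : Red.integralReduction A π M v ≠ 0 := fun h0 => hg (by rw [← hab, h0, div_zero])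
    rw [← hab, FF.ord_div Q hu hv, key u hu, key v hv, sub_self]
  obtain ⟨t, ht, h1⟩ := FF.exists_ord_eq_one Q
  rw [hzero t ht] at h1
  exact zero_ne_one h1

omit [CharZero L] [IsAlgClosed k] in
/-- The reduction map on classes is surjective. -/
theorem reductionAlong_surjective (hπ : Function.Surjective π) (h : ReductionInputsAlong A π M) :
    Function.Surjective (reductionAlong A π M) := by
  intro C
  obtain ⟨D, rfl⟩ := Pic0.mk_surjective C
  choose s hs using placeReduction_surjective hπ h.choose_spec.1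
  have hmap : Finsupp.mapDomain h.choose (Finsupp.mapDomain s
      (D : Divisor k (modularFunctionFieldFullC k M))) = D := by
    rw [← Finsupp.mapDomain_comp]
    refine Finsupp.ext fun Q => ?_
    rw [show h.choose ∘ s = id from funext hs, Finsupp.mapDomain_id]
  have hdeg : Finsupp.mapDomain s (D : Divisor k (modularFunctionFieldFullC k M)) ∈
      Divisor.degZero (K := L) (F := laurentBaseChange L (modularFunctionFieldFull M)) := by
    rw [Divisor.mem_degZero, ← degree_mapDomain_of_deg_eq (r := h.choose) h.choose_spec.1.1, hmap]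
    exact Divisor.mem_degZero.mp D.2
  refine ⟨Pic0.mk ⟨_, hdeg⟩, ?_⟩
  rw [reductionAlong_mk h]
  exact congrArg Pic0.mk (Subtype.ext hmap)

end Fermat.Agent.LoweringAtP.HeckeCompat
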