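import Fermat.Agent.LoweringAtP.HeckeCompat.JFaithful
import Fermat.Agent.LoweringAtP.HeckeCompat.Modular
import Fermat.Agent.LoweringAtP.HeckeCompat.RedHecke

/-!
# Eigenclasses of the reduced curve give residual modularity

A Hecke eigenvector of order `p` in `Pic⁰(X₀(M)_k)` makes the representation residually modular of
level `M`; the reduction map commutes with the good Hecke operators.
-/

noncomputable section

namespace Fermat.Agent.LoweringAtP.HeckeCompat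

open AlgebraicCurve ModularCurve

local notation "Qbar" => AlgebraicClosure ℚ

variable {M : ℕ} [NeZero M]
variable {A : ValuationSubring (AlgebraicClosure ℚ)} {k : Type*} [Field k] [IsAlgClosed k]
  {π : A →+* k}

/-- The reduction map commutes with the Hecke operator at a good prime `ℓ`. -/
theorem reductionAlong_heckeBar (hMk : (M : k) ≠ 0) (h : ReductionInputsAlong A π M)
    (ℓ : Nat.Primes) [NeZero (ℓ : ℕ)] [Fact (ℓ : ℕ).Prime] (hℓM : ¬ (ℓ : ℕ) ∣ M)
    (hℓk : ((ℓ : ℕ) : k) ≠ 0) (x : JZero M) :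
    reductionAlong A π M (heckeOperatorBar M ℓ x) = heckeC k M ℓ (reductionAlong A π M x) := by
  rw [heckeOperatorBar_apply]
  exact reductionAlong_hecke hℓM (by rw [Nat.cast_mul]; exact mul_ne_zero hMk hℓk) h x

/-- An eigenvector of order `p` in `Pic⁰` of the reduced curve gives a character of the Hecke
algebra with values in `ZMod p`. -/
theorem exists_theta_of_eigen_modL (hπ : Function.Surjective π) (hMk : (M : k) ≠ 0)
    (h : ReductionInputsAlong A π M) {p : ℕ} [Fact p.Prime] {S : Set ℕ}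
    (hMS : ∀ q, q.Prime → q ∣ M → q ∈ S) (hkS : ∀ ℓ : ℕ, ℓ.Prime → ℓ ∉ S → (ℓ : k) ≠ 0)
    (a : ℕ → ℤ) {C : JZeroC k M} (hC0 : C ≠ 0) (hC : p • C = 0)
    (heig : ∀ (ℓ : ℕ) [NeZero ℓ] [Fact ℓ.Prime], ¬ ℓ ∣ M → ℓ ∉ S → heckeC k M ℓ C = a ℓ • C) :
    ∃ θ : CuspForm.heckeAlgebra M 2 S →+* ZMod p,
      ∀ (ℓ : ℕ) (hℓ : ℓ.Prime) (hℓM : ¬ ℓ ∣ M) (hℓS : ℓ ∉ S),
        θ (CuspForm.heckeAlgebra.T hℓ hℓM hℓS) = (a ℓ : ZMod p) := by
  have hp : p.Prime := Fact.out
  let χ : MvPolynomial (GoodIdx M S) ℤ →+* ℤ :=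
    MvPolynomial.eval₂Hom (Int.castRingHom ℤ) fun i => a (i.1 : ℕ)
  have key : ∀ (P : MvPolynomial (GoodIdx M S) ℤ) (x : JZero M) (m : ℤ),
      reductionAlong A π M x = m • C → reductionAlong A π M (jEval M S P x) = (χ P * m) • C := by
    intro P
    induction P using MvPolynomial.induction_on with
    | C c =>
      intro x m hx
      rw [jEval_C, Module.End.intCast_apply, map_zsmul, hx, ← mul_zsmul,
        show χ (MvPolynomial.C c) = c by simp [χ]]
    | add P Q hP hQ =>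
      intro x m hx
      rw [map_add, LinearMap.add_apply, map_add, hP x m hx, hQ x m hx, ← add_zsmul, map_add,
        add_mul]
    | mul_X P i hP =>
      intro x m hx
      have : NeZero (i.1 : ℕ) := ⟨i.1.2.ne_zero⟩
      have : Fact (i.1 : ℕ).Prime := ⟨i.1.2⟩
      rw [map_mul, Module.End.mul_apply, jEval_X, hP _ (a (i.1 : ℕ) * m), map_mul,
        show χ (MvPolynomial.X i) = a (i.1 : ℕ) by simp [χ], mul_assoc]
      rw [reductionAlong_heckeBar hMk h i.1 i.2.1 (hkS _ i.1.2 i.2.2), hx, map_zsmul,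
        heig _ i.2.1 i.2.2, ← mul_zsmul, mul_comm]
  obtain ⟨x₀, hx₀⟩ := reductionAlong_surjective hπ h C
  have hker : ∀ P, cuspEval M S P = 0 → (χ P : ZMod p) = 0 := fun P hP => by
    have h1 := key P x₀ 1 (by rw [hx₀, one_zsmul])
    have h2 := key P (jEval M S P x₀) _ h1
    rw [jEval_jEval_eq_zero hMS hP, map_zero, mul_one] at h2
    have hord : addOrderOf C = p := addOrderOf_eq_prime hC hC0
    have h3 : (p : ℤ) ∣ χ P * χ P := by
      rw [← hord]; exact addOrderOf_dvd_iff_zsmul_eq_zero.mpr h2.symm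
    rw [← ZMod.intCast_zmod_eq_zero_iff_dvd, Int.cast_mul, mul_self_eq_zero] at h3
    exact h3
  let θ : CuspForm.heckeAlgebra M 2 S →+* ZMod p :=
    RingHom.liftOfSurjective (cuspEval M S) (cuspEval_surjective hMS)
      ⟨(Int.castRingHom (ZMod p)).comp χ, fun P hP => hker P hP⟩
  refine ⟨θ, fun ℓ hℓ hℓM hℓS => ?_⟩
  rw [← cuspEval_X (⟨⟨ℓ, hℓ⟩, hℓM, hℓS⟩ : GoodIdx M S), RingHom.liftOfRightInverse_comp_apply]
  simp [χ]

/-- An eigenvector of order `p` in `Pic⁰` of the curve reduced in characteristic `q` makes `W`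
residually modular of level `M` at `p`. -/
theorem residuallyModular_of_eigen_modL {p : ℕ} [Fact p.Prime]
    (Ins : Attach.JacobianInputs M p) {W : WeierstrassCurve ℤ}
    (hΔ : W.Δ ≠ 0) (hπ : Function.Surjective π) (hMk : (M : k) ≠ 0)
    (h : ReductionInputsAlong A π M) {q : ℕ} [CharP k q] {S : Finset ℕ}
    {C : JZeroC k M} (hC0 : C ≠ 0) (hC : p • C = 0)
    (heig : ∀ (ℓ : ℕ) [NeZero ℓ] [Fact ℓ.Prime], ¬ ℓ ∣ M → ℓ ≠ q → ℓ ∉ S →
      heckeC k M ℓ C = W.apOfModel ℓ • C) :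
    W.IsResiduallyModularOfLevel p M := by
  classical
  set S' : Finset ℕ := insert q (S ∪ M.primeFactors)
  have hMS : ∀ r, r.Prime → r ∣ M → r ∈ (↑S' : Set ℕ) := fun r hr hd =>
    Finset.mem_coe.mpr (Finset.mem_insert_of_mem
      (Finset.mem_union_right _ (Nat.mem_primeFactors.mpr ⟨hr, hd, NeZero.ne M⟩)))
  have hqS : q ∈ (↑S' : Set ℕ) := Finset.mem_coe.mpr (Finset.mem_insert_self _ _)
  have hkS : ∀ ℓ : ℕ, ℓ.Prime → ℓ ∉ (↑S' : Set ℕ) → (ℓ : k) ≠ 0 := fun ℓ hℓ hℓS h0 => by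
    rcases (Nat.dvd_prime hℓ).mp ((CharP.cast_eq_zero_iff k q ℓ).mp h0) with h1 | h1
    · exact CharP.char_ne_one k q h1
    · exact hℓS (h1 ▸ hqS)
  obtain ⟨θ, hθ⟩ := exists_theta_of_eigen_modL hπ hMk h hMS hkS W.apOfModel hC0 hC
    fun ℓ _ _ hℓM hℓS => heig ℓ hℓM (fun e => hℓS (e ▸ hqS)) fun hℓ =>
      hℓS (Finset.mem_coe.mpr (Finset.mem_insert_of_mem (Finset.mem_union_left _ hℓ)))
  exact residuallyModular_of_theta Ins hΔ θ hθ

end Fermat.Agent.LoweringAtP.HeckeCompat
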