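import Fermat.Agent.Hecke.BaseChange
import Fermat.Agent.LoweringAtP.HeckeCompat.RedHeckeAL

/-!
# Inclusions of levels

The inclusions of levels `M ∣ L` commute with the Atkin–Lehner involution at `p`, with the norms to
the levels `M`, `L`, and in characteristic `p` with the norms of `T_ℓ`.
-/

noncomputable section

namespace Fermat.Agent.LoweringAtP.HeckeCompat

open AlgebraicCurve ModularCurve

local notation "Qbar" => AlgebraicClosure ℚ

variable {M L : ℕ} [NeZero M] [NeZero L]

omit [NeZero M] [NeZero L] in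
theorem full_mono (K : Type*) [Field K] (h : M ∣ L) :
    modularFunctionFieldFullC K M ≤ modularFunctionFieldFullC K L :=
  Igusa.full_le_iff.mpr fun _ hd0 hd => Igusa.jv_mem_full hd0 (hd.trans h)

/-- The inclusion of level `M` in level `L` in characteristic `0`. -/
def inclBar (h : M ∣ L) : modularFunctionFieldBar M →ₐ[Qbar] modularFunctionFieldBar L :=
  IntermediateField.inclusion (by
    rw [show modularFunctionFieldBar M = modularFunctionFieldFullC Qbar M from
      MF.laurentBaseChange_full_eq Qbar M,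
      show modularFunctionFieldBar L = modularFunctionFieldFullC Qbar L from
      MF.laurentBaseChange_full_eq Qbar L]
    exact full_mono Qbar h)

omit [NeZero M] [NeZero L] in
@[simp] theorem coe_inclBar (h : M ∣ L) (x : modularFunctionFieldBar M) :
    (inclBar h x : LaurentSeries Qbar) = (x : LaurentSeries Qbar) :=
  IntermediateField.coe_inclusion _ x

/-- The inclusion of level `M` in level `L` over any field. -/
def inclC (k : Type*) [Field k] (h : M ∣ L) :
    modularFunctionFieldFullC k M →ₐ[k] modularFunctionFieldFullC k L :=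
  IntermediateField.inclusion (full_mono k h)

omit [NeZero M] [NeZero L] in
@[simp] theorem coe_inclC {k : Type*} [Field k] (h : M ∣ L) (x : modularFunctionFieldFullC k M) :
    (inclC k h x : LaurentSeries k) = (x : LaurentSeries k) :=
  IntermediateField.coe_inclusion _ x

/-- The norms of `T_ℓ` in characteristic prime to `ℓ` commute with the inclusion of levels. -/
theorem normC_inclC {k : Type*} [Field k] [IsAlgClosed k] {ℓ : ℕ} [NeZero ℓ] [Fact ℓ.Prime]
    (h : M ∣ L) (hℓL : ¬ ℓ ∣ L) (hK : ((L * ℓ : ℕ) : k) ≠ 0)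
    (g : modularFunctionFieldFullC k M) :
    normC k L ℓ (inclC k h g) = inclC k h (normC k M ℓ g) := by
  have hℓk : (ℓ : k) ≠ 0 := Igusa.natCast_ne_zero_of_dvd hK (dvd_mul_left ℓ L)
  have hMk : ((M * ℓ : ℕ) : k) ≠ 0 := Igusa.natCast_ne_zero_of_dvd hK (Nat.mul_dvd_mul_right h ℓ)
  have : NeZero (ℓ : k) := ⟨hℓk⟩
  obtain ⟨z, hz⟩ := HasEnoughRootsOfUnity.exists_primitiveRoot k ℓ
  let ζ : kˣ := Units.mk0 z (hz.ne_zero (NeZero.ne ℓ))
  have hζ : IsPrimitiveRoot ζ ℓ := IsPrimitiveRoot.coe_units_iff.mp hz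
  refine Subtype.ext (qExpand_injective ℓ ?_)
  rw [qExpand_normC hℓL hK hζ, coe_inclC, coe_inclC,
    qExpand_normC (fun h' => hℓL (h'.trans h)) hMk hζ]

variable {p : ℕ} [hp : Fact p.Prime]

/-- The inclusion of level `M p` in level `L p`. -/
def inclFN (h : M ∣ L) : TwoComponent.FN M p →ₐ[Qbar] TwoComponent.FN L p :=
  inclBar (Nat.mul_dvd_mul_right h p)

omit [NeZero M] [NeZero L] hp in
@[simp] theorem coe_inclFN (h : M ∣ L) (x : TwoComponent.FN M p) :
    (inclFN h x : LaurentSeries Qbar) = (x : LaurentSeries Qbar) :=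
  coe_inclBar _ x

/-- The inclusions commute with the Atkin–Lehner involutions at `p`. -/
theorem wAL_inclFN (h : M ∣ L) (hpL : ¬ p ∣ L) (x : TwoComponent.FN M p) :
    TwoComponent.wAL L p hpL (inclFN h x) =
      inclFN h (TwoComponent.wAL M p (fun h' => hpL (h'.trans h)) x) := by
  set hpM : ¬ p ∣ M := fun h' => hpL (h'.trans h)
  have hgen : ∀ (d : ℕ) [NeZero d] (hd : d ∣ M * p),
      TwoComponent.wAL L p hpL (inclFN h (EichlerShimura.jElem _ (M * p) d hd)) =
        inclFN h (TwoComponent.wAL M p hpM (EichlerShimura.jElem _ (M * p) d hd)) := by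
    intro d hdne hd
    have hd0 := hdne.out
    refine Subtype.ext ?_
    rcases EichlerShimura.exists_right_of_dvd (N := M) hp.out hd with hd' | ⟨d', rfl, hd'⟩
    · rw [coe_inclFN, TwoComponent.coe_wAL_jv M p hpM hd0 hd' _ rfl]
      exact TwoComponent.coe_wAL_jv L p hpL hd0 (hd'.trans h) _ (coe_inclFN _ _)
    · have hd'0 : d' ≠ 0 := left_ne_zero_of_mul hd0
      rw [coe_inclFN, TwoComponent.coe_wAL_jv_mul M p hpM hd'0 hd' _ rfl]
      exact TwoComponent.coe_wAL_jv_mul L p hpL hd'0 (hd'.trans h) _ (coe_inclFN _ _)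
  have e := EichlerShimura.hom_ext_of_generators
    (f := (TwoComponent.wAL L p hpL).toAlgHom.toRingHom.comp (inclFN h).toRingHom)
    (g := (inclFN h).toRingHom.comp (TwoComponent.wAL M p hpM).toAlgHom.toRingHom)
    (fun a => by simp) (fun d _ hd => hgen d hd)
  exact RingHom.congr_fun e x

theorem inclM_eq (N q : ℕ) [NeZero N] [Fact q.Prime] :
    TwoComponent.inclM N q = heckeAlphaBar Qbar N q :=
  AlgHom.ext fun x => Subtype.ext ((TwoComponent.coe_inclM N q x).trans
    (coe_heckeAlphaBar N q x).symm)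

/-- **The norms `X₀(L p) → X₀(L)` and `X₀(M p) → X₀(M)` commute with the inclusions.** -/
theorem normAlong_inclFN (h : M ∣ L) (hpL : ¬ p ∣ L) (z : TwoComponent.FN M p) :
    Hecke.normAlong (heckeAlphaBar Qbar L p) (inclFN h z) =
      inclBar h (Hecke.normAlong (heckeAlphaBar Qbar M p) z) := by
  obtain ⟨ζ₀, hζ₀⟩ := HasEnoughRootsOfUnity.exists_primitiveRoot Qbar p
  let ζ : Qbarˣ := Units.mk0 ζ₀ (hζ₀.ne_zero hp.out.ne_zero)
  have hζ : IsPrimitiveRoot ζ p := IsPrimitiveRoot.coe_units_iff.mp hζ₀
  obtain ⟨hdegL, φ, hinj, hα, hβ, hβb⟩ := EichlerShimura.heckeEmbeddings_of_prime (N := L) hpL ζ hζ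
  obtain ⟨hdegM, -⟩ := EichlerShimura.heckeEmbeddings_of_prime (N := M)
    (fun h' => hpL (h'.trans h)) ζ hζ
  let j₁ : modularFunctionFieldBar M := EichlerShimura.jElem Qbar M 1 (one_dvd M)
  have hj : ((inclBar h j₁ : modularFunctionFieldBar L) : LaurentSeries Qbar) =
      Igusa.jv (1 : Qbarˣ) 1 := by rw [coe_inclBar]; rfl
  have hbβ : inclFN (p := p) h (heckeBetaBar Qbar M p j₁) = heckeBetaBar Qbar L p (inclBar h j₁) :=
    Subtype.ext (by simp)
  let ψ : Option (Fin p) → (TwoComponent.FN M p →+* LaurentSeries Qbar) := fun i =>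
    (φ i).comp (inclFN h).toRingHom
  have hval : ∀ i, ψ i (heckeBetaBar Qbar M p j₁) =
      Igusa.jv (EichlerShimura.conjUnit ζ i) (EichlerShimura.conjExp p i) := by
    intro i
    show φ i (inclFN h (heckeBetaBar Qbar M p j₁)) = _
    rw [hbβ]
    rcases i with _ | b
    · rw [hβ, hj, qExpand_jv one_ne_zero, one_mul, qExpand_jv hp.out.ne_zero]
      rfl
    · rw [hβb, hj, ← EichlerShimura.sub_one, Igusa.sub_jv _ 1 one_ne_zero one_ne_zero, one_mul,
        pow_one,
        one_mul]
      rfl
  have hψinj : Function.Injective ψ := by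
    intro i j hij
    have e := RingHom.congr_fun hij (heckeBetaBar Qbar M p j₁)
    rw [hval, hval] at e
    obtain ⟨hu, hm⟩ :=
      (Igusa.jv_inj (EichlerShimura.conjExp_ne_zero i) (EichlerShimura.conjExp_ne_zero j)).mp e
    have h4 : p * p ≠ 1 := fun h' => hp.out.ne_one (Nat.eq_one_of_mul_eq_one_right h')
    rcases i with _ | a <;> rcases j with _ | b
    · rfl
    · exact absurd hm h4
    · exact absurd hm.symm h4
    · exact congrArg some (Fin.ext (hζ.pow_inj a.2 b.2 hu))
  refine Subtype.ext (qExpand_injective p ?_)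
  rw [coe_inclBar]
  have hcard : Fintype.card (Option (Fin p)) = p + 1 := by
    rw [Fintype.card_option, Fintype.card_fin]
  have eL : qExpand Qbar p ((Hecke.normAlong (heckeAlphaBar Qbar L p) (inclFN h z) :
      modularFunctionFieldBar L) : LaurentSeries Qbar) = ∏ i, φ i (inclFN h z) := by
    let := algebraAlong (heckeAlphaBar Qbar L p)
    have : FiniteDimensional (modularFunctionFieldBar L) (TwoComponent.FN L p) :=
      Hecke.finiteAlong_alpha Qbar L p
    have : Algebra.IsSeparable (modularFunctionFieldBar L) (TwoComponent.FN L p) :=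
      EichlerShimura.separableAlong_of_finiteAlong _ (Hecke.finiteAlong_alpha Qbar L p)
    exact EichlerShimura.norm_eq_prod_of_injective
      ((qExpand Qbar p).comp (algebraMap (modularFunctionFieldBar L) (LaurentSeries Qbar)))
      φ hα hinj (by rw [hcard]; exact hdegL) (inclFN h z)
  have eM : qExpand Qbar p ((Hecke.normAlong (heckeAlphaBar Qbar M p) z :
      modularFunctionFieldBar M) : LaurentSeries Qbar) = ∏ i, ψ i z := by
    let := algebraAlong (heckeAlphaBar Qbar M p)
    have : FiniteDimensional (modularFunctionFieldBar M) (TwoComponent.FN M p) :=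
      Hecke.finiteAlong_alpha Qbar M p
    have : Algebra.IsSeparable (modularFunctionFieldBar M) (TwoComponent.FN M p) :=
      EichlerShimura.separableAlong_of_finiteAlong _ (Hecke.finiteAlong_alpha Qbar M p)
    refine EichlerShimura.norm_eq_prod_of_injective
      ((qExpand Qbar p).comp (algebraMap (modularFunctionFieldBar M) (LaurentSeries Qbar)))
      ψ (fun i x => ?_) hψinj (by rw [hcard]; exact hdegM) z
    show φ i (inclFN h (heckeAlphaBar Qbar M p x)) = _
    rw [show inclFN h (heckeAlphaBar Qbar M p x) = heckeAlphaBar Qbar L p (inclBar h x) from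
      Subtype.ext (by simp), hα, coe_inclBar]
    rfl
  rw [eL, eM]
  rfl

end Fermat.Agent.LoweringAtP.HeckeCompat
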