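import Fermat.Agent.Attach.Inputs
import Fermat.Agent.Hecke.Commute
import Fermat.Agent.LoweringAtP.HeckeCompat.EigenNorm
import Fermat.Agent.LoweringAtP.HeckeCompat.LevelIncl
import Fermat.Agent.LoweringAtP.HeckeCompat.Modular

/-!
# The norms from level `M p` to level `M`

They commute with the norms of `T_ℓ`; so the norm of a function whose divisor class is an
eigenclass of prime order `r₀` is a constant times an `r₀`-th power, or the representation is
residually modular of level `M` at `r₀`.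
-/

noncomputable section

namespace Fermat.Agent.LoweringAtP.HeckeCompat

open AlgebraicCurve ModularCurve

local notation "Qbar" => AlgebraicClosure ℚ

section Along

variable {K F F₁ F₂ : Type*} [Field K] [Field F] [Field F₁] [Field F₂] [Algebra K F] [Algebra K F₁]
  [Algebra K F₂]

/-- Transitivity of norms. -/
theorem normAlong_comp (φ : F →ₐ[K] F₁) (ψ : F₁ →ₐ[K] F₂) (z : F₂) :
    Hecke.normAlong φ (Hecke.normAlong ψ z) = Hecke.normAlong (ψ.comp φ) z := by
  let a1 : Algebra F F₁ := algebraAlong φ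
  let a2 : Algebra F₁ F₂ := algebraAlong ψ
  let a3 : Algebra F F₂ := algebraAlong (ψ.comp φ)
  have : IsScalarTower F F₁ F₂ := IsScalarTower.of_algebraMap_eq fun x => rfl
  exact Algebra.norm_norm

/-- Norms along a map composed with an isomorphism. -/
theorem normAlong_equiv_comp (φ : F →ₐ[K] F₁) (e : F₁ ≃ₐ[K] F₂) (z : F₁) :
    Hecke.normAlong (e.toAlgHom.comp φ) (e z) = Hecke.normAlong φ z := by
  let a1 : Algebra F F₁ := algebraAlong φ
  let a3 : Algebra F F₂ := algebraAlong (e.toAlgHom.comp φ)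
  exact (Algebra.norm_eq_of_equiv_equiv (RingEquiv.refl F) e.toRingEquiv
    (RingHom.ext fun _ => rfl) z).symm

theorem normAlong_algebraMap (φ : F →ₐ[K] F₁) (c : K) :
    Hecke.normAlong φ (algebraMap K F₁ c) = algebraMap K F (c ^ finrankAlong K φ) := by
  let a1 : Algebra F F₁ := algebraAlong φ
  show Algebra.norm F (algebraMap K F₁ c) = _
  rw [← φ.commutes c, show φ (algebraMap K F c) = algebraMap F F₁ (algebraMap K F c) from rfl,
    Algebra.norm_algebraMap, map_pow]
  rfl

theorem normAlong_ne_zero (φ : F →ₐ[K] F₁) (hfin : FiniteAlong K φ) {z : F₁} (hz : z ≠ 0) :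
    Hecke.normAlong φ z ≠ 0 := by
  let a1 : Algebra F F₁ := algebraAlong φ
  have : Module.Finite F F₁ := hfin
  exact Algebra.norm_ne_zero_iff.mpr hz

end Along

variable {M ℓ p : ℕ} [NeZero M] [NeZero ℓ] [hp : Fact p.Prime]

theorem normN_eq_normAlong {L : Type*} [Field L] [Algebra ℚ L]
    {N r : ℕ} [NeZero N] [NeZero r] (f : laurentBaseChange L (modularFunctionFieldFull N)) :
    normN L N r f = Hecke.normAlong (heckeAlphaBar L N r) (heckeBetaBar L N r f) := rfl

/-- The identification of the fields of levels `M p ℓ` and `M ℓ p`. -/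
def castMid (M ℓ p : ℕ) :
    modularFunctionFieldBar (M * p * ℓ) ≃ₐ[Qbar] modularFunctionFieldBar (M * ℓ * p) :=
  IntermediateField.equivOfEq (congrArg modularFunctionFieldBar (mul_right_comm M p ℓ))

theorem coe_castMid (M ℓ p : ℕ) (x : modularFunctionFieldBar (M * p * ℓ)) :
    (castMid M ℓ p x : LaurentSeries Qbar) = (x : LaurentSeries Qbar) :=
  TwoComponent.coe_equivOfEq (congrArg modularFunctionFieldBar (mul_right_comm M p ℓ)) x

/-- The two degeneracy maps into level `M ℓ p` from levels `M ℓ` and `M p` generate its field. -/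
theorem closure_square_eq_top (M ℓ p : ℕ) [NeZero M] [NeZero ℓ] [NeZero p]
    (A : modularFunctionFieldBar (M * ℓ) →ₐ[Qbar] modularFunctionFieldBar (M * ℓ * p))
    (B : modularFunctionFieldBar (M * p) →ₐ[Qbar] modularFunctionFieldBar (M * ℓ * p))
    (hA : ∀ x, (A x : LaurentSeries Qbar) = (x : LaurentSeries Qbar))
    (hB : ∀ x, (B x : LaurentSeries Qbar) = qExpand Qbar ℓ (x : LaurentSeries Qbar)) :
    Subfield.closure (Set.range A ∪ Set.range B) = ⊤ := by
  set S := Subfield.closure (Set.range A ∪ Set.range B) with hS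
  let v : modularFunctionFieldBar (M * ℓ * p) →+* LaurentSeries Qbar :=
    (modularFunctionFieldBar (M * ℓ * p)).val.toRingHom
  have key : ∀ x ∈ modularFunctionFieldC Qbar (M * ℓ * p), x ∈ S.map v := by
    intro x hx
    induction hx using IntermediateField.adjoin_induction Qbar with
    | mem x hx =>
      rcases hx with rfl | rfl
      · exact ⟨A (Hecke.jElt Qbar (M * ℓ)), Subfield.subset_closure (.inl ⟨_, rfl⟩), hA _⟩
      · let y : modularFunctionFieldBar (M * p) := ⟨jqNModC Qbar (M * p), by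
          rw [modularFunctionFieldBar, MF.laurentBaseChange_full_eq_pair]
          exact ModularCurve.jqNModC_mem Qbar (M * p)⟩
        refine ⟨B y, Subfield.subset_closure (.inr ⟨_, rfl⟩), (hB y).trans ?_⟩
        show qExpand Qbar ℓ (qExpand Qbar (M * p) (jqModC Qbar)) =
          qExpand Qbar (M * ℓ * p) (jqModC Qbar)
        rw [ModularCurve.qExpand_qExpand]
        exact ModularCurve.qExpand_congr (by ring) _
    | algebraMap c => exact ⟨A (algebraMap Qbar _ c), Subfield.subset_closure (.inl ⟨_, rfl⟩),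
        by rw [A.commutes]; rfl⟩
    | add x y _ _ hx hy => exact add_mem hx hy
    | inv x _ hx => exact inv_mem hx
    | mul x y _ _ hx hy => exact mul_mem hx hy
  rw [eq_top_iff]
  intro z _
  have hz : (z : LaurentSeries Qbar) ∈ modularFunctionFieldC Qbar (M * ℓ * p) := by
    rw [← MF.laurentBaseChange_full_eq_pair]; exact z.2
  obtain ⟨w, hw, hwz⟩ := key _ hz
  exact (Subtype.ext hwz : w = z) ▸ hw

/-- The second degeneracy map at `ℓ` commutes with the norm `X₀(M p) → X₀(M)`. -/
theorem beta_normAlong_alpha [hℓ : Fact ℓ.Prime] (hℓp : ℓ ≠ p) (h : TwoComponent.FN M p) :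
    heckeBetaBar Qbar M ℓ (Hecke.normAlong (heckeAlphaBar Qbar M p) h) =
      Hecke.normAlong (heckeAlphaBar Qbar (M * ℓ) p)
        (castMid M ℓ p (heckeBetaBar Qbar (M * p) ℓ h)) := by
  have hB : ∀ x, (((castMid M ℓ p).toAlgHom.comp (heckeBetaBar Qbar (M * p) ℓ)) x :
      LaurentSeries Qbar) = qExpand Qbar ℓ (x : LaurentSeries Qbar) := fun x => by
    rw [AlgHom.comp_apply]
    exact (coe_castMid M ℓ p _).trans (coe_heckeBetaBar _ _ x)
  have hsq : (heckeAlphaBar Qbar (M * ℓ) p).comp (heckeBetaBar Qbar M ℓ) =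
      ((castMid M ℓ p).toAlgHom.comp (heckeBetaBar Qbar (M * p) ℓ)).comp
        (heckeAlphaBar Qbar M p) :=
    AlgHom.ext fun x => Subtype.ext (by
      rw [AlgHom.comp_apply, AlgHom.comp_apply, hB, coe_heckeAlphaBar, coe_heckeBetaBar,
        coe_heckeAlphaBar])
  have hdeg : finrankAlong Qbar (heckeAlphaBar Qbar (M * ℓ) p) =
      finrankAlong Qbar (heckeAlphaBar Qbar M p) := by
    rw [Hecke.finrankAlong_alpha, Hecke.finrankAlong_alpha,
      Hecke.relIndex_eq_relIndex M hℓ.out hp.out hℓp]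
  exact Hecke.normAlong_baseChange hsq (Hecke.finiteAlong _) (Hecke.finiteAlong _) hdeg
    (closure_square_eq_top M ℓ p _ _ (fun x => coe_heckeAlphaBar _ _ x) hB) h

/-- The two composites of first degeneracy maps from level `M` to level `M ℓ p` agree. -/
theorem alpha_comp_alpha (M ℓ p : ℕ) [NeZero M] [NeZero ℓ] [NeZero p] :
    (heckeAlphaBar Qbar (M * ℓ) p).comp (heckeAlphaBar Qbar M ℓ) =
      (castMid M ℓ p).toAlgHom.comp
        ((heckeAlphaBar Qbar (M * p) ℓ).comp (heckeAlphaBar Qbar M p)) :=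
  AlgHom.ext fun x => Subtype.ext (by
    rw [AlgHom.comp_apply, AlgHom.comp_apply, AlgHom.comp_apply, coe_heckeAlphaBar,
      coe_heckeAlphaBar]
    refine Eq.symm ((coe_castMid M ℓ p _).trans ?_)
    rw [coe_heckeAlphaBar, coe_heckeAlphaBar])

/-- **The norm `X₀(M p) → X₀(M)` commutes with the norms of `T_ℓ`.** -/
theorem normN_normAlong_alpha [hℓ : Fact ℓ.Prime] (hℓp : ℓ ≠ p) (h : TwoComponent.FN M p) :
    normN Qbar M ℓ (Hecke.normAlong (heckeAlphaBar Qbar M p) h) =
      Hecke.normAlong (heckeAlphaBar Qbar M p) (normN Qbar (M * p) ℓ h) := by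
  rw [normN_eq_normAlong, normN_eq_normAlong, beta_normAlong_alpha hℓp, normAlong_comp,
    normAlong_comp, alpha_comp_alpha]
  exact normAlong_equiv_comp ((heckeAlphaBar Qbar (M * p) ℓ).comp (heckeAlphaBar Qbar M p))
    (castMid M ℓ p) (heckeBetaBar Qbar (M * p) ℓ h)

variable (M p)

/-- `τ ↦ pτ` from level `M p` to level `M`. -/
def betaP (hpM : ¬ p ∣ M) : modularFunctionFieldBar M →ₐ[Qbar] TwoComponent.FN M p :=
  (TwoComponent.wAL M p hpM).toAlgHom.comp (TwoComponent.inclM M p)

variable {M p}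

/-- The norm along the second degeneracy map is that along the first after Atkin–Lehner. -/
theorem normAlong_betaP (hpM : ¬ p ∣ M) (f : TwoComponent.FN M p) :
    Hecke.normAlong (betaP M p hpM) f =
      Hecke.normAlong (heckeAlphaBar Qbar M p) (TwoComponent.wAL M p hpM f) := by
  have h := normAlong_equiv_comp (TwoComponent.inclM M p) (TwoComponent.wAL M p hpM)
    (TwoComponent.wAL M p hpM f)
  rw [TwoComponent.wAL_wAL] at h
  rw [betaP, h, inclM_eq]

/-- The Hecke norm at `ℓ` commutes with the norm along the second degeneracy map. -/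
theorem normN_normAlong_betaP [Fact ℓ.Prime] (hpM : ¬ p ∣ M) (hℓp : ℓ ≠ p)
    (f : TwoComponent.FN M p) :
    normN Qbar M ℓ (Hecke.normAlong (betaP M p hpM) f) =
      Hecke.normAlong (betaP M p hpM) (normN Qbar (M * p) ℓ f) := by
  rw [normAlong_betaP, normAlong_betaP, normN_normAlong_alpha hℓp, normN_wAL hpM hℓp]

/-- The norm along `φ` of a function whose class is an eigenclass of order `r₀` is a constant times
an `r₀`-th power, unless the representation is residually modular of level `M` at `r₀`. -/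
theorem residuallyModular_or_normAlong_eq {r₀ : ℕ} [Fact r₀.Prime]
    {W : WeierstrassCurve ℤ} (hΔ : W.Δ ≠ 0) {S : Finset ℕ}
    (φ : modularFunctionFieldBar M →ₐ[Qbar] TwoComponent.FN M p)
    (hcomm : ∀ (r : ℕ) [NeZero r] [Fact r.Prime], r ∉ S → ∀ h,
      normN Qbar M r (Hecke.normAlong φ h) = Hecke.normAlong φ (normN Qbar (M * p) r h))
    {f : TwoComponent.FN M p} (hf : f ≠ 0) {D : Divisor.degZero (K := Qbar)
      (F := TwoComponent.FN M p)}
    (hdiv : ∀ Q : Place Qbar (TwoComponent.FN M p),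
      Q.ord f = (r₀ : ℤ) * (D : Divisor Qbar (TwoComponent.FN M p)) Q)
    (heig : ∀ r : Nat.Primes, (r : ℕ) ∉ S →
      heckeOperatorBar (M * p) r (Pic0.mk D) = W.apOfModel r • Pic0.mk D) :
    W.IsResiduallyModularOfLevel r₀ M ∨
      ∃ (b : Qbar) (k : modularFunctionFieldBar M), b ≠ 0 ∧ k ≠ 0 ∧
      Hecke.normAlong φ f = algebraMap Qbar (modularFunctionFieldBar M) b * k ^ r₀ := by
  set g := Hecke.normAlong φ f
  have hfin : FiniteAlong Qbar φ := Hecke.finiteAlong φ
  have hg : g ≠ 0 := normAlong_ne_zero φ hfin hf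
  let C : Divisor.degZero (K := Qbar) (F := modularFunctionFieldBar M) :=
    ⟨_, Divisor.pushforwardAlong_mem_degZero φ (Hecke.isIntegralAlong φ) D.2⟩
  have hdivg : ∀ Q : Place Qbar (modularFunctionFieldBar M),
      Q.ord g = (r₀ : ℤ) * (C : Divisor Qbar (modularFunctionFieldBar M)) Q := by
    intro Q
    rw [← Hecke.pushforwardAlong_eq_ord_normAlong φ (Hecke.isIntegralAlong φ) hfin
      (Hecke.normFormulaAlong _ _) hf (D := (r₀ : ℤ) • (D : Divisor Qbar (TwoComponent.FN M p)))
      (fun w => by rw [Finsupp.smul_apply, smul_eq_mul, hdiv]), map_zsmul, Finsupp.smul_apply,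
      smul_eq_mul]
  have hpos : 0 < r₀ := (Fact.out : r₀.Prime).pos
  set x : JZero M := Pic0.mk C
  have hx : r₀ • x = 0 := by
    show r₀ • QuotientAddGroup.mk' _ C = 0
    rw [← map_nsmul]
    refine (QuotientAddGroup.eq_zero_iff _).mpr (AddSubgroup.mem_addSubgroupOf.mpr
      ⟨g, hg, fun Q => ?_⟩)
    rw [AddSubmonoidClass.coe_nsmul, Finsupp.smul_apply, nsmul_eq_mul, hdivg]
  by_cases hx0 : x = 0
  · right
    obtain ⟨k, hk, hkC⟩ :=
      AddSubgroup.mem_addSubgroupOf.mp ((QuotientAddGroup.eq_zero_iff C).mp hx0)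
    obtain ⟨b, hb, hbk⟩ :=
      (FF.divOf_eq_zero_iff (K := Qbar) (div_ne_zero hg (pow_ne_zero r₀ hk))).mp <| by
        refine Finsupp.ext fun Q => ?_
        rw [FF.divOf_apply, FF.ord_div Q hg (pow_ne_zero _ hk), FF.ord_pow, hdivg, hkC,
          Finsupp.zero_apply, sub_self]
    exact ⟨b, k, hb, hk, (div_eq_iff (pow_ne_zero _ hk)).mp hbk⟩
  · left
    obtain ⟨Ins⟩ := Attach.nonempty_jacobianInputs M r₀
    refine residuallyModular_of_eigen Ins hΔ hx0 hx (S := S) fun r hr => ?_
    have : NeZero (r : ℕ) := ⟨r.2.ne_zero⟩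
    have : Fact (r : ℕ).Prime := ⟨r.2⟩
    have he := heig r hr
    rw [heckeOperatorBar_apply] at he
    obtain ⟨c, h, hc, hh, hrel⟩ :=
      exists_normN_eq_of_eigen (L := Qbar) (N := M * p) (ℓ := (r : ℕ)) hf hdiv he
    rw [heckeOperatorBar_apply]
    refine heckeOperatorAlong_eq_of_normN hpos hg hdivg
      (c := c ^ finrankAlong Qbar φ) (pow_ne_zero _ hc) (normAlong_ne_zero φ hfin hh) ?_
    rw [hcomm r hr, hrel, map_mul, map_mul, map_pow, normAlong_algebraMap,
      monoidHom_zpow _ hf]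

end Fermat.Agent.LoweringAtP.HeckeCompat
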