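import Fermat.Agent.LoweringAtP.HeckeCompat.LevelIncl
import Fermat.Agent.TwoComponent.ModelNodes
import Fermat.Agent.TwoComponent.Pair

/-!
# The two reductions of `X₀(M p)` and the Hecke operators

The two reductions at `p` commute with the norms of `T_ℓ` and with the inclusions of levels; norm
relations reduce to norm relations.
-/

noncomputable section

namespace Fermat.Agent.LoweringAtP.HeckeCompat

open AlgebraicCurve ModularCurve Fermat.Agent.Red

local notation "Qbar" => AlgebraicClosure ℚ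

section Generic

variable {K k F Fk : Type*} [Field K] [Field F] [Algebra K F] [Field k] [Field Fk] [Algebra k Fk]
variable {A : ValuationSubring K} {π : A →+* k} (R : RedBase A π F Fk)

/-- Integral powers of a unit of the reduction ring. -/
theorem exists_zpow_mem {u : R.O} (hu : R.red u ≠ 0) (a : ℤ) :
    ∃ r : R.O, (r : F) = (u : F) ^ a ∧ R.red r = R.red u ^ a := by
  obtain ⟨s, hs, hsr⟩ := TwoComponent.inv_mem_O R hu
  rcases Int.eq_nat_or_neg a with ⟨n, rfl | rfl⟩
  · exact ⟨u ^ n, by rw [zpow_natCast, SubmonoidClass.coe_pow], by rw [zpow_natCast, map_pow]⟩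
  · exact ⟨s ^ n, by rw [zpow_neg, zpow_natCast, SubmonoidClass.coe_pow, hs, inv_pow],
      by rw [zpow_neg, zpow_natCast, map_pow, hsr, inv_pow]⟩

/-- Proportional units have proportional reductions. -/
theorem exists_red_eq_smul {x y : R.O} (hx : R.red x ≠ 0) (hy : R.red y ≠ 0) {e : K}
    (h : (x : F) = algebraMap K F e * (y : F)) :
    ∃ t : k, t ≠ 0 ∧ R.red x = algebraMap k Fk t * R.red y := by
  have he : e ∈ A := R.mem_of_smul_mem hy h
  have h' : x = R.ι ⟨e, he⟩ * y := Subtype.ext (by rw [Subring.coe_mul, RedBase.coe_ι, h])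
  have hr : R.red x = algebraMap k Fk (π ⟨e, he⟩) * R.red y := by
    rw [h', map_mul, RedBase.red_ι]
  exact ⟨π ⟨e, he⟩, fun h0 => hx (by rw [hr, h0, map_zero, zero_mul]), hr⟩

end Generic

section Relation

variable {L : Type*} [Field L] [Algebra ℚ L] [CharZero L] [IsAlgClosed L]
variable {A : ValuationSubring L} {k : Type*} [Field k] [IsAlgClosed k] {π : A →+* k}
variable {N M ℓ : ℕ} [NeZero N] [NeZero M] [NeZero ℓ]

omit [CharZero L] [IsAlgClosed L] [IsAlgClosed k] in
/-- A norm relation reduces to a norm relation. -/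
theorem exists_normC_rel
    {R : RedBase A π (laurentBaseChange L (modularFunctionFieldFull N))
      (modularFunctionFieldFullC k M)} (hR : NormCompat M ℓ R)
    {f : laurentBaseChange L (modularFunctionFieldFull N)} (hf : f ≠ 0) {a : ℤ} {m : ℕ} {c : L}
    {h : laurentBaseChange L (modularFunctionFieldFull N)} (hh : h ≠ 0)
    (hrel : normN L N ℓ f = algebraMap L _ c * (f ^ a * h ^ m))
    {u : R.O} (hu : R.red u ≠ 0) {c₀ : L}
    (hu₀ : f = algebraMap L _ c₀ * (u : laurentBaseChange L (modularFunctionFieldFull N))) :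
    ∃ t : k, t ≠ 0 ∧ ∃ w : modularFunctionFieldFullC k M, w ≠ 0 ∧
      normC k M ℓ (R.red u) = algebraMap k _ t * R.red u ^ a * w ^ m := by
  have hc₀ : c₀ ≠ 0 := fun h0 => hf (by rw [hu₀, h0, map_zero, zero_mul])
  obtain ⟨v, hv, hvr⟩ := hR u hu
  obtain ⟨r, hr, hrr⟩ := exists_zpow_mem R hu a
  obtain ⟨d, w, hw, hhw⟩ := R.scale h hh
  set n := finrankAlong L (heckeAlphaBar L N ℓ)
  have hv0 : R.red v ≠ 0 := by rw [hvr]; exact normC_ne_zero hu
  have hy0 : R.red (r * w ^ m) ≠ 0 := by
    rw [map_mul, map_pow, hrr]; exact mul_ne_zero (zpow_ne_zero _ hu) (pow_ne_zero _ hw)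
  obtain ⟨t, ht, hte⟩ := exists_red_eq_smul R hv0 hy0
    (e := (c₀ ^ n)⁻¹ * (c * (c₀ ^ a * d ^ m))) <| by
    refine mul_left_cancel₀ ((map_ne_zero (algebraMap L
      (laurentBaseChange L (modularFunctionFieldFull N)))).mpr (pow_ne_zero n hc₀)) ?_
    rw [hv, ← normN_algebraMap, ← map_mul, ← hu₀, hrel, hu₀, hhw, mul_zpow, mul_pow,
      Subring.coe_mul, SubmonoidClass.coe_pow, hr, ← map_zpow₀, ← map_pow, normN_algebraMap]
    have key : ∀ (x y z : laurentBaseChange L (modularFunctionFieldFull N)), x ≠ 0 →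
        x * (x⁻¹ * y * z) = y * z := fun x y z hx => by
      rw [← mul_assoc, ← mul_assoc, mul_inv_cancel₀ hx, one_mul]
    simp only [map_mul, map_inv₀]
    rw [key _ _ _ ((map_ne_zero _).mpr (pow_ne_zero n hc₀))]
    ring
  refine ⟨t, ht, R.red w, hw, ?_⟩
  rw [← hvr, hte, map_mul, map_pow, hrr, mul_assoc]

end Relation

section Model

variable {M L p : ℕ} [NeZero M] [NeZero L] [hp : Fact p.Prime]
variable {A : ValuationSubring Qbar} {k : Type*} [Field k] [CharP k p] [IsAlgClosed k]
  {π : A →+* k}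

/-- The norms of `T_ℓ` on integral expansions, with the reduction in the component. -/
theorem red_normN_false {ℓ : ℕ} [NeZero ℓ] [Fact ℓ.Prime] (hpM : ¬ p ∣ M)
    (hres : TwoComponent.ResidueAt A p π) (hℓM : ¬ ℓ ∣ M) (hℓp : ℓ ≠ p)
    (u : (TwoComponent.redC M p hpM hres false).O) :
    ∃ h : normN Qbar (M * p) ℓ (u : TwoComponent.FN M p) ∈ (TwoComponent.redC M p hpM hres false).O,
      (TwoComponent.redC M p hpM hres false).red ⟨_, h⟩ =
        normC k M ℓ ((TwoComponent.redC M p hpM hres false).red u) := by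
  have hℓ : ℓ.Prime := Fact.out
  have hℓN : ¬ ℓ ∣ M * p := fun h => (hℓ.dvd_mul.mp h).elim hℓM fun h' =>
    hℓp ((Nat.prime_dvd_prime_iff_eq hℓ hp.out).mp h')
  have hK : ((M * ℓ : ℕ) : k) ≠ 0 := by
    rw [Ne, CharP.cast_eq_zero_iff k p, hp.out.dvd_mul]
    rintro (h | h)
    · exact hpM h
    · exact hℓp ((Nat.prime_dvd_prime_iff_eq hp.out hℓ).mp h).symm
  obtain ⟨y, z, hz, hyz⟩ := (TwoComponent.mem_gaussO A π (TwoComponent.FN M p)).mp u.2
  have hmem : ∀ x : TwoComponent.intFns A (TwoComponent.FN M p),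
      TwoComponent.intRed A π (TwoComponent.FN M p) x ∈ modularFunctionFieldFullC k M := fun x => by
    have h := TwoComponent.red_mem_CK M p hpM hres false ⟨_, TwoComponent.intFns_le_gaussO A π _ x⟩
    rwa [show (TwoComponent.redPair M p hpM hres false).red
      ⟨_, TwoComponent.intFns_le_gaussO A π _ x⟩ =
      TwoComponent.intRed A π (TwoComponent.FN M p) x from TwoComponent.gaussRedHom_int A π
        _ x] at h
  have hN : ∀ x : TwoComponent.intFns A (TwoComponent.FN M p), ∃ w : TwoComponent.intFns A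
    (TwoComponent.FN M p),
      (w : TwoComponent.FN M p) = normN Qbar (M * p) ℓ x ∧ TwoComponent.intRed A π
        (TwoComponent.FN M p) w =
        (normC k M ℓ ⟨_, hmem x⟩ : modularFunctionFieldFullC k M) := by
    intro x
    set Y := TwoComponent.liftSeries A (TwoComponent.FN M p) x
    have hY := TwoComponent.coeffMap_liftSeries A (TwoComponent.FN M p) x
    have hy' : coeffMap A.subtype Y ∈ TwoComponent.FN M p := by rw [hY]; exact SetLike.coe_mem _
    have hyk : coeffMap π Y ∈ modularFunctionFieldFullC k M := hmem x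
    obtain ⟨w, hw, hwπ⟩ := exists_norm_lift hℓN hℓM hK Y hy' hyk
    have e1 : (⟨coeffMap A.subtype Y, hy'⟩ : TwoComponent.FN M p) = (x : TwoComponent.FN M p) :=
      Subtype.ext hY
    rw [e1] at hw
    refine ⟨⟨normN Qbar (M * p) ℓ x, (TwoComponent.mem_intFns A _).mpr ⟨w, hw⟩⟩, rfl, ?_⟩
    exact (TwoComponent.intRed_eq A π _ (f := ⟨normN Qbar (M * p) ℓ x,
      (TwoComponent.mem_intFns A _).mpr ⟨w, hw⟩⟩) hw).trans hwπ
  obtain ⟨yN, hyN, hyr⟩ := hN y
  obtain ⟨zN, hzN, hzr⟩ := hN z
  have hz' : TwoComponent.intRed A π (TwoComponent.FN M p) zN ≠ 0 := by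
    rw [hzr]
    exact fun h => normC_ne_zero (ℓ := ℓ)
      (fun h0 : (⟨_, hmem z⟩ : modularFunctionFieldFullC k M) = 0 => hz (congrArg Subtype.val h0))
      (Subtype.ext h)
  have heq : normN Qbar (M * p) ℓ (u : TwoComponent.FN M p) * (zN : TwoComponent.FN M p) =
      (yN : TwoComponent.FN M p) := by
    rw [hzN, hyN, ← map_mul, hyz]
  have h : normN Qbar (M * p) ℓ (u : TwoComponent.FN M p) ∈
    (TwoComponent.redC M p hpM hres false).O :=
    (TwoComponent.mem_gaussO A π (TwoComponent.FN M p)).mpr ⟨yN, zN, hz', heq⟩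
  refine ⟨h, ?_⟩
  have hu' : ((TwoComponent.redC M p hpM hres false).red u : LaurentSeries k) =
      TwoComponent.intRed A π (TwoComponent.FN M p) y / TwoComponent.intRed A π
        (TwoComponent.FN M p) z :=
    TwoComponent.gaussRedHom_eq A π (TwoComponent.FN M p) (f := u) hz hyz
  have hred : ((TwoComponent.redC M p hpM hres false).red ⟨_, h⟩ : LaurentSeries k) =
      TwoComponent.intRed A π (TwoComponent.FN M p) yN / TwoComponent.intRed A π
        (TwoComponent.FN M p) zN :=
    TwoComponent.gaussRedHom_eq A π (TwoComponent.FN M p) (f := ⟨_, h⟩) hz' heq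
  have hz0 : (⟨_, hmem z⟩ : modularFunctionFieldFullC k M) ≠ 0 := fun h0 =>
    hz (congrArg Subtype.val h0)
  have e : (TwoComponent.redC M p hpM hres false).red u * ⟨_, hmem z⟩ = ⟨_, hmem y⟩ :=
    Subtype.ext (by
    show ((TwoComponent.redC M p hpM hres false).red u : LaurentSeries k) * _ = _
    rw [hu', div_mul_cancel₀ _ hz])
  refine Subtype.ext (hred.trans ?_)
  rw [hyr, hzr, ← e, map_mul, IntermediateField.coe_mul, mul_div_cancel_right₀]
  exact fun h => normC_ne_zero (ℓ := ℓ) hz0 (Subtype.ext h)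

/-- **The reductions commute with the norms of `T_ℓ`.** -/
theorem normCompat_redC {ℓ : ℕ} [NeZero ℓ] [Fact ℓ.Prime] (hpM : ¬ p ∣ M)
    (hres : TwoComponent.ResidueAt A p π) (hℓM : ¬ ℓ ∣ M) (hℓp : ℓ ≠ p) (i : Bool) :
    NormCompat (L := Qbar) (N := M * p) M ℓ (TwoComponent.redC M p hpM hres i) := by
  intro u _
  cases i
  · obtain ⟨h, hr⟩ := red_normN_false hpM hres hℓM hℓp u
    exact ⟨⟨_, h⟩, rfl, hr⟩
  · obtain ⟨h, hr⟩ := red_normN_false hpM hres hℓM hℓp
      (⟨TwoComponent.wAL M p hpM (u : TwoComponent.FN M p), u.2⟩ : (TwoComponent.redC M p hpM hres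
        false).O)
    have h2 : normN Qbar (M * p) ℓ (u : TwoComponent.FN M p) ∈
      (TwoComponent.redC M p hpM hres true).O := by
      show TwoComponent.wAL M p hpM (normN Qbar (M * p) ℓ (u : TwoComponent.FN M p)) ∈
        (TwoComponent.redInf M p hres).O
      rw [normN_wAL hpM hℓp]
      exact h
    refine ⟨⟨_, h2⟩, rfl, Eq.trans (Subtype.ext ?_) hr⟩
    exact congrArg (TwoComponent.redInf M p hres).red
      (Subtype.ext (normN_wAL hpM hℓp (u : TwoComponent.FN M p)))

/-- The first reductions commute with the inclusions of levels. -/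
theorem red_inclFN_false (h : M ∣ L) (hpL : ¬ p ∣ L) (hres : TwoComponent.ResidueAt A p π)
    (u : (TwoComponent.redC M p (fun h' => hpL (h'.trans h)) hres false).O) :
    ∃ hu : inclFN h (u : TwoComponent.FN M p) ∈ (TwoComponent.redC L p hpL hres false).O,
      (TwoComponent.redC L p hpL hres false).red ⟨_, hu⟩ =
        inclC k h ((TwoComponent.redC M p (fun h' => hpL (h'.trans h)) hres false).red u) := by
  obtain ⟨y, z, hz, hyz⟩ := (TwoComponent.mem_gaussO A π (TwoComponent.FN M p)).mp u.2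
  have hpush : ∀ x : TwoComponent.intFns A (TwoComponent.FN M p), ∃ x' : TwoComponent.intFns A
    (TwoComponent.FN L p),
      (x' : TwoComponent.FN L p) = inclFN h x ∧
        TwoComponent.intRed A π (TwoComponent.FN L p) x' = TwoComponent.intRed A π
          (TwoComponent.FN M p) x := by
    intro x
    have hY : coeffMap A.subtype (TwoComponent.liftSeries A (TwoComponent.FN M p) x) =
        ((inclFN h (x : TwoComponent.FN M p) : TwoComponent.FN L p) : LaurentSeries Qbar) := by
      rw [TwoComponent.coeffMap_liftSeries, coe_inclFN]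
    let x' : TwoComponent.intFns A (TwoComponent.FN L p) :=
      ⟨inclFN h (x : TwoComponent.FN M p), (TwoComponent.mem_intFns A _).mpr ⟨_, hY⟩⟩
    exact ⟨x', rfl, (TwoComponent.intRed_eq A π (TwoComponent.FN L p) (f := x') hY).trans rfl⟩
  obtain ⟨y', hy', hyr⟩ := hpush y
  obtain ⟨z', hz', hzr⟩ := hpush z
  have hz0 : TwoComponent.intRed A π (TwoComponent.FN L p) z' ≠ 0 := by rw [hzr]; exact hz
  have heq : inclFN h (u : TwoComponent.FN M p) * (z' : TwoComponent.FN L p) =
    (y' : TwoComponent.FN L p) := by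
    rw [hy', hz', ← map_mul, hyz]
  have hu : inclFN h (u : TwoComponent.FN M p) ∈ (TwoComponent.redC L p hpL hres false).O :=
    (TwoComponent.mem_gaussO A π (TwoComponent.FN L p)).mpr ⟨y', z', hz0, heq⟩
  refine ⟨hu, Subtype.ext ?_⟩
  rw [coe_inclC]
  refine (TwoComponent.gaussRedHom_eq A π (TwoComponent.FN L p) (f := ⟨_, hu⟩) hz0 heq).trans ?_
  rw [hyr, hzr]
  exact (TwoComponent.gaussRedHom_eq A π (TwoComponent.FN M p) (f := u) hz hyz).symm

/-- **The reductions commute with the inclusions of levels.** -/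
theorem red_inclFN (h : M ∣ L) (hpL : ¬ p ∣ L) (hres : TwoComponent.ResidueAt A p π) (i : Bool)
    (u : (TwoComponent.redC M p (fun h' => hpL (h'.trans h)) hres i).O) :
    ∃ hu : inclFN h (u : TwoComponent.FN M p) ∈ (TwoComponent.redC L p hpL hres i).O,
      (TwoComponent.redC L p hpL hres i).red ⟨_, hu⟩ =
        inclC k h ((TwoComponent.redC M p (fun h' => hpL (h'.trans h)) hres i).red u) := by
  cases i
  · exact red_inclFN_false h hpL hres u
  obtain ⟨hu, hr⟩ := red_inclFN_false h hpL hres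
    (⟨TwoComponent.wAL M p (fun h' => hpL (h'.trans h)) (u : TwoComponent.FN M p), u.2⟩ :
      (TwoComponent.redC M p (fun h' => hpL (h'.trans h)) hres false).O)
  have h2 : inclFN h (u : TwoComponent.FN M p) ∈ (TwoComponent.redC L p hpL hres true).O := by
    show TwoComponent.wAL L p hpL (inclFN h (u : TwoComponent.FN M p)) ∈
      (TwoComponent.redInf L p hres).O
    rw [wAL_inclFN h hpL]
    exact hu
  refine ⟨h2, Eq.trans (Subtype.ext ?_) hr⟩
  exact congrArg (TwoComponent.redInf L p hres).red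
    (Subtype.ext (wAL_inclFN h hpL (u : TwoComponent.FN M p)))

end Model

end Fermat.Agent.LoweringAtP.HeckeCompat
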