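import Fermat.Agent.LoweringAtP.HeckeCompat.EigenModL
import Fermat.Agent.LoweringAtP.HeckeCompat.Eisenstein
import Fermat.Agent.LoweringAtP.HeckeCompat.NormTower
import Fermat.Agent.LoweringAtP.HeckeCompat.RedRel
import Fermat.Agent.LoweringAtP.Main
import Fermat.Agent.LoweringAtP.Setup.Fixed
import Fermat.Agent.LoweringAtP.Setup.LevelMap
import Fermat.Agent.TwoComponent.Model
import Fermat.Agent.TwoComponent.ModelDegen

/-!
# The Hecke steps of Mazur's principle at `p`

For a function of level `M p` with eigen divisor class, pulled back to level `L p`: congruent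
slopes vanish, and both norms to level `L` are constants times `p`-th powers unless the
representation is residually modular of level `M`. Also: orders divisible by `p` descend along
a map of degree prime to `p`.
-/

noncomputable section

namespace Fermat.Agent.LoweringAtP.HeckeCompat

open AlgebraicCurve ModularCurve WeierstrassCurve.Affine.Point Fermat.Agent.Red

local notation "Qbar" => AlgebraicClosure ℚ
local notation "GQ" => AlgebraicClosure ℚ ≃ₐ[ℚ] AlgebraicClosure ℚ

theorem levelMap_eq_inclFN {M L p : ℕ} [NeZero M] [NeZero L] [Fact p.Prime] (hML : M ∣ L)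
    (x : TwoComponent.FN M p) : Setup.levelMap p hML x = inclFN hML x :=
  Subtype.ext ((Setup.coe_levelMap p hML x).trans (coe_inclFN hML x).symm)

/-- A unit part at level `M p` gives one at level `L p`. -/
theorem exists_unit_level {M L p : ℕ} [NeZero M] [NeZero L] [Fact p.Prime]
    {A : ValuationSubring Qbar} {k : Type*} [Field k] [CharP k p] [IsAlgClosed k] {π : A →+* k}
    (hML : M ∣ L) (hpL : ¬ p ∣ L) (hres : TwoComponent.ResidueAt A p π) {f₀ : TwoComponent.FN M p}
      (hf₀ : f₀ ≠ 0)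
    (i : Bool) :
    ∃ (c₀ : Qbar) (u : (TwoComponent.redC M p (fun h => hpL (h.trans hML)) hres i).O)
      (u' : (TwoComponent.redC L p hpL hres i).O),
      (TwoComponent.redC M p (fun h => hpL (h.trans hML)) hres i).red u ≠ 0 ∧
      f₀ = algebraMap Qbar (TwoComponent.FN M p) c₀ * (u : TwoComponent.FN M p) ∧
      (TwoComponent.redC L p hpL hres i).red u' ≠ 0 ∧
      Setup.levelMap p hML f₀ = algebraMap Qbar (TwoComponent.FN L p) c₀ *
        (u' : TwoComponent.FN L p) ∧
      (TwoComponent.redC L p hpL hres i).red u' =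
        inclC k hML ((TwoComponent.redC M p (fun h => hpL (h.trans hML)) hres i).red u) := by
  obtain ⟨c₀, hu, he⟩ :=
    TwoComponent.unitPart_spec (TwoComponent.redC M p (fun h => hpL (h.trans hML)) hres i) hf₀
  obtain ⟨hm, hr⟩ := red_inclFN hML hpL hres i
    (TwoComponent.unitPart (TwoComponent.redC M p (fun h => hpL (h.trans hML)) hres i) f₀)
  refine ⟨c₀, _, ⟨_, hm⟩, hu, he, ?_, ?_, hr⟩
  · rw [hr]
    exact (map_ne_zero _).mpr hu
  · conv_lhs => rw [he]
    rw [levelMap_eq_inclFN, map_mul, (inclFN hML).commutes]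

section Inputs

variable {p : ℕ} [Fact p.Prime] {W : WeierstrassCurve ℤ} (hΔ : W.Δ ≠ 0)
variable {M L : ℕ} [NeZero M] [NeZero L] (hML : M ∣ L) (hpL : ¬ p ∣ L)
variable {A : ValuationSubring Qbar} {k : Type*} [Field k] [CharP k p] [IsAlgClosed k]
  {π : A →+* k} (hres : TwoComponent.ResidueAt A p π)
variable (hgen : genusFF Qbar (modularFunctionFieldBar L) ≤ genusFF k (TwoComponent.CK L k))
variable {S : Finset ℕ} {f₀ : TwoComponent.FN M p} (hf₀ : f₀ ≠ 0)
variable {D₀ : Divisor.degZero (K := Qbar) (F := TwoComponent.FN M p)}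
variable (hdiv : ∀ Q : Place Qbar (TwoComponent.FN M p),
  Q.ord f₀ = (p : ℤ) * (D₀ : Divisor Qbar (TwoComponent.FN M p)) Q)
variable (heig : ∀ r : Nat.Primes, (r : ℕ) ∉ S →
  heckeOperatorBar (M * p) r (Pic0.mk D₀) = W.apOfModel r • Pic0.mk D₀)

include hΔ hf₀ hdiv heig in
/-- Congruent slopes vanish modulo `p`. -/
theorem slopesZero_of_congr (hp2 : p ≠ 2) (hirr : W.ModRepIsIrreducible p)
    {ubar : TwoComponent.CK L k} (hu : (ubar : LaurentSeries k) = unitSer k p) {κ : ℤ}
    (hκ : κ ≠ 0)
    (hunode : ∀ s, ((TwoComponent.modelTwoRed L p hpL hres hgen).br s false).ord ubar = κ)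
    (huoff : ∀ Q : Place k (TwoComponent.CK L k), 0 ≤ Q.ord (jC k L) →
      (∀ s, (TwoComponent.modelTwoRed L p hpL hres hgen).br s false ≠ Q) → Q.ord ubar = 0)
    (hoff : ∀ Q : Place k (TwoComponent.CK L k),
      (∀ s, (TwoComponent.modelTwoRed L p hpL hres hgen).br s false ≠ Q) → (p : ℤ) ∣
        TwoComponent.redOrd ((TwoComponent.modelTwoRed L p hpL hres hgen).R false)
          (Setup.levelMap p hML f₀) Q)
    (hcongr : SlopesCongr (TwoComponent.modelTwoRed L p hpL hres hgen) p
      (Setup.levelMap p hML f₀)) :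
    SlopesZero (TwoComponent.modelTwoRed L p hpL hres hgen) p (Setup.levelMap p hML f₀) := by
  classical
  intro s₀
  set T := TwoComponent.modelTwoRed L p hpL hres hgen with hT
  set f := Setup.levelMap p hML f₀ with hf
  have hpM : ¬ p ∣ M := fun h => hpL (h.trans hML)
  have hLk : (L : k) ≠ 0 := fun h => hpL ((CharP.cast_eq_zero_iff k p L).mp h)
  obtain ⟨c₀, u, u', hu₀, hue, hu', hfe, hr⟩ := exists_unit_level hML hpL hres hf₀ false
  have hf0 : f ≠ 0 := (map_ne_zero _).mpr hf₀
  have hord : ∀ Q, TwoComponent.redOrd (T.R false) f Q =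
      Q.ord (inclC k hML ((TwoComponent.redC M p hpM hres false).red u)) := fun Q => by
    rw [← hr]
    exact TwoComponent.redOrd_eq (T.R false) hf0 hu' hfe Q
  have hfin : ∀ s, 0 ≤ (T.br s false).ord (jC k L) := fun s => by
    have h : max 0 (-(T.br s false).ord (TwoComponent.xbC L p : TwoComponent.CK L k)) = 0 := by
      have h1 := T.br_regular s false
      change FF.poleDiv (K := k) (TwoComponent.xbC L p : TwoComponent.CK L k)
        (T.br s false) = 0 at h1
      rwa [FF.poleDiv_apply, max_comm] at h1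
    rw [TwoComponent.xbC, FF.ord_pow, show (TwoComponent.jbC L : TwoComponent.CK L k) = jC k L from
      Subtype.ext Igusa.jv_one_one] at h
    have h2 := (le_max_right 0 (-(((p + 1 : ℕ) : ℤ) * (T.br s false).ord (jC k L)))).trans_eq h
    exact nonneg_of_mul_nonneg_right (by linarith) (Int.natCast_pos.mpr (Nat.succ_pos p))
  rw [hord]
  refine p_dvd_lambda hp2 hΔ hirr hLk hu
    (g := inclC k hML ((TwoComponent.redC M p hpM hres false).red u))
    ((map_ne_zero _).mpr hu₀) (S := S ∪ L.primeFactors ∪ {p}) (fun r _ _ hrS => ?_) hκ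
    (fun Q => if ∃ s, T.br s false = Q then 1 else 0) (fun Q hQ => ?_) ?_
    ⟨T.br s₀ false, hfin s₀, if_pos ⟨s₀, rfl⟩⟩
  · rw [Finset.mem_union, Finset.mem_union, Finset.mem_singleton, not_or, not_or] at hrS
    obtain ⟨⟨hrS, hrL'⟩, hrp⟩ := hrS
    have hr' : r.Prime := Fact.out
    have hrL : ¬ r ∣ L := fun h => hrL' (Nat.mem_primeFactors.mpr ⟨hr', h, NeZero.ne L⟩)
    have hK : ((L * r : ℕ) : k) ≠ 0 := by
      rw [Nat.cast_mul]
      exact mul_ne_zero hLk fun h => hrp ((Nat.prime_dvd_prime_iff_eq Fact.out hr').mp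
        ((CharP.cast_eq_zero_iff k p r).mp h)).symm
    have he := heig ⟨r, hr'⟩ hrS
    rw [heckeOperatorBar_apply] at he
    obtain ⟨c, h, -, hh, hrel⟩ :=
      exists_normN_eq_of_eigen (L := Qbar) (N := M * p) (ℓ := r) hf₀ hdiv he
    obtain ⟨t, ht, w, hw, hwe⟩ := exists_normC_rel
      (normCompat_redC hpM hres (fun h => hrL (h.trans hML)) hrp false) hf₀ hh hrel hu₀ hue
    refine ⟨t, ht, inclC k hML w, (map_ne_zero _).mpr hw, ?_⟩
    rw [normC_inclC hML hrL hK, hwe, map_mul, map_mul, map_pow, map_zpow₀, (inclC k hML).commutes]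
  · by_cases hs : ∃ s, T.br s false = Q
    · rw [if_pos hs, mul_one]
      obtain ⟨s, rfl⟩ := hs
      exact hunode s
    · rw [if_neg hs, mul_zero]
      exact huoff Q hQ fun s hs' => hs ⟨s, hs'⟩
  · intro Q hQ
    by_cases hs : ∃ s, T.br s false = Q
    · rw [if_pos hs, mul_one]
      obtain ⟨s, rfl⟩ := hs
      rw [← hord, ← hord]
      exact hcongr s s₀
    · rw [if_neg hs, mul_zero, sub_zero, ← hord]
      exact hoff Q fun s hs' => hs ⟨s, hs'⟩

include hpL in
/-- If the degree of `X₀(L) → X₀(M)` is prime to `p` and all orders of the pullback of `g` are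
divisible by `p`, so are all orders of `g`. -/
theorem dvd_ord_of_dvd_ord_inclC {c : ℕ} (hc : Igusa.psi (L * p) = c * Igusa.psi (M * p))
    (hpc : ¬ p ∣ c) {g : TwoComponent.CK M k}
    (hg : ∀ Q' : Place k (TwoComponent.CK L k), (p : ℤ) ∣ Q'.ord (inclC k hML g))
    (Q : Place k (TwoComponent.CK M k)) : (p : ℤ) ∣ Q.ord g := by
  have hp : p.Prime := Fact.out
  have hpM : ¬ p ∣ M := fun h => hpL (h.trans hML)
  have hLk : (L : k) ≠ 0 := fun h => hpL ((CharP.cast_eq_zero_iff k p L).mp h)
  have hMk : (M : k) ≠ 0 := fun h => hpM ((CharP.cast_eq_zero_iff k p M).mp h)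
  have := TwoComponent.isFunctionField_CK M p hpM (k := k)
  have := TwoComponent.isFunctionField_CK L p hpL (k := k)
  have hψ : Igusa.psi L = c * Igusa.psi M := by
    rw [Igusa.psi_mul_prime (NeZero.ne L) hp, if_neg hpL, Igusa.psi_mul_prime (NeZero.ne M) hp,
      if_neg hpM, ← mul_assoc] at hc
    exact Nat.eq_of_mul_eq_mul_right (Nat.succ_pos _) hc
  have hfr : finrankAlong k (inclC k hML) = c := by
    have h := Hecke.finrank_adjoin_apply (inclC k hML) (jC k M)
    rw [show inclC k hML (jC k M) = jC k L from Subtype.ext (coe_inclC hML _),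
      Red.finrank_adjoin_eq_relfinrank, Red.finrank_adjoin_eq_relfinrank,
      show ((jC k L : TwoComponent.CK L k) : LaurentSeries k) = Igusa.jv 1 1 from
        Igusa.jv_one_one.symm,
      show ((jC k M : TwoComponent.CK M k) : LaurentSeries k) = Igusa.jv 1 1 from
        Igusa.jv_one_one.symm,
      Igusa.relfinrank_full L hLk, Igusa.relfinrank_full M hMk, hψ, mul_comm c] at h
    exact (Nat.eq_of_mul_eq_mul_left (Igusa.psi_pos _) h).symm
  set D := Divisor.pullbackAlong (inclC k hML) (Setup.integral_along _) (FF.divOf (K := k) g)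
  have hD : ∀ Q', (p : ℤ) ∣ D Q' := fun Q' => by
    rw [Hecke.pullbackAlong_apply_eq_ord (inclC k hML) (Setup.integral_along _)
      (D := FF.divOf (K := k) g) (fun v => FF.divOf_apply g v)]
    exact hg Q'
  have hsplit : D = (p : ℤ) • D.mapRange (· / (p : ℤ)) (Int.zero_ediv _) :=
    Finsupp.ext fun Q' => by
      rw [Finsupp.smul_apply, Finsupp.mapRange_apply, smul_eq_mul, Int.mul_ediv_cancel' (hD Q')]
  have hpush := DFunLike.congr_fun (Setup.pushforward_pullback (inclC k hML)
    (FF.divOf (K := k) g)) Q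
  rw [show Divisor.pullbackAlong (inclC k hML) (Setup.integral_along _) (FF.divOf (K := k) g) = D
    from rfl, hsplit, map_zsmul, Finsupp.smul_apply, Finsupp.smul_apply, smul_eq_mul, smul_eq_mul,
    hfr, FF.divOf_apply] at hpush
  exact ((Nat.prime_iff_prime_int.mp hp).dvd_or_dvd ⟨_, hpush.symm⟩).resolve_left
    fun h => hpc (Int.natCast_dvd_natCast.mp h)

end Inputs

section Norm

/-- A constant times a `p`-th power with fixed coefficients is a fixed constant times the `p`-th
power of a function with fixed coefficients. -/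
theorem exists_fixed_root {N : ℕ} {H : Subgroup GQ} {p : ℕ} (hp : 0 < p)
    {g : modularFunctionFieldBar N} (hg : g ∈ Setup.fixedField N H) {b : Qbar}
    {h : modularFunctionFieldBar N} (hb : b ≠ 0) (hh : h ≠ 0)
    (he : g = algebraMap Qbar (modularFunctionFieldBar N) b * h ^ p) :
    ∃ (b' : Qbar) (h' : modularFunctionFieldBar N), (∀ σ ∈ H, σ b' = b') ∧
      h' ∈ Setup.fixedField N H ∧ g = algebraMap Qbar (modularFunctionFieldBar N) b' * h' ^ p := by
  set c := (h : LaurentSeries Qbar).leadingCoeff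
  have hh' : (h : LaurentSeries Qbar) ≠ 0 := fun h0 => hh (Subtype.ext h0)
  have hc : c ≠ 0 := HahnSeries.leadingCoeff_ne_zero.mpr hh'
  set h' := algebraMap Qbar (modularFunctionFieldBar N) c⁻¹ * h with hh'def
  set b' := b * c ^ p with hb'
  have he' : g = algebraMap Qbar (modularFunctionFieldBar N) b' * h' ^ p := by
    rw [hb', hh'def, mul_pow, ← map_pow, ← mul_assoc, ← map_mul, inv_pow, mul_assoc b,
      mul_inv_cancel₀ (pow_ne_zero _ hc), mul_one, he]
  have hser : (h' : LaurentSeries Qbar) = HahnSeries.C c⁻¹ * (h : LaurentSeries Qbar) := by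
    rw [hh'def, IntermediateField.coe_mul, HahnSeries.C_apply,
      ← algebraMap_laurentSeries_eq_single]
    rfl
  have hl : (h' : LaurentSeries Qbar).leadingCoeff = 1 := by
    rw [hser, HahnSeries.leadingCoeff_mul, HahnSeries.C_apply, HahnSeries.leadingCoeff_of_single,
      inv_mul_cancel₀ hc]
  have hgser : (g : LaurentSeries Qbar) = HahnSeries.C b' * (h' : LaurentSeries Qbar) ^ p := by
    rw [he', IntermediateField.coe_mul, SubmonoidClass.coe_pow, HahnSeries.C_apply,
      ← algebraMap_laurentSeries_eq_single]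
    rfl
  have hlpow : ∀ n : ℕ, ((h' : LaurentSeries Qbar) ^ n).leadingCoeff = 1 := fun n => by
    induction n with
    | zero => rw [pow_zero, HahnSeries.leadingCoeff_one]
    | succ n ih => rw [pow_succ, HahnSeries.leadingCoeff_mul, ih, hl, mul_one]
  have hgl : (g : LaurentSeries Qbar).leadingCoeff = b' := by
    rw [hgser, HahnSeries.leadingCoeff_mul, HahnSeries.C_apply, HahnSeries.leadingCoeff_of_single,
      hlpow, mul_one]
  rw [Setup.mem_fixedField_iff] at hg
  have hbfix : ∀ σ ∈ H, σ b' = b' := fun σ hσ => by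
    rw [← hgl, HahnSeries.leadingCoeff_eq]
    exact hg σ hσ _
  refine ⟨b', h', hbfix, ?_, he'⟩
  rw [Setup.mem_fixedField_iff]
  intro σ hσ n
  have hne : (h' : LaurentSeries Qbar) ≠ 0 := fun h0 => one_ne_zero (α := Qbar) (by
    rw [← hl, h0, HahnSeries.leadingCoeff_zero])
  set y := coeffMap (σ : Qbar →+* Qbar) (h' : LaurentSeries Qbar) with hy
  have hpow : y ^ p = (h' : LaurentSeries Qbar) ^ p := by
    have e : coeffMap (σ : Qbar →+* Qbar) (g : LaurentSeries Qbar) = (g : LaurentSeries Qbar) :=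
      HahnSeries.ext (funext fun m => hg σ hσ m)
    have hb'0 : HahnSeries.C (Γ := ℤ) b' ≠ 0 :=
      (map_ne_zero _).mpr (mul_ne_zero hb (pow_ne_zero _ hc))
    rw [hgser, map_mul, map_pow, ← hy, show coeffMap (σ : Qbar →+* Qbar)
      (HahnSeries.C b' : LaurentSeries Qbar) = HahnSeries.C b' by
        rw [HahnSeries.C_apply, coeffMap_single]; exact congrArg _ (hbfix σ hσ)] at e
    exact mul_left_cancel₀ hb'0 e
  have : NeZero p := ⟨hp.ne'⟩
  have : NeZero (p : Qbar) := ⟨Nat.cast_ne_zero.mpr hp.ne'⟩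
  obtain ⟨z, hz⟩ := HasEnoughRootsOfUnity.exists_primitiveRoot Qbar p
  obtain ⟨i, -, hi⟩ := (hz.map_of_injective (f := (HahnSeries.C : Qbar →+* LaurentSeries Qbar))
    HahnSeries.C_injective).eq_pow_of_pow_eq_one
    (ξ := y / (h' : LaurentSeries Qbar))
    (by rw [div_pow, hpow, div_self (pow_ne_zero _ hne)])
  rw [← map_pow, eq_div_iff hne] at hi
  have hy1 : y.leadingCoeff = z ^ i := by
    rw [← hi, HahnSeries.leadingCoeff_mul, HahnSeries.C_apply, HahnSeries.leadingCoeff_of_single,
      hl, mul_one]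
  have hone : z ^ i = 1 := by
    have hmain : y.coeff (h' : LaurentSeries Qbar).order = 1 := by
      rw [hy, coeffMap_coeff, ← HahnSeries.leadingCoeff_eq, hl, map_one]
    rw [← hi, HahnSeries.C_apply, HahnSeries.coeff_single_mul, sub_zero,
      ← HahnSeries.leadingCoeff_eq, hl, mul_one] at hmain
    exact hmain
  have : y = (h' : LaurentSeries Qbar) := by rw [← hi, hone, map_one, one_mul]
  conv_rhs => rw [← this, hy, coeffMap_coeff]
  rfl

variable {p : ℕ} [Fact p.Prime] {W : WeierstrassCurve ℤ} (hΔ : W.Δ ≠ 0)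
variable {M L : ℕ} [NeZero M] [NeZero L] (hML : M ∣ L) (hpL : ¬ p ∣ L)
variable {S : Finset ℕ} {f₀ : TwoComponent.FN M p} (hf₀ : f₀ ≠ 0)
variable {D₀ : Divisor.degZero (K := Qbar) (F := TwoComponent.FN M p)}
variable (hdiv : ∀ Q : Place Qbar (TwoComponent.FN M p),
  Q.ord f₀ = (p : ℤ) * (D₀ : Divisor Qbar (TwoComponent.FN M p)) Q)
variable (heig : ∀ r : Nat.Primes, (r : ℕ) ∉ S →
  heckeOperatorBar (M * p) r (Pic0.mk D₀) = W.apOfModel r • Pic0.mk D₀)

include hΔ hf₀ hdiv heig hpL in
/-- The norms to the level `L` along both degeneracy maps are constants times `p`-th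
powers, or the representation is residually modular of level `M`. -/
theorem norm_root_or_modular :
    W.IsResiduallyModularOfLevel p M ∨
      (∃ (b : Qbar) (h : modularFunctionFieldBar L), b ≠ 0 ∧ h ≠ 0 ∧
        Hecke.normAlong (TwoComponent.inclM L p) (Setup.levelMap p hML f₀) =
          algebraMap Qbar (modularFunctionFieldBar L) b * h ^ p) ∧
      ∃ (b : Qbar) (h : modularFunctionFieldBar L), b ≠ 0 ∧ h ≠ 0 ∧
        Hecke.normAlong (betaP L p hpL) (Setup.levelMap p hML f₀) =
          algebraMap Qbar (modularFunctionFieldBar L) b * h ^ p := by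
  classical
  by_cases hR : W.IsResiduallyModularOfLevel p M
  · exact Or.inl hR
  right
  have hpM : ¬ p ∣ M := fun h => hpL (h.trans hML)
  have hS : ∀ r : Nat.Primes, (r : ℕ) ∉ insert p S →
      heckeOperatorBar (M * p) r (Pic0.mk D₀) = W.apOfModel r • Pic0.mk D₀ :=
    fun r hr => heig r fun h => hr (Finset.mem_insert_of_mem h)
  obtain ⟨bα, hα, hbα, hhα, heα⟩ :=
    (residuallyModular_or_normAlong_eq hΔ (S := insert p S)
      (heckeAlphaBar Qbar M p) (fun r _ _ hr h => normN_normAlong_alpha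
        (fun e => hr (by rw [e]; exact Finset.mem_insert_self _ _)) h) hf₀ hdiv hS).resolve_left hR
  obtain ⟨bβ, hβ, hbβ, hhβ, heβ⟩ :=
    (residuallyModular_or_normAlong_eq hΔ (S := insert p S)
      (betaP M p hpM) (fun r _ _ hr h => normN_normAlong_betaP hpM
        (fun e => hr (by rw [e]; exact Finset.mem_insert_self _ _)) h) hf₀ hdiv hS).resolve_left hR
  refine ⟨⟨bα, inclBar hML hα, hbα, (map_ne_zero _).mpr hhα, ?_⟩,
    bβ, inclBar hML hβ, hbβ, (map_ne_zero _).mpr hhβ, ?_⟩
  · rw [inclM_eq, levelMap_eq_inclFN, normAlong_inclFN hML hpL, heα, map_mul, map_pow,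
      (inclBar hML).commutes]
  · rw [normAlong_betaP, levelMap_eq_inclFN, wAL_inclFN hML hpL, normAlong_inclFN hML hpL,
      ← normAlong_betaP hpM, heβ, map_mul, map_pow, (inclBar hML).commutes]

end Norm

end Fermat.Agent.LoweringAtP.HeckeCompat
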