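import Fermat.Agent.LoweringAtP.Three.RedPowers

/-!
# The Hecke inputs of Mazur's principle at `p` hold

The three inputs hold for a level `L p` whose degree over level `M p` is prime to `p`.
-/

noncomputable section

namespace Fermat.Agent.LoweringAtP.HeckeCompat

open AlgebraicCurve ModularCurve WeierstrassCurve.Affine.Point Fermat.Agent.Red Fermat.Agent.Igusa
  Fermat.Agent.TwoComponent

local notation "Qbar" => AlgebraicClosure ℚ

/-- **The Hecke inputs** for a residual eigenvector of an integral model. -/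
theorem heckeInputs {p : ℕ} [Fact p.Prime] (hp2 : p ≠ 2) {M L c : ℕ} [NeZero M] [NeZero L]
    (hML : M ∣ L) (hpL : ¬ p ∣ L) (hc : psi (L * p) = c * psi (M * p)) (hpc : ¬ p ∣ c)
    {W : WeierstrassCurve ℤ} (hΔ : W.Δ ≠ 0) (hirr : W.ModRepIsIrreducible p)
    {A : ValuationSubring (AlgebraicClosure ℚ)} (hA : A.LiesOverPrime p)
    [CharP (IsLocalRing.ResidueField A) p] [IsAlgClosed (IsLocalRing.ResidueField A)]
    (MI : Setup.ModelInputs p L hpL (Setup.residueAt hA) (Red.genus_le A hpL hA))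
    {D : Divisor.degZero (K := Qbar) (F := TwoComponent.FN M p)} {f₀ : TwoComponent.FN M p}
    (hf₀ : f₀ ≠ 0) (hdiv : ∀ Q : Place Qbar (TwoComponent.FN M p),
      Q.ord f₀ = (p : ℤ) * (D : Divisor Qbar (TwoComponent.FN M p)) Q)
    (heig : ∀ ℓ : Nat.Primes, (ℓ : ℕ) ∉ badSet (M * p) p W →
      heckeOperatorBar (M * p) ℓ (Pic0.mk D) = W.apOfModel ℓ • Pic0.mk D)
    (X : EisData MI.Q₀ p)
    (hfix : Setup.CoeffFixed (N := M * p) (Setup.inertiaStab A (X.ϖ : Qbar)) f₀)
    (hoff : ∀ i (Q : Place (IsLocalRing.ResidueField A)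
        (TwoComponent.CK L (IsLocalRing.ResidueField A))),
      (∀ s, (TwoComponent.modelTwoRed L p hpL (Setup.residueAt hA) (Red.genus_le A hpL hA)).br s
        i ≠ Q) →
        (p : ℤ) ∣ redOrd ((TwoComponent.modelTwoRed L p hpL (Setup.residueAt hA)
          (Red.genus_le A hpL hA)).R i) (Setup.levelMap p hML f₀) Q) :
    Setup.HeckeInputs MI hML (W.IsResiduallyModularOfLevel p M) f₀ X :=
  Three.heckeInputs_of hp2 hML hpL hΔ hirr hA MI hf₀ hdiv heig X hfix hoff
    fun _ _ hg _ => dvd_ord_of_dvd_ord_inclC hML hpL hc hpc hg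

end Fermat.Agent.LoweringAtP.HeckeCompat
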