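import Fermat.Agent.Attach.Model
import Fermat.Agent.Attach.Trace
import Fermat.Agent.Hecke.Commute
import Fermat.Agent.Hecke.GaloisEquivariant
import Fermat.Agent.MW.Divisible
import Fermat.Agent.MW.Infinity

/-!
# Hecke polynomials vanishing on forms are nilpotent on `J₀(N)`

A polynomial in good Hecke operators which is zero on cusp forms kills the torsion of `J₀(N)(ℚ̄)`,
hence, by the Northcott property of the height, its square is zero.
-/

noncomputable section

namespace Fermat.Agent.LoweringAtP.HeckeCompat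

open AlgebraicCurve ModularCurve NumberField Height

local notation "Qbar" => AlgebraicClosure ℚ
local notation "GQ" => AlgebraicClosure ℚ ≃ₐ[ℚ] AlgebraicClosure ℚ

section Northcott

variable {F : Type*} [Field F] [Algebra Qbar F] [FF.IsFunctionField Qbar F] {Φ : MW.Frame Qbar F}

theorem finite_tuples {ι : Type*} [Finite ι] (L : IntermediateField ℚ Qbar) [FiniteDimensional ℚ L]
    (i₀ : ι) (B : ℝ) :
    {x : ι → L | x i₀ = 1 ∧ MW.hgt (fun i => (x i : Qbar)) ≤ B}.Finite := by
  have : NumberField L := {}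
  have hfin : {a : L | logHeight₁ a ≤ B * Module.finrank ℚ L}.Finite :=
    NumberField.finite_setOfPred_logHeight₁_le (K := L) _
  refine (Set.Finite.pi fun _ : ι => hfin).subset ?_
  rintro x ⟨h1, hB⟩ i -
  rw [MW.hgt_eq _ L fun i => (x i).2, div_le_iff₀ (Nat.cast_pos.mpr Module.finrank_pos)] at hB
  show logHeight₁ (x i) ≤ _
  rw [logHeight₁_eq_logHeight]
  refine le_trans ?_ hB
  have : ![x i, 1] = fun k : Fin 2 => x (![i, i₀] k) := by
    funext k; fin_cases k <;> simp [h1]
  rw [this]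
  exact logHeight_comp_le _ x

/-- Northcott for the quadratic height on classes defined over a number field. -/
theorem finite_qH_le_fixed (R : MW.Arith Φ) (L : IntermediateField ℚ Qbar) [FiniteDimensional ℚ L]
    (B : ℝ) :
    {z : Pic0 Qbar F |
      (∀ σ : GQ, (∀ a ∈ L, σ a = a) → R.gal σ • z = z) ∧ Φ.qH z ≤ B}.Finite := by
  classical
  have : IsAlgClosure ℚ Qbar := ⟨inferInstance, AlgebraicClosure.isAlgebraic ℚ⟩
  have : IsGalois ℚ Qbar := { to_normal := IsAlgClosure.normal ℚ Qbar }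
  obtain ⟨C, hC⟩ := Φ.exists_vec_le_qH
  refine Set.Finite.subset (Set.finite_iUnion
    fun θ₀ : Fin (MW.nn F) → Fin (Φ.dim (MW.nlev F)) =>
      (finite_tuples L θ₀ (B + C)).biUnion fun q _ =>
        Φ.finite_kum_fibre fun θ => (q θ : Qbar)) ?_
  rintro z ⟨hz, hB⟩
  obtain ⟨d, -, -⟩ := Φ.exists_kumData z ∅
  obtain ⟨θ₀, h₀⟩ := Function.ne_iff.mp d.vec_ne_zero
  have hmem : ∀ θ, d.vec θ / d.vec θ₀ ∈ L := fun θ => by
    rw [← InfiniteGalois.fixedField_fixingSubgroup L, IntermediateField.mem_fixedField_iff]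
    intro σ hσ
    have hσ' := hz σ fun a ha => (IntermediateField.mem_fixingSubgroup_iff L σ).mp hσ a ha
    obtain ⟨c, hc, h⟩ := d.exists_smul_eq (R.mapKum σ hσ' d)
    have e : ∀ η, σ (d.vec η) = c * d.vec η := fun η => by rw [← R.vec_mapKum σ hσ', h]; rfl
    rw [map_div₀, e, e, mul_div_mul_left _ _ hc]
  let q : (Fin (MW.nn F) → Fin (Φ.dim (MW.nlev F))) → L := fun θ => ⟨_, hmem θ⟩
  have hv : d.vec = d.vec θ₀ • fun θ => (q θ : Qbar) := funext fun θ => by
    rw [Pi.smul_apply, smul_eq_mul, mul_div_cancel₀ _ h₀]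
  simp only [Set.mem_iUnion, exists_prop]
  refine ⟨θ₀, q, ⟨Subtype.ext (div_self h₀), ?_⟩, d, _, h₀, hv⟩
  have h := hC z d
  rw [hv, MW.hgt_smul _ h₀] at h
  linarith

end Northcott

variable {N : ℕ} [NeZero N]

/-- An endomorphism of `J₀(N)(ℚ̄)` commuting with Galois and killing the torsion takes torsion
values. -/
theorem exists_nsmul_eq_zero (e : JZero N →+ JZero N)
    (hG : ∀ (σ : GQ) x, σ • e x = e (σ • x))
    (he : ∀ (m : ℕ) x, 0 < m → m • x = 0 → e x = 0) (x : JZero N) :
    ∃ m : ℕ, 0 < m ∧ m • e x = 0 := by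
  obtain ⟨L, hL, hx⟩ := Mono.exists_level_jZero x
  choose half hhalf using MW.exists_half N
  let y : ℕ → JZero N := fun n => half^[n] x
  have hys : ∀ n, y (n + 1) + y (n + 1) = y n := fun n => by
    show half^[n + 1] x + half^[n + 1] x = half^[n] x
    rw [Function.iterate_succ_apply']
    exact hhalf _
  have hy : ∀ n, (2 ^ n) • y n = x := fun n => by
    induction n with
    | zero => exact one_nsmul x
    | succ n ih => rw [pow_succ, mul_nsmul', two_nsmul, hys, ih]
  have hfix : ∀ n (σ : GQ), (∀ a ∈ L, σ a = a) →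
      Mono.galF N σ • e (y n) = e (y n) := fun n σ hσ => by
    show σ • e (y n) = e (y n)
    rw [hG, ← sub_eq_zero, ← map_sub]
    refine he (2 ^ n) _ (by positivity) ?_
    have h1 : 2 ^ n • (σ • y n) = σ • (2 ^ n • y n) :=
      (map_nsmul (DistribSMul.toAddMonoidHom (JZero N) σ) (2 ^ n) (y n)).symm
    rw [nsmul_sub, hy, h1, hy, hx σ hσ, sub_self]
  obtain ⟨C, hC⟩ := (MW.inftyFrame N).exists_parallelogram
  set h : JZero N → ℝ := fun z => (MW.inftyFrame N).qH z
  have hdouble : ∀ z, |h (z + z) - 4 * h z| ≤ C + |h 0| := fun z => by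
    have h1 := abs_le.mp (hC z z)
    rw [sub_self] at h1
    rw [abs_le]
    have h2 := le_abs_self (h 0)
    have h3 := neg_abs_le (h 0)
    simp only [h] at h2 h3 ⊢
    constructor <;> linarith [h1.1, h1.2]
  have hbd : ∀ n, h (e (y n)) ≤ |h (e x)| + C + |h 0| := fun n => by
    induction n with
    | zero =>
      have := (le_abs_self (h (e x)))
      have hC0 : 0 ≤ C := (abs_nonneg _).trans (hC 0 0)
      have := abs_nonneg (h 0)
      show h (e x) ≤ _
      linarith
    | succ n ih =>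
      have h1 := abs_le.mp (hdouble (e (y (n + 1))))
      rw [← map_add, hys] at h1
      have := abs_nonneg (h (e x))
      have hC0 : 0 ≤ C := (abs_nonneg _).trans (hC 0 0)
      have := abs_nonneg (h 0)
      linarith [h1.1]
  have hfin := finite_qH_le_fixed (MW.inftyArith N) L (|h (e x)| + C + |h 0|)
  obtain ⟨a, -, b, -, hab, heq⟩ := (Set.infinite_univ (α := ℕ)).exists_ne_map_eq_of_mapsTo
    (f := fun n => e (y n))
    (t := {z : JZero N | (∀ σ : GQ, (∀ a ∈ L, σ a = a) → (MW.inftyArith N).gal σ • z = z) ∧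
      (MW.inftyFrame N).qH z ≤ |h (e x)| + C + |h 0|})
    (fun n _ => ⟨fun σ hσ => hfix n σ hσ, hbd n⟩) hfin
  have key : ∀ c, e x = 2 ^ c • e (y c) := fun c => by rw [← map_nsmul, hy]
  wlog hlt : a < b generalizing a b
  · exact this b a hab.symm heq.symm (lt_of_le_of_ne (not_lt.mp hlt) (Ne.symm hab))
  refine ⟨2 ^ b - 2 ^ a, Nat.sub_pos_of_lt (Nat.pow_lt_pow_right one_lt_two hlt), ?_⟩
  have h0 : (2 ^ b - 2 ^ a) • e (y a) = 0 := by
    have h1 : 2 ^ a • e (y a) + (2 ^ b - 2 ^ a) • e (y a) = 2 ^ a • e (y a) + 0 := by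
      rw [← add_nsmul, Nat.add_sub_cancel' (Nat.pow_le_pow_right two_pos hlt.le), add_zero,
        ← key a]
      show 2 ^ b • e (y a) = e x
      rw [show e (y a) = e (y b) from heq, ← key b]
    exact add_left_cancel h1
  rw [key a, ← mul_nsmul', mul_comm, mul_nsmul', h0, nsmul_zero]

section Hecke

variable (N) in
/-- The indices of good Hecke operators away from `S`. -/
abbrev GoodIdx (S : Set ℕ) : Type := {ℓ : Nat.Primes // ¬ (ℓ : ℕ) ∣ N ∧ (ℓ : ℕ) ∉ S}

variable (N) in
/-- Evaluation on `J₀(N)(ℚ̄)`. -/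
def jEval (S : Set ℕ) : MvPolynomial (GoodIdx N S) ℤ →+* Module.End ℤ (JZero N) :=
  (heckeEvalBar (Hecke.heckeOperatorsCommuteBar (N := N))).comp
    (MvPolynomial.rename Subtype.val).toRingHom

theorem jEval_X {S : Set ℕ} (i : GoodIdx N S) :
    jEval N S (MvPolynomial.X i) = heckeOperatorBar N i.1 := by
  show heckeEvalBar _ (MvPolynomial.rename Subtype.val (MvPolynomial.X i)) = _
  rw [MvPolynomial.rename_X]
  exact heckeEvalBar_heckeGen _ i.1

theorem jEval_C {S : Set ℕ} (a : ℤ) :
    jEval N S (MvPolynomial.C a) = (a : Module.End ℤ (JZero N)) := by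
  show heckeEvalBar _ (MvPolynomial.rename Subtype.val (MvPolynomial.C a)) = _
  rw [MvPolynomial.rename_C]
  exact heckeEvalBar_C _ a

variable (N) in
/-- Evaluation on cusp forms. -/
def cuspEval (S : Set ℕ) : MvPolynomial (GoodIdx N S) ℤ →+* CuspForm.heckeAlgebra N 2 S :=
  MvPolynomial.eval₂Hom (Int.castRingHom _) fun i : GoodIdx N S =>
    CuspForm.heckeAlgebra.T i.1.2 i.2.1 i.2.2

theorem cuspEval_X {S : Set ℕ} (i : GoodIdx N S) :
    cuspEval N S (MvPolynomial.X i) = CuspForm.heckeAlgebra.T i.1.2 i.2.1 i.2.2 := by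
  simp [cuspEval]

/-- The evaluation map onto the Hecke algebra of cusp forms is surjective. -/
theorem cuspEval_surjective {S : Set ℕ} (hS : ∀ q, q.Prime → q ∣ N → q ∈ S) :
    Function.Surjective (cuspEval N S) := fun t =>
  Attach.forall_mem_of_T_mem (fun q hq hq' => hS q hq' hq) (RingHom.id _) (cuspEval N S).range
    (fun ℓ hℓ hℓN hℓS => ⟨MvPolynomial.X (⟨⟨ℓ, hℓ⟩, hℓN, hℓS⟩ : GoodIdx N S), cuspEval_X _⟩) t

theorem galois_jEval {S : Set ℕ} (P : MvPolynomial (GoodIdx N S) ℤ) (σ : GQ) (x : JZero N) :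
    σ • jEval N S P x = jEval N S P (σ • x) := by
  induction P using MvPolynomial.induction_on generalizing x with
  | C a =>
    rw [jEval_C, Module.End.intCast_apply, Module.End.intCast_apply]
    exact map_zsmul (DistribSMul.toAddMonoidHom (JZero N) σ) a x
  | add P Q hP hQ => rw [map_add, LinearMap.add_apply, LinearMap.add_apply, smul_add, hP, hQ]
  | mul_X P i hP =>
    rw [map_mul, jEval_X, Module.End.mul_apply, Module.End.mul_apply, hP,
      Hecke.heckeOperatorBar_galois]

/-- A polynomial which is zero on forms kills the torsion. -/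
theorem jEval_torsion {S : Set ℕ} (hS : ∀ q, q.Prime → q ∣ N → q ∈ S)
    {P : MvPolynomial (GoodIdx N S) ℤ} (hP : cuspEval N S P = 0) {m : ℕ} (hm : 0 < m)
    {x : JZero N} (hx : m • x = 0) : jEval N S P x = 0 := by
  have : NeZero m := ⟨hm.ne'⟩
  let M := Attach.torsionModel N m
  obtain ⟨v, rfl⟩ := (M.proj_range 1 x).mp (by rwa [pow_one])
  have key : ∀ (Q : MvPolynomial (GoodIdx N S) ℤ) (v : M.H), jEval N S Q (M.proj 1 v) =
      M.proj 1 (M.hecke (Attach.toAnemic hS (cuspEval N S Q)) v) := by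
    intro Q
    induction Q using MvPolynomial.induction_on with
    | C a =>
      intro v
      rw [jEval_C, show cuspEval N S (MvPolynomial.C a) = (a : CuspForm.heckeAlgebra N 2 S) by
        rw [← MvPolynomial.algebraMap_eq, eq_intCast, map_intCast], map_intCast, map_intCast,
        Module.End.intCast_apply, Module.End.intCast_apply, map_zsmul]
    | add P Q hP hQ =>
      intro v
      simp only [map_add, LinearMap.add_apply, hP, hQ]
    | mul_X P i hP =>
      intro v
      simp only [map_mul, jEval_X, Module.End.mul_apply, cuspEval_X]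
      rw [M.proj_hecke i.1 i.2.1, hP]
      rfl
  rw [key, hP, map_zero, map_zero, LinearMap.zero_apply, map_zero]

/-- The square of a polynomial which is zero on forms is zero on `J₀(N)(ℚ̄)`. -/
theorem jEval_jEval_eq_zero {S : Set ℕ} (hS : ∀ q, q.Prime → q ∣ N → q ∈ S)
    {P : MvPolynomial (GoodIdx N S) ℤ} (hP : cuspEval N S P = 0) (x : JZero N) :
    jEval N S P (jEval N S P x) = 0 := by
  obtain ⟨m, hm, h⟩ := exists_nsmul_eq_zero (jEval N S P).toAddMonoidHom
    (fun σ x => galois_jEval P σ x) (fun m x hm hx => jEval_torsion hS hP hm hx) x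
  exact jEval_torsion hS hP hm h

end Hecke

end Fermat.Agent.LoweringAtP.HeckeCompat
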