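import Fermat.Agent.LoweringAtP.HeckeCompat.RedHecke
import Fermat.Agent.TwoComponent.ModelBase
import Fermat.Agent.TwoComponent.Slopes

/-!
# Eigenclasses reduce to eigenclasses

An eigenclass of `T_ℓ` gives a norm relation, and a reduction commuting with the norms of `T_ℓ`
turns an eigenvector into an eigenvector of `Pic⁰` of the component.
-/

noncomputable section

namespace Fermat.Agent.LoweringAtP.HeckeCompat

open AlgebraicCurve ModularCurve Fermat.Agent.Red

variable {L : Type*} [Field L] [Algebra ℚ L] [CharZero L] [IsAlgClosed L]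
variable {A : ValuationSubring L} {k : Type*} [Field k] [IsAlgClosed k] {π : A →+* k}
variable {N M ℓ : ℕ} [NeZero N] [NeZero M] [NeZero ℓ]

variable (L N ℓ) in
/-- `f ↦ N_α(β f)` on level `N`. -/
def normN : laurentBaseChange L (modularFunctionFieldFull N) →*
    laurentBaseChange L (modularFunctionFieldFull N) :=
  letI := algebraAlong (heckeAlphaBar L N ℓ)
  (Algebra.norm (laurentBaseChange L (modularFunctionFieldFull N))).comp
    (heckeBetaBar L N ℓ : laurentBaseChange L (modularFunctionFieldFull N) →*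
      laurentBaseChange L (modularFunctionFieldFull (N * ℓ)))

omit [CharZero L] [IsAlgClosed L] in
/-- The norm of a constant. -/
theorem normN_algebraMap (c : L) :
    normN L N ℓ (algebraMap L _ c) = algebraMap L _ (c ^ finrankAlong L (heckeAlphaBar L N ℓ)) := by
  let := algebraAlong (heckeAlphaBar L N ℓ)
  show Algebra.norm (laurentBaseChange L (modularFunctionFieldFull N))
    (heckeBetaBar L N ℓ (algebraMap L _ c)) = _
  rw [(heckeBetaBar L N ℓ).commutes, ← (heckeAlphaBar L N ℓ).commutes,
    show heckeAlphaBar L N ℓ (algebraMap L _ c) = algebraMap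
      (laurentBaseChange L (modularFunctionFieldFull N))
      (laurentBaseChange L (modularFunctionFieldFull (N * ℓ)))
      (algebraMap L (laurentBaseChange L (modularFunctionFieldFull N)) c) from rfl,
    Algebra.norm_algebraMap, map_pow]
  rfl

variable (M ℓ) in
/-- A reduction of level `N` to level `M` over `k` which commutes with the norms of `T_ℓ`. -/
def NormCompat (R : RedBase A π (laurentBaseChange L (modularFunctionFieldFull N))
    (modularFunctionFieldFullC k M)) : Prop :=
  ∀ u : R.O, R.red u ≠ 0 → ∃ v : R.O,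
    (v : laurentBaseChange L (modularFunctionFieldFull N)) = normN L N ℓ u ∧
      R.red v = normC k M ℓ (R.red u)

omit [CharZero L] [IsAlgClosed L] in
/-- An automorphism extending compatibly to level `N ℓ` commutes with the norms. -/
theorem normN_commute
    (τ : laurentBaseChange L (modularFunctionFieldFull N) ≃ₐ[L]
      laurentBaseChange L (modularFunctionFieldFull N))
    (τ' : laurentBaseChange L (modularFunctionFieldFull (N * ℓ)) ≃ₐ[L]
      laurentBaseChange L (modularFunctionFieldFull (N * ℓ)))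
    (hα : ∀ x, τ' (heckeAlphaBar L N ℓ x) = heckeAlphaBar L N ℓ (τ x))
    (hβ : ∀ x, τ' (heckeBetaBar L N ℓ x) = heckeBetaBar L N ℓ (τ x))
    (f : laurentBaseChange L (modularFunctionFieldFull N)) :
    τ (normN L N ℓ f) = normN L N ℓ (τ f) := by
  let := algebraAlong (heckeAlphaBar L N ℓ)
  have h := Algebra.norm_eq_of_equiv_equiv τ.toRingEquiv τ'.toRingEquiv
    (RingHom.ext fun x => (hα x).symm) (heckeBetaBar L N ℓ f)
  show τ (Algebra.norm _ (heckeBetaBar L N ℓ f)) = Algebra.norm _ (heckeBetaBar L N ℓ (τ f))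
  rw [h, ← hβ]
  exact τ.apply_symm_apply _

omit [CharZero L] [IsAlgClosed L] in
/-- The norm of a nonzero function is nonzero. -/
theorem normN_ne_zero {f : laurentBaseChange L (modularFunctionFieldFull N)} (hf : f ≠ 0) :
    normN L N ℓ f ≠ 0 := by
  let := algebraAlong (heckeAlphaBar L N ℓ)
  have : Module.Finite (laurentBaseChange L (modularFunctionFieldFull N))
      (laurentBaseChange L (modularFunctionFieldFull (N * ℓ))) :=
    Hecke.finiteAlong_alpha L N ℓ
  exact Algebra.norm_ne_zero_iff.mpr fun h0 =>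
    hf ((heckeBetaBar L N ℓ).toRingHom.injective (h0.trans (map_zero _).symm))

omit [CharZero L] in
/-- `T_ℓ` takes the divisor of `f` to that of `N_α(β f)`. -/
theorem heckeDivBar_smul {m : ℕ}
    {D : Divisor.degZero (K := L) (F := laurentBaseChange L (modularFunctionFieldFull N))}
    {f : laurentBaseChange L (modularFunctionFieldFull N)} (hf0 : f ≠ 0)
    (hf : ∀ P : Place L (laurentBaseChange L (modularFunctionFieldFull N)),
      P.ord f = (m : ℤ) * (D : Divisor L (laurentBaseChange L (modularFunctionFieldFull N))) P)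
    (P : Place L (laurentBaseChange L (modularFunctionFieldFull N))) :
    (m : ℤ) * heckeDivBar (Hecke.alphaIntegral L N ℓ) (Hecke.betaIntegral L N ℓ)
      (D : Divisor L (laurentBaseChange L (modularFunctionFieldFull N))) P =
        P.ord (normN L N ℓ f) := by
  rw [← smul_eq_mul, ← Finsupp.smul_apply, ← map_zsmul]
  exact EichlerShimura.heckeDivBar_div _ _ (Hecke.finiteAlong_alpha L N ℓ)
    (Hecke.normFormulaAlong _ _) hf0
    (fun P' => by rw [Finsupp.smul_apply, hf, smul_eq_mul]) P

omit [CharZero L] in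
/-- An eigenclass gives a norm relation. -/
theorem exists_normN_eq_of_eigen {m : ℕ}
    {D : Divisor.degZero (K := L) (F := laurentBaseChange L (modularFunctionFieldFull N))}
    {f : laurentBaseChange L (modularFunctionFieldFull N)} (hf0 : f ≠ 0)
    (hf : ∀ P : Place L (laurentBaseChange L (modularFunctionFieldFull N)),
      P.ord f = (m : ℤ) * (D : Divisor L (laurentBaseChange L (modularFunctionFieldFull N))) P)
    {a : ℤ} (hT : heckeOperatorAlong L N ℓ (Pic0.mk D) = a • Pic0.mk D) :
    ∃ (c : L) (h : laurentBaseChange L (modularFunctionFieldFull N)), c ≠ 0 ∧ h ≠ 0 ∧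
      normN L N ℓ f = algebraMap L _ c * (f ^ a * h ^ m) := by
  rw [Hecke.heckeOperatorAlong_eq_pic0] at hT
  replace hT : Pic0.mk (Pic0.degZeroCorrespondence (heckeBetaBar L N ℓ) (heckeAlphaBar L N ℓ)
      (Hecke.betaIntegral L N ℓ) (Hecke.alphaIntegral L N ℓ)
      (Hecke.fundamentalIdentityAlong _ _) D - a • D) = 0 := by
    refine Eq.trans (map_sub (QuotientAddGroup.mk' _) _ _) ?_
    rw [sub_eq_zero, map_zsmul]
    exact hT
  obtain ⟨h, hh0, hh⟩ := AddSubgroup.mem_addSubgroupOf.mp ((QuotientAddGroup.eq_zero_iff _).mp hT)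
  have hN0 := normN_ne_zero (ℓ := ℓ) hf0
  have hg0 : f ^ a * h ^ m ≠ 0 := mul_ne_zero (zpow_ne_zero _ hf0) (pow_ne_zero _ hh0)
  obtain ⟨c, hc0, hc⟩ := (FF.divOf_eq_zero_iff (K := L) (div_ne_zero hN0 hg0)).mp <| by
    refine Finsupp.ext fun P => ?_
    have h1 := hh P
    simp only [AddSubgroupClass.coe_sub, AddSubgroupClass.coe_zsmul, Finsupp.sub_apply,
      Finsupp.smul_apply, smul_eq_mul, Pic0.coe_degZeroCorrespondence] at h1
    rw [FF.divOf_apply, FF.ord_div P hN0 hg0, P.ord_mul (zpow_ne_zero _ hf0) (pow_ne_zero _ hh0),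
      Place.ord_zpow, FF.ord_pow, ← heckeDivBar_smul (ℓ := ℓ) hf0 hf P, hf, ← h1]
    simp only [Finsupp.zero_apply, heckeDivBar]
    ring
  exact ⟨c, h, hc0, hh0, (div_eq_iff hg0).mp hc⟩

omit [CharZero L] in
/-- **Eigenvectors reduce to eigenvectors.** -/
theorem heckeC_eq_of_eigen
    {R : RedBase A π (laurentBaseChange L (modularFunctionFieldFull N))
      (modularFunctionFieldFullC k M)} (hR : NormCompat M ℓ R) {m : ℕ} (hm : 0 < m)
    {D : Divisor.degZero (K := L) (F := laurentBaseChange L (modularFunctionFieldFull N))}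
    {f : laurentBaseChange L (modularFunctionFieldFull N)} (hf0 : f ≠ 0)
    (hf : ∀ P : Place L (laurentBaseChange L (modularFunctionFieldFull N)),
      P.ord f = (m : ℤ) * (D : Divisor L (laurentBaseChange L (modularFunctionFieldFull N))) P)
    {a : ℤ} (hT : heckeOperatorAlong L N ℓ (Pic0.mk D) = a • Pic0.mk D)
    {E : Divisor.degZero (K := k) (F := modularFunctionFieldFullC k M)}
    (hE : ∀ Q, TwoComponent.redOrd R f Q =
      (m : ℤ) * (E : Divisor k (modularFunctionFieldFullC k M)) Q) :
    heckeC k M ℓ (Pic0.mk E) = a • Pic0.mk E := by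
  have hmz : (m : ℤ) ≠ 0 := by omega
  obtain ⟨c, h, hc0, hh0, hc⟩ := exists_normN_eq_of_eigen hf0 hf hT
  have hN0 := normN_ne_zero (ℓ := ℓ) hf0
  have hg0 : f ^ a * h ^ m ≠ 0 := mul_ne_zero (zpow_ne_zero _ hf0) (pow_ne_zero _ hh0)
  -- the lower relation
  obtain ⟨cf, hu, hfu⟩ := TwoComponent.unitPart_spec R hf0
  set u := TwoComponent.unitPart R f
  have hcf : cf ≠ 0 := fun h0 => hf0 (by rw [hfu, h0, map_zero, zero_mul])
  obtain ⟨v, hv, hvr⟩ := hR u hu
  have hv0 : R.red v ≠ 0 := by rw [hvr]; exact normC_ne_zero hu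
  obtain ⟨ch, hw, hhw⟩ := TwoComponent.unitPart_spec R hh0
  set w := TwoComponent.unitPart R h
  have hlow : ∀ Q : Place k (modularFunctionFieldFullC k M), Q.ord (normC k M ℓ (R.red u)) =
      a * ((m : ℤ) * (E : Divisor k (modularFunctionFieldFullC k M)) Q) +
        (m : ℤ) * Q.ord (R.red w) := fun Q => by
    have e1 : TwoComponent.redOrd R (normN L N ℓ f) Q = Q.ord (R.red v) :=
      TwoComponent.redOrd_eq R (c := cf ^ finrankAlong L (heckeAlphaBar L N ℓ)) hN0 hv0
        (by rw [hfu, map_mul, normN_algebraMap, hv]) Q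
    have hzpow : ∀ n : ℤ, TwoComponent.redOrd R (f ^ n) Q = n * TwoComponent.redOrd R f Q := by
      rintro (n | n)
      · rw [Int.ofNat_eq_natCast, zpow_natCast, TwoComponent.redOrd_pow R hf0]
      · rw [zpow_negSucc, TwoComponent.redOrd_inv R (pow_ne_zero _ hf0),
          TwoComponent.redOrd_pow R hf0,
          Int.negSucc_eq]
        push_cast; ring
    rw [← hvr, ← e1, hc, TwoComponent.redOrd_mul R (by simpa using hc0) hg0,
      TwoComponent.redOrd_algebraMap R hc0, zero_add,
      TwoComponent.redOrd_mul R (zpow_ne_zero _ hf0) (pow_ne_zero _ hh0), hzpow,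
        TwoComponent.redOrd_pow R hh0,
      hE, TwoComponent.redOrd_eq R hh0 hw hhw]
  obtain ⟨E', hE', hTE⟩ := coe_heckeC_mk (k := k) (M := M) (ℓ := ℓ) E
  rw [hTE, ← sub_eq_zero]
  have hmk : Pic0.mk E' - a • Pic0.mk E = Pic0.mk (E' - a • E) := by
    set φ := QuotientAddGroup.mk' ((Divisor.principal (K := k)
      (F := modularFunctionFieldFullC k M)).addSubgroupOf
      (Divisor.degZero (K := k) (F := modularFunctionFieldFullC k M)))
    show φ E' - a • φ E = φ (E' - a • E)
    rw [map_sub, map_zsmul]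
  rw [hmk]
  refine (QuotientAddGroup.eq_zero_iff _).mpr (AddSubgroup.mem_addSubgroupOf.mpr
    ⟨R.red w, hw, fun Q => ?_⟩)
  rw [AddSubgroupClass.coe_sub, AddSubgroupClass.coe_zsmul, Finsupp.sub_apply, Finsupp.smul_apply,
    smul_eq_mul]
  refine mul_left_cancel₀ hmz ?_
  have hk : heckeDivC k M ℓ ((m : ℤ) • (E : Divisor k (modularFunctionFieldFullC k M))) Q =
      Q.ord (normC k M ℓ (R.red u)) :=
    heckeDivC_div hu (fun Q' => by
      rw [Finsupp.smul_apply, smul_eq_mul, ← hE]; rfl) Q
  rw [map_zsmul, Finsupp.smul_apply, smul_eq_mul, ← hE', hlow] at hk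
  rw [mul_sub, hk]
  ring

end Fermat.Agent.LoweringAtP.HeckeCompat
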